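import Mathlib
import Fermat.Prelude.Def_FLTPrelim_FreyPackage
import Fermat.Statements.S05
import Fermat.Statements.S10
import Fermat.Statements.S11
import Fermat.Prelude.Def_FLTPrelim_Ramification
import Fermat.Prelude.Def_FLTPrelim_GaloisRep
import Fermat.Statements.S13
import Fermat.Agent.MUL.S05.H5.Assembly
import Fermat.Agent.MUL.S05.H5.FreyNodal
import Fermat.Agent.MUL.Orig.S05.H65.Sym
import Fermat.Agent.MUL.Orig.S05.H75.KerRed
import Fermat.Agent.MUL.Orig.S05.H5.RedB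
import Fermat.Agent.MUL.Orig.S05.H5.Sing
import Fermat.Agent.MUL.S05.H65.Translate
import Fermat.Agent.MUL.Orig.S13.H65.Core2
import Fermat.Agent.MUL.Orig.S05.H27.OfValuation
import Fermat.Agent.MUL.Orig.S13.TwoDecomp
import Fermat.Agent.MUL.Orig.S05.H5.IntVal
import Fermat.Agent.MUL.Orig.S05.H75.FreyData
import Fermat.Agent.MUL.S13.Final
import Fermat.Agent.MUL.S13.AtP
import Fermat.Agent.MUL.S13.CountT
import Fermat.Agent.MUL.Orig.Lib.Frey.Basic
import Fermat.Agent.MUL.Orig.S09.Core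

section MergeWrap_Lib_Kummer_CaseI -- from Lib/Kummer/CaseI.lean

set_option autoImplicit false

namespace Fermat.Agent.Kummer

open Finset

/-- The cofactor `(u ^ p + v ^ p) / (u + v)` for odd `p`. -/
def sgPhi (p : ℕ) (u v : ℤ) : ℤ := ∑ i ∈ range p, u ^ i * (-v) ^ (p - 1 - i)

lemma sgPhi_mul {p : ℕ} (hp : Odd p) (u v : ℤ) : (u + v) * sgPhi p u v = u ^ p + v ^ p := by
  have := geom_sum₂_mul u (-v) p
  rw [sub_neg_eq_add, hp.neg_pow, sub_neg_eq_add] at this
  rw [mul_comm]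
  exact this

lemma sgPhi_cast {R : Type*} [CommRing R] (p : ℕ) (u v : ℤ) :
    ((sgPhi p u v : ℤ) : R) = ∑ i ∈ range p, (u : R) ^ i * (-(v : R)) ^ (p - 1 - i) := by
  simp [sgPhi]

lemma sgPhi_cast_of_add_eq_zero {R : Type*} [CommRing R] (p : ℕ) (u v : ℤ)
    (h : ((u + v : ℤ) : R) = 0) :
    ((sgPhi p u v : ℤ) : R) = p * (u : R) ^ (p - 1) := by
  have hv : -(v : R) = u := by
    push_cast at h
    linear_combination -h
  rw [sgPhi_cast, hv, geom_sum₂_self]

lemma sgPhi_cast_of_left_eq_zero {R : Type*} [CommRing R] {p : ℕ} (hp : Odd p) (u v : ℤ)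
    (h : ((u : ℤ) : R) = 0) :
    ((sgPhi p u v : ℤ) : R) = (v : R) ^ (p - 1) := by
  have hp0 : 0 < p := hp.pos
  have heven : Even (p - 1) := by
    obtain ⟨k, hk⟩ := hp
    exact ⟨k, by omega⟩
  rw [sgPhi_cast, h, Finset.sum_eq_single 0]
  · simp [heven.neg_pow]
  · intro i _ hi
    simp [hi]
  · intro h0
    exact absurd (Finset.mem_range.mpr hp0) h0

lemma sg_isCoprime {p : ℕ} (hp : p.Prime) (hodd : Odd p) {u v w : ℤ} (huv : IsCoprime u v)
    (h : u ^ p + v ^ p = w ^ p) (hpw : ¬ (p : ℤ) ∣ w) : IsCoprime (u + v) (sgPhi p u v) := by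
  rw [Int.isCoprime_iff_gcd_eq_one]
  by_contra hg
  obtain ⟨r, hr, hrdvd⟩ := Nat.exists_prime_and_dvd hg
  have h1 : (r : ℤ) ∣ u + v := (Int.natCast_dvd_natCast.mpr hrdvd).trans (Int.gcd_dvd_left ..)
  have h2 : (r : ℤ) ∣ sgPhi p u v :=
    (Int.natCast_dvd_natCast.mpr hrdvd).trans (Int.gcd_dvd_right ..)
  have : Fact r.Prime := ⟨hr⟩
  have h1' : ((u + v : ℤ) : ZMod r) = 0 := (ZMod.intCast_zmod_eq_zero_iff_dvd _ _).mpr h1
  have h2' : ((sgPhi p u v : ℤ) : ZMod r) = 0 := (ZMod.intCast_zmod_eq_zero_iff_dvd _ _).mpr h2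
  rw [sgPhi_cast_of_add_eq_zero p u v h1'] at h2'
  rcases mul_eq_zero.mp h2' with hp0 | hu0
  · have hrp' : r ∣ p := (ZMod.natCast_eq_zero_iff p r).mp hp0
    have hrp : r = p := (Nat.prime_dvd_prime_iff_eq hr hp).mp hrp'
    subst hrp
    have : (r : ℤ) ∣ w ^ r := by
      rw [← h, ← sgPhi_mul hodd]
      exact Dvd.dvd.mul_right h1 _
    exact hpw (Int.Prime.dvd_pow' hr this)
  · have hu0' : ((u : ℤ) : ZMod r) = 0 := pow_eq_zero_iff (by
      have := hp.two_le; omega) |>.mp hu0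
    have hu : (r : ℤ) ∣ u := (ZMod.intCast_zmod_eq_zero_iff_dvd _ _).mp hu0'
    have hv : (r : ℤ) ∣ v := (Int.dvd_add_right hu).mp h1
    have hunit := huv.isUnit_of_dvd' hu hv
    rw [Int.isUnit_iff_natAbs_eq] at hunit
    simp at hunit
    exact hr.one_lt.ne' hunit

lemma sg_exists_pow {p : ℕ} (hp : p.Prime) (hodd : Odd p) {u v w : ℤ} (huv : IsCoprime u v)
    (h : u ^ p + v ^ p = w ^ p) (hpw : ¬ (p : ℤ) ∣ w) :
    (∃ a : ℤ, u + v = a ^ p) ∧ (∃ α : ℤ, sgPhi p u v = α ^ p) := by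
  have hcop := sg_isCoprime hp hodd huv h hpw
  have hmul : (u + v) * sgPhi p u v = w ^ p := by rw [sgPhi_mul hodd, h]
  exact ⟨Int.eq_pow_of_mul_eq_pow_odd_left hcop hodd hmul,
    Int.eq_pow_of_mul_eq_pow_odd_right hcop hodd hmul⟩

lemma sg_not_both_dvd {q : ℕ} (hq : q.Prime) {u v : ℤ} (huv : IsCoprime u v)
    (hu : (q : ℤ) ∣ u) (hv : (q : ℤ) ∣ v) : False := by
  have hunit := huv.isUnit_of_dvd' hu hv
  rw [Int.isUnit_iff_natAbs_eq] at hunit
  simp at hunit
  exact hq.one_lt.ne' hunit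

lemma sg_case {p q : ℕ} (hp : p.Prime) (hodd : Odd p) (hq : q.Prime)
    (h1 : ∀ x y z : ZMod q, x ^ p + y ^ p + z ^ p = 0 → x = 0 ∨ y = 0 ∨ z = 0)
    (h2 : ∀ x : ZMod q, x ^ p ≠ (p : ZMod q))
    {x y z : ℤ} (hxy : IsCoprime x y) (hyz : IsCoprime y z) (hzx : IsCoprime z x)
    (h : x ^ p + y ^ p + z ^ p = 0) (hpx : ¬ (p : ℤ) ∣ x) (hpy : ¬ (p : ℤ) ∣ y)
    (hpz : ¬ (p : ℤ) ∣ z) (hqx : (q : ℤ) ∣ x) : False := by
  have : Fact q.Prime := ⟨hq⟩
  have hx' : ¬ (p : ℤ) ∣ -x := by rwa [dvd_neg]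
  have hy' : ¬ (p : ℤ) ∣ -y := by rwa [dvd_neg]
  have hz' : ¬ (p : ℤ) ∣ -z := by rwa [dvd_neg]
  have e1 : y ^ p + z ^ p = (-x) ^ p := by rw [hodd.neg_pow]; linear_combination h
  have e2 : z ^ p + x ^ p = (-y) ^ p := by rw [hodd.neg_pow]; linear_combination h
  have e3 : x ^ p + y ^ p = (-z) ^ p := by rw [hodd.neg_pow]; linear_combination h
  obtain ⟨⟨a, ha⟩, ⟨α, hα⟩⟩ := sg_exists_pow hp hodd hyz e1 hx'
  obtain ⟨⟨b, hb⟩, -⟩ := sg_exists_pow hp hodd hzx e2 hy'
  obtain ⟨⟨c, hc⟩, ⟨γ, hγ⟩⟩ := sg_exists_pow hp hodd hxy e3 hz'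
  have hx0 : ((x : ℤ) : ZMod q) = 0 := (ZMod.intCast_zmod_eq_zero_iff_dvd _ _).mpr hqx
  have hy0 : ((y : ℤ) : ZMod q) ≠ 0 := fun hy0 =>
    sg_not_both_dvd hq hxy hqx ((ZMod.intCast_zmod_eq_zero_iff_dvd _ _).mp hy0)
  have hz0 : ((z : ℤ) : ZMod q) ≠ 0 := fun hz0 =>
    sg_not_both_dvd hq hzx ((ZMod.intCast_zmod_eq_zero_iff_dvd _ _).mp hz0) hqx
  have ha' : (y : ZMod q) + z = (a : ZMod q) ^ p := by exact_mod_cast congrArg (Int.cast : ℤ → ZMod q) ha
  have hb' : (z : ZMod q) + x = (b : ZMod q) ^ p := by exact_mod_cast congrArg (Int.cast : ℤ → ZMod q) hb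
  have hc' : (x : ZMod q) + y = (c : ZMod q) ^ p := by exact_mod_cast congrArg (Int.cast : ℤ → ZMod q) hc
  have hsum : (b : ZMod q) ^ p + (c : ZMod q) ^ p + (-(a : ZMod q)) ^ p = 0 := by
    rw [hodd.neg_pow, ← ha', ← hb', ← hc', hx0]
    ring
  rcases h1 _ _ _ hsum with hb0 | hc0 | ha0
  · rw [hb0, zero_pow hp.ne_zero, hx0, add_zero] at hb'
    exact hz0 hb'
  · rw [hc0, zero_pow hp.ne_zero, hx0, zero_add] at hc'
    exact hy0 hc'
  · have ha0' : (a : ZMod q) = 0 := neg_eq_zero.mp ha0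
    have hyz0 : ((y + z : ℤ) : ZMod q) = 0 := by
      push_cast
      rw [ha', ha0', zero_pow hp.ne_zero]
    have hα' : (α : ZMod q) ^ p = p * (y : ZMod q) ^ (p - 1) := by
      rw [← sgPhi_cast_of_add_eq_zero p y z hyz0, hα]
      push_cast
      rfl
    have hγ' : (γ : ZMod q) ^ p = (y : ZMod q) ^ (p - 1) := by
      rw [← sgPhi_cast_of_left_eq_zero hodd x y hx0, hγ]
      push_cast
      rfl
    have hy' : (y : ZMod q) ^ (p - 1) ≠ 0 := pow_ne_zero _ hy0
    apply h2 ((α : ZMod q) / γ)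
    rw [div_pow, hα', hγ']
    exact mul_div_cancel_right₀ _ hy'

/-- Sophie Germain's theorem in the generalised form (auxiliary prime `q`). -/
theorem sophieGermain_generic {p q : ℕ} (hp : p.Prime) (hodd : Odd p) (hq : q.Prime)
    (h1 : ∀ x y z : ZMod q, x ^ p + y ^ p + z ^ p = 0 → x = 0 ∨ y = 0 ∨ z = 0)
    (h2 : ∀ x : ZMod q, x ^ p ≠ (p : ZMod q))
    {x y z : ℤ} (hxy : IsCoprime x y) (hyz : IsCoprime y z) (hzx : IsCoprime z x)
    (h : x ^ p + y ^ p + z ^ p = 0) : (p : ℤ) ∣ x * y * z := by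
  by_contra hndvd
  have hpx : ¬ (p : ℤ) ∣ x := fun hd => hndvd (Dvd.dvd.mul_right (Dvd.dvd.mul_right hd y) z)
  have hpy : ¬ (p : ℤ) ∣ y := fun hd => hndvd (Dvd.dvd.mul_right (Dvd.dvd.mul_left hd x) z)
  have hpz : ¬ (p : ℤ) ∣ z := fun hd => hndvd (Dvd.dvd.mul_left hd (x * y))
  have : Fact q.Prime := ⟨hq⟩
  have hmod : (x : ZMod q) ^ p + (y : ZMod q) ^ p + (z : ZMod q) ^ p = 0 := by
    exact_mod_cast congrArg (Int.cast : ℤ → ZMod q) h
  rcases h1 _ _ _ hmod with hx0 | hy0 | hz0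
  · exact sg_case hp hodd hq h1 h2 hxy hyz hzx h hpx hpy hpz
      ((ZMod.intCast_zmod_eq_zero_iff_dvd _ _).mp hx0)
  · exact sg_case hp hodd hq h1 h2 hyz hzx hxy (by linear_combination h) hpy hpz hpx
      ((ZMod.intCast_zmod_eq_zero_iff_dvd _ _).mp hy0)
  · exact sg_case hp hodd hq h1 h2 hzx hxy hyz (by linear_combination h) hpz hpx hpy
      ((ZMod.intCast_zmod_eq_zero_iff_dvd _ _).mp hz0)

/-- Version for `a ^ p + b ^ p = c ^ p` with only `IsCoprime a b` assumed. -/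
theorem sophieGermain_generic' {p q : ℕ} (hp : p.Prime) (hodd : Odd p) (hq : q.Prime)
    (h1 : ∀ x y z : ZMod q, x ^ p + y ^ p + z ^ p = 0 → x = 0 ∨ y = 0 ∨ z = 0)
    (h2 : ∀ x : ZMod q, x ^ p ≠ (p : ZMod q))
    (a b c : ℤ) (hab : IsCoprime a b) (h : a ^ p + b ^ p = c ^ p) : (p : ℤ) ∣ a * b * c := by
  have hp0 : 0 < p := hp.pos
  have hbc : IsCoprime b c := by
    rw [← IsCoprime.pow_right_iff hp0, ← h]
    have h3 : IsCoprime b (a ^ p) := (hab.symm).pow_right
    have h4 := h3.add_mul_left_right (b ^ (p - 1))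
    rwa [mul_pow_sub_one hp0.ne'] at h4
  have hca : IsCoprime c a := by
    rw [← IsCoprime.pow_left_iff hp0, ← h]
    have h3 : IsCoprime (b ^ p) a := (hab.symm).pow_left
    have h4 := h3.add_mul_left_left (a ^ (p - 1))
    rwa [mul_pow_sub_one hp0.ne', add_comm] at h4
  have h' : a ^ p + b ^ p + (-c) ^ p = 0 := by rw [hodd.neg_pow]; linear_combination h
  have := sophieGermain_generic hp hodd hq h1 h2 hab hbc.neg_right hca.neg_left h'
  rwa [mul_neg, dvd_neg] at this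


/-! ### The numerical conditions for the four auxiliary primes -/

lemma sg_key_5_11 : ∀ x : ZMod 11, x = 0 ∨ x ^ 5 = 1 ∨ x ^ 5 = -1 := by decide

lemma sg_key_11_23 : ∀ x : ZMod 23, x = 0 ∨ x ^ 11 = 1 ∨ x ^ 11 = -1 := by decide

lemma sg_key_7_29 :
    ∀ x : ZMod 29, x = 0 ∨ x ^ 7 = 1 ∨ x ^ 7 = -1 ∨ x ^ 7 = 12 ∨ x ^ 7 = -12 := by decide

lemma sg_key_13_53 :
    ∀ x : ZMod 53, x = 0 ∨ x ^ 13 = 1 ∨ x ^ 13 = -1 ∨ x ^ 13 = 23 ∨ x ^ 13 = -23 := by decide

lemma sg_h1_5_11 :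
    ∀ x y z : ZMod 11, x ^ 5 + y ^ 5 + z ^ 5 = 0 → x = 0 ∨ y = 0 ∨ z = 0 := by
  intro x y z h
  rcases sg_key_5_11 x with hx | hx | hx
  · exact Or.inl hx
  all_goals
    rcases sg_key_5_11 y with hy | hy | hy
    · exact Or.inr (Or.inl hy)
    all_goals
      rcases sg_key_5_11 z with hz | hz | hz
      · exact Or.inr (Or.inr hz)
      all_goals
        exfalso
        rw [hx, hy, hz] at h
        revert h
        decide

lemma sg_h1_11_23 :
    ∀ x y z : ZMod 23, x ^ 11 + y ^ 11 + z ^ 11 = 0 → x = 0 ∨ y = 0 ∨ z = 0 := by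
  intro x y z h
  rcases sg_key_11_23 x with hx | hx | hx
  · exact Or.inl hx
  all_goals
    rcases sg_key_11_23 y with hy | hy | hy
    · exact Or.inr (Or.inl hy)
    all_goals
      rcases sg_key_11_23 z with hz | hz | hz
      · exact Or.inr (Or.inr hz)
      all_goals
        exfalso
        rw [hx, hy, hz] at h
        revert h
        decide

lemma sg_h1_7_29 :
    ∀ x y z : ZMod 29, x ^ 7 + y ^ 7 + z ^ 7 = 0 → x = 0 ∨ y = 0 ∨ z = 0 := by
  intro x y z h
  rcases sg_key_7_29 x with hx | hx | hx | hx | hx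
  · exact Or.inl hx
  all_goals
    rcases sg_key_7_29 y with hy | hy | hy | hy | hy
    · exact Or.inr (Or.inl hy)
    all_goals
      rcases sg_key_7_29 z with hz | hz | hz | hz | hz
      · exact Or.inr (Or.inr hz)
      all_goals
        exfalso
        rw [hx, hy, hz] at h
        revert h
        decide

lemma sg_h1_13_53 :
    ∀ x y z : ZMod 53, x ^ 13 + y ^ 13 + z ^ 13 = 0 → x = 0 ∨ y = 0 ∨ z = 0 := by
  intro x y z h
  rcases sg_key_13_53 x with hx | hx | hx | hx | hx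
  · exact Or.inl hx
  all_goals
    rcases sg_key_13_53 y with hy | hy | hy | hy | hy
    · exact Or.inr (Or.inl hy)
    all_goals
      rcases sg_key_13_53 z with hz | hz | hz | hz | hz
      · exact Or.inr (Or.inr hz)
      all_goals
        exfalso
        rw [hx, hy, hz] at h
        revert h
        decide

lemma sg_h2_5_11 : ∀ x : ZMod 11, x ^ 5 ≠ ((5 : ℕ) : ZMod 11) := by decide

lemma sg_h2_11_23 : ∀ x : ZMod 23, x ^ 11 ≠ ((11 : ℕ) : ZMod 23) := by decide

lemma sg_h2_7_29 : ∀ x : ZMod 29, x ^ 7 ≠ ((7 : ℕ) : ZMod 29) := by decide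

lemma sg_h2_13_53 : ∀ x : ZMod 53, x ^ 13 ≠ ((13 : ℕ) : ZMod 53) := by decide

/-! ### Case I for the exponents 5, 7, 11, 13 -/

/-- Case I of Fermat's Last Theorem for exponent `5`: in a primitive solution, `5 ∣ a * b * c`. -/
theorem caseI_five (a b c : ℤ) (hab : IsCoprime a b) (h : a ^ 5 + b ^ 5 = c ^ 5) :
    (5 : ℤ) ∣ a * b * c :=
  sophieGermain_generic' (p := 5) (q := 11) (by norm_num) (by decide) (by norm_num)
    sg_h1_5_11 sg_h2_5_11 a b c hab h

/-- Case I of Fermat's Last Theorem for exponent `7`: in a primitive solution, `7 ∣ a * b * c`. -/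
theorem caseI_seven (a b c : ℤ) (hab : IsCoprime a b) (h : a ^ 7 + b ^ 7 = c ^ 7) :
    (7 : ℤ) ∣ a * b * c :=
  sophieGermain_generic' (p := 7) (q := 29) (by norm_num) (by decide) (by norm_num)
    sg_h1_7_29 sg_h2_7_29 a b c hab h

/-- Case I of Fermat's Last Theorem for exponent `11`: in a primitive solution,
`11 ∣ a * b * c`. -/
theorem caseI_eleven (a b c : ℤ) (hab : IsCoprime a b) (h : a ^ 11 + b ^ 11 = c ^ 11) :
    (11 : ℤ) ∣ a * b * c :=
  sophieGermain_generic' (p := 11) (q := 23) (by norm_num) (by decide) (by norm_num)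
    sg_h1_11_23 sg_h2_11_23 a b c hab h

/-- Case I of Fermat's Last Theorem for exponent `13`: in a primitive solution,
`13 ∣ a * b * c`. -/
theorem caseI_thirteen (a b c : ℤ) (hab : IsCoprime a b) (h : a ^ 13 + b ^ 13 = c ^ 13) :
    (13 : ℤ) ∣ a * b * c :=
  sophieGermain_generic' (p := 13) (q := 53) (by norm_num) (by decide) (by norm_num)
    sg_h1_13_53 sg_h2_13_53 a b c hab h

end Fermat.Agent.Kummer
end MergeWrap_Lib_Kummer_CaseI

section MergeWrap_Lib_Kummer_Defs -- from Lib/Kummer/Defs.lean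

/-!
# Kummer route: shared definitions

`KummerLemmaFor p K`: every unit of `𝓞 K` that is congruent to a rational integer modulo `p`
is a `p`-th power of a unit.
-/

set_option autoImplicit false

open NumberField

namespace Fermat.Agent.Kummer

/-- Kummer's lemma for the prime `p` in the number field `K`. -/
def KummerLemmaFor (p : ℕ) (K : Type*) [Field K] [NumberField K] : Prop :=
  ∀ u : (𝓞 K)ˣ, (∃ n : ℤ, (p : 𝓞 K) ∣ (u : 𝓞 K) - (n : 𝓞 K)) → ∃ v : (𝓞 K)ˣ, u = v ^ p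

end Fermat.Agent.Kummer
end MergeWrap_Lib_Kummer_Defs

section MergeWrap_Lib_Kummer_CaseIICore -- from Lib/Kummer/CaseIICore.lean

/-!
# Kummer's descent for the second case of Fermat's Last Theorem (abstract core)

We work in an abstract principal ideal domain `R` containing a primitive `p`-th root of unity `η`
(`p` an odd prime) such that `η - 1` is prime, `p` is associated to `(η - 1) ^ (p - 1)`, every
element is congruent to a rational integer modulo `η - 1`, and Kummer's lemma holds (a unit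
congruent to a rational integer modulo `p` is a `p`-th power).  Under these hypotheses the
generalised Fermat equation `x ^ p + y ^ p = ε * z ^ p` has no solution with `(η - 1) ∣ z`,
`z ≠ 0`, `¬ (η - 1) ∣ x`, `¬ (η - 1) ∣ y` and `x`, `y` coprime.
-/

namespace Fermat.Agent.Kummer

open Finset Polynomial

/-- The abstract hypotheses under which Kummer's descent works. -/
structure CaseIIRing (p : ℕ) {R : Type*} [CommRing R] [IsDomain R] (η : R) : Prop where
  prime : p.Prime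
  odd : p ≠ 2
  root : IsPrimitiveRoot η p
  lam_prime : Prime (η - 1)
  p_assoc : Associated (p : R) ((η - 1) ^ (p - 1))
  residue : ∀ x : R, ∃ n : ℤ, (η - 1) ∣ x - n
  kummer : ∀ u : Rˣ, (∃ n : ℤ, (p : R) ∣ (u : R) - n) → ∃ v : Rˣ, u = v ^ p

namespace CaseIIRing

variable {p : ℕ} {R : Type*} [CommRing R] [IsDomain R] {η : R}

lemma three_le (h : CaseIIRing p η) : 3 ≤ p := by
  have h2 := h.prime.two_le
  have := h.odd
  omega

lemma lam_dvd_p (h : CaseIIRing p η) : (η - 1) ∣ (p : R) := by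
  have h3 := h.three_le
  refine dvd_trans ?_ h.p_assoc.symm.dvd
  exact dvd_pow_self _ (by omega)

lemma p_dvd_lam_pow (h : CaseIIRing p η) {k : ℕ} (hk : p - 1 ≤ k) : (p : R) ∣ (η - 1) ^ k :=
  dvd_trans h.p_assoc.dvd (pow_dvd_pow _ hk)

lemma lam_dvd_intCast (h : CaseIIRing p η) {n : ℤ} (hn : (p : ℤ) ∣ n) : (η - 1) ∣ (n : R) := by
  obtain ⟨m, rfl⟩ := hn
  push_cast
  exact Dvd.dvd.mul_right h.lam_dvd_p _

lemma dvd_of_lam_dvd_intCast (h : CaseIIRing p η) {n : ℤ} (hn : (η - 1) ∣ (n : R)) :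
    (p : ℤ) ∣ n := by
  by_contra hpn
  have hcop : IsCoprime (p : ℤ) n :=
    (Nat.prime_iff_prime_int.mp h.prime).coprime_iff_not_dvd.mpr hpn
  obtain ⟨a, b, hab⟩ := hcop
  have h1 : (η - 1) ∣ ((a * p + b * n : ℤ) : R) := by
    push_cast
    exact dvd_add (Dvd.dvd.mul_left h.lam_dvd_p _) (Dvd.dvd.mul_left hn _)
  rw [hab] at h1
  exact h.lam_prime.not_isUnit (isUnit_of_dvd_one (by simpa using h1))

/-- `α ^ p` is congruent to a rational integer modulo `p`. -/
lemma exists_int_pow_congr (h : CaseIIRing p η) (α : R) :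
    ∃ n : ℤ, (p : R) ∣ α ^ p - n := by
  obtain ⟨n, β, hβ⟩ := h.residue α
  refine ⟨n ^ p, ?_⟩
  have hα : α = (η - 1) * β + n := by rw [← hβ]; ring
  have h3 := h.three_le
  have key := h.prime.dvd_add_pow_sub_pow_of_dvd ((η - 1) * β) (n : R) (r := (p : R)) ?_ ?_
  · rw [hα]; push_cast; exact key
  · rw [mul_pow]
    exact Dvd.dvd.mul_right (h.p_dvd_lam_pow (by omega)) _
  · exact Dvd.intro _ rfl

/-- The residue of an element of `R` modulo `η - 1`, as an element of `ZMod p`. -/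
noncomputable def res (h : CaseIIRing p η) (x : R) : ZMod p :=
  ((h.residue x).choose : ZMod p)

lemma res_spec (h : CaseIIRing p η) (x : R) : (η - 1) ∣ x - ((h.residue x).choose : ℤ) :=
  (h.residue x).choose_spec

lemma res_eq_iff (h : CaseIIRing p η) (x y : R) : h.res x = h.res y ↔ (η - 1) ∣ x - y := by
  have hx := h.res_spec x
  have hy := h.res_spec y
  set n := (h.residue x).choose
  set m := (h.residue y).choose
  have hnm : h.res x = h.res y ↔ (p : ℤ) ∣ n - m := by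
    unfold res
    rw [← sub_eq_zero, ← Int.cast_sub, ZMod.intCast_zmod_eq_zero_iff_dvd]
  rw [hnm]
  constructor
  · intro hd
    have h1 : (η - 1) ∣ ((n - m : ℤ) : R) := h.lam_dvd_intCast hd
    have : x - y = (x - n) - (y - m) + ((n - m : ℤ) : R) := by push_cast; ring
    rw [this]
    exact dvd_add (dvd_sub hx hy) h1
  · intro hd
    apply h.dvd_of_lam_dvd_intCast
    have : ((n - m : ℤ) : R) = (x - y) - ((x - n) - (y - m)) := by push_cast; ring
    rw [this]
    exact dvd_sub hd (dvd_sub hx hy)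

lemma res_eq_zero_iff (h : CaseIIRing p η) (x : R) : h.res x = 0 ↔ (η - 1) ∣ x := by
  have hx := h.res_spec x
  set n := (h.residue x).choose
  have hn : h.res x = 0 ↔ (p : ℤ) ∣ n := by
    unfold res
    rw [ZMod.intCast_zmod_eq_zero_iff_dvd]
  rw [hn]
  constructor
  · intro hd
    have := dvd_add hx (h.lam_dvd_intCast hd)
    simpa using this
  · intro hd
    apply h.dvd_of_lam_dvd_intCast
    have : (n : R) = x - (x - n) := by ring
    rw [this]
    exact dvd_sub hd hx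

/-- Two distinct `p`-th roots of unity differ by an associate of `η - 1`. -/
lemma associated_sub (h : CaseIIRing p η) {μ ν : R} (hμ : μ ∈ nthRootsFinset p (1 : R))
    (hν : ν ∈ nthRootsFinset p (1 : R)) (hne : μ ≠ ν) : Associated (η - 1) (μ - ν) :=
  h.root.nthRootsFinset_pairwise_associated_sub_one_sub_of_prime h.prime hμ hν hne

lemma lam_dvd_sub (h : CaseIIRing p η) {μ ν : R} (hμ : μ ∈ nthRootsFinset p (1 : R))
    (hν : ν ∈ nthRootsFinset p (1 : R)) : (η - 1) ∣ μ - ν := by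
  by_cases hne : μ = ν
  · simp [hne]
  · exact (h.associated_sub hμ hν hne).dvd

lemma one_mem (h : CaseIIRing p η) : (1 : R) ∈ nthRootsFinset p (1 : R) := by
  rw [mem_nthRootsFinset h.prime.pos]; simp

lemma eta_mem (h : CaseIIRing p η) : η ∈ nthRootsFinset p (1 : R) := by
  rw [mem_nthRootsFinset h.prime.pos]; exact h.root.pow_eq_one

lemma eta_sq_mem (h : CaseIIRing p η) : η ^ 2 ∈ nthRootsFinset p (1 : R) := by
  rw [mem_nthRootsFinset h.prime.pos, ← pow_mul, mul_comm, pow_mul, h.root.pow_eq_one, one_pow]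

lemma eta_ne_one (h : CaseIIRing p η) : η ≠ 1 :=
  h.root.ne_one h.prime.one_lt

lemma eta_sq_ne_one (h : CaseIIRing p η) : η ^ 2 ≠ 1 := by
  intro h2
  have := h.root.dvd_of_pow_eq_one 2 h2
  have h3 := h.three_le
  have := Nat.le_of_dvd (by norm_num) this
  omega

lemma eta_sq_ne_eta (h : CaseIIRing p η) : η ^ 2 ≠ η := by
  intro h2
  apply h.eta_ne_one
  have h0 : η ≠ 0 := h.root.ne_zero h.prime.ne_zero
  have : η * η = η * 1 := by rw [mul_one, ← sq, h2]
  exact mul_left_cancel₀ h0 this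

lemma card_roots (h : CaseIIRing p η) : #(nthRootsFinset p (1 : R)) = p :=
  h.root.card_nthRootsFinset

lemma pow_add_pow_eq_prod (h : CaseIIRing p η) (x y : R) :
    x ^ p + y ^ p = ∏ μ ∈ nthRootsFinset p (1 : R), (x + μ * y) :=
  h.root.pow_add_pow_eq_prod_add_mul x y (h.prime.odd_of_ne_two h.odd)

/-- If `η - 1` divides `x ^ p + y ^ p` then it divides every factor `x + μ * y`. -/
lemma lam_dvd_factor (h : CaseIIRing p η) {x y : R} (hxy : (η - 1) ∣ x ^ p + y ^ p)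
    {μ : R} (hμ : μ ∈ nthRootsFinset p (1 : R)) : (η - 1) ∣ x + μ * y := by
  rw [h.pow_add_pow_eq_prod, h.lam_prime.dvd_finsetProd_iff] at hxy
  obtain ⟨ν, hν, hd⟩ := hxy
  have : x + μ * y = (x + ν * y) + (μ - ν) * y := by ring
  rw [this]
  exact dvd_add hd (Dvd.dvd.mul_right (h.lam_dvd_sub hμ hν) _)

/-- Pigeonhole: some factor `x + μ * y` is divisible by `(η - 1) ^ 2`. -/
lemma exists_sq_dvd_factor (h : CaseIIRing p η) {x y : R} (hy : ¬ (η - 1) ∣ y)
    (hxy : (η - 1) ∣ x ^ p + y ^ p) :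
    ∃ μ ∈ nthRootsFinset p (1 : R), (η - 1) ^ 2 ∣ x + μ * y := by
  classical
  have hfac : ∀ μ ∈ nthRootsFinset p (1 : R), ∃ g, x + μ * y = (η - 1) * g :=
    fun μ hμ => h.lam_dvd_factor hxy hμ
  choose! G hG using hfac
  by_contra hcon
  push Not at hcon
  have : NeZero p := ⟨h.prime.ne_zero⟩
  have : Fact p.Prime := ⟨h.prime⟩
  have hmaps : ∀ μ ∈ nthRootsFinset p (1 : R),
      h.res (G μ) ∈ (Finset.univ : Finset (ZMod p)).erase 0 := by
    intro μ hμ
    rw [Finset.mem_erase]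
    refine ⟨?_, Finset.mem_univ _⟩
    intro h0
    rw [h.res_eq_zero_iff] at h0
    apply hcon μ hμ
    rw [hG μ hμ, sq]
    exact mul_dvd_mul_left _ h0
  have hcard : #((Finset.univ : Finset (ZMod p)).erase 0) < #(nthRootsFinset p (1 : R)) := by
    rw [Finset.card_erase_of_mem (Finset.mem_univ _), Finset.card_univ, ZMod.card, h.card_roots]
    have := h.prime.pos
    omega
  obtain ⟨μ, hμ, ν, hν, hne, heq⟩ := Finset.exists_ne_map_eq_of_card_lt_of_maps_to hcard hmaps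
  rw [h.res_eq_iff] at heq
  obtain ⟨u, hu⟩ := h.associated_sub hμ hν hne
  obtain ⟨c, hc⟩ := heq
  apply hy
  have h1 : (η - 1) * ((G μ - G ν)) = (η - 1) * (u * y) := by
    have e1 := hG μ hμ
    have e2 := hG ν hν
    have : (η - 1) * (G μ - G ν) = (x + μ * y) - (x + ν * y) := by rw [e1, e2]; ring
    rw [this, ← mul_assoc, hu]; ring
  have h2 : G μ - G ν = u * y := mul_left_cancel₀ h.lam_prime.ne_zero h1
  rw [hc] at h2
  have h3 : (η - 1) ∣ (u : R) * y := ⟨c, h2.symm⟩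
  exact Units.dvd_mul_left.mp h3

lemma isUnit_one_add_eta (h : CaseIIRing p η) : IsUnit (1 + η) := by
  have h3 := h.three_le
  have hcop : (2 : ℕ).Coprime p := by
    rw [Nat.coprime_comm]
    exact (Nat.coprime_primes h.prime Nat.prime_two).mpr h.odd
  have := h.root.geom_sum_isUnit h.prime.two_le hcop
  simpa [Finset.sum_range_succ] using this

lemma isUnit_eta (h : CaseIIRing p η) : IsUnit η :=
  h.root.isUnit h.prime.ne_zero

lemma isUnit_of_mem_roots (h : CaseIIRing p η) {μ : R} (hμ : μ ∈ nthRootsFinset p (1 : R)) :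
    IsUnit μ := by
  rw [mem_nthRootsFinset h.prime.pos] at hμ
  exact IsUnit.of_pow_eq_one hμ h.prime.ne_zero

/-- One step of the descent, under the normalisation `(η - 1) ^ 2 ∣ x + y`. -/
lemma descent_step (h : CaseIIRing p η) [IsPrincipalIdealRing R] {x y z : R} {ε : Rˣ}
    (hz : z ≠ 0) (hzd : (η - 1) ∣ z) (hy : ¬ (η - 1) ∣ y)
    (hcop : IsCoprime x y) (heq : x ^ p + y ^ p = ε * z ^ p) (hsq : (η - 1) ^ 2 ∣ x + y) :
    ∃ (x' y' z' : R) (ε' : Rˣ), DvdNotUnit z' z ∧ z' ≠ 0 ∧ (η - 1) ∣ z' ∧ ¬ (η - 1) ∣ x' ∧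
      ¬ (η - 1) ∣ y' ∧ IsCoprime x' y' ∧ x' ^ p + y' ^ p = ε' * z' ^ p := by
  classical
  have hp0 : p ≠ 0 := h.prime.ne_zero
  have hl0 : (η - 1) ≠ 0 := h.lam_prime.ne_zero
  have hxy : (η - 1) ∣ x ^ p + y ^ p := by
    rw [heq]
    exact Dvd.dvd.mul_left (dvd_pow hzd hp0) _
  have hfac : ∀ μ ∈ nthRootsFinset p (1 : R), ∃ g, x + μ * y = (η - 1) * g :=
    fun μ hμ => h.lam_dvd_factor hxy hμ
  choose! G hG using hfac
  -- `G 1` is divisible by `η - 1`
  have hG1 : (η - 1) ∣ G 1 := by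
    obtain ⟨c, hc⟩ := hsq
    have e1 := hG 1 h.one_mem
    rw [one_mul, hc, sq, mul_assoc] at e1
    exact ⟨c, (mul_left_cancel₀ hl0 e1).symm⟩
  -- the other `G μ` are not
  have hGne : ∀ μ ∈ nthRootsFinset p (1 : R), μ ≠ 1 → ¬ (η - 1) ∣ G μ := by
    intro μ hμ hμ1 hd
    obtain ⟨u, hu⟩ := h.associated_sub hμ h.one_mem hμ1
    obtain ⟨c, hc⟩ := hd
    obtain ⟨c1, hc1⟩ := hG1
    apply hy
    have e1 := hG 1 h.one_mem
    have e2 := hG μ hμ
    have h1 : (η - 1) * (u * y) = (η - 1) * ((η - 1) * (c - c1)) := by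
      have : (η - 1) * (u * y) = (x + μ * y) - (x + 1 * y) := by
        rw [← mul_assoc, hu]; ring
      rw [this, e1, e2, hc, hc1]; ring
    have h2 : (u : R) * y = (η - 1) * (c - c1) := mul_left_cancel₀ hl0 h1
    have h3 : (η - 1) ∣ (u : R) * y := ⟨_, h2⟩
    exact Units.dvd_mul_left.mp h3
  -- pairwise coprimality
  have hcopG : ∀ μ ∈ nthRootsFinset p (1 : R), ∀ ν ∈ nthRootsFinset p (1 : R), μ ≠ ν →
      IsCoprime (G μ) (G ν) := by
    intro μ hμ ν hν hne
    have hnz : ¬ (G μ = 0 ∧ G ν = 0) := by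
      rintro ⟨h1, h2⟩
      by_cases hμ1 : μ = 1
      · have hν1 : ν ≠ 1 := fun hh => hne (hμ1.trans hh.symm)
        exact hGne ν hν hν1 (h2 ▸ dvd_zero _)
      · exact hGne μ hμ hμ1 (h1 ▸ dvd_zero _)
    refine isCoprime_of_prime_dvd hnz ?_
    intro π hπ hπμ hπν
    obtain ⟨u, hu⟩ := h.associated_sub hμ hν hne
    have e1 := hG μ hμ
    have e2 := hG ν hν
    have hd1 : π ∣ (η - 1) * (u * y) := by
      have : (η - 1) * (u * y) = (η - 1) * G μ - (η - 1) * G ν := by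
        rw [← e1, ← e2, ← mul_assoc, hu]; ring
      rw [this]
      exact dvd_sub (Dvd.dvd.mul_left hπμ _) (Dvd.dvd.mul_left hπν _)
    have hd2 : π ∣ (η - 1) * (u * x) := by
      have : (η - 1) * (u * x) = μ * ((η - 1) * G ν) - ν * ((η - 1) * G μ) := by
        rw [← e1, ← e2, ← mul_assoc, hu]; ring
      rw [this]
      exact dvd_sub (Dvd.dvd.mul_left (Dvd.dvd.mul_left hπν _) _)
        (Dvd.dvd.mul_left (Dvd.dvd.mul_left hπμ _) _)
    by_cases hπl : π ∣ (η - 1)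
    · have hass : Associated π (η - 1) := hπ.associated_of_dvd h.lam_prime hπl
      by_cases hμ1 : μ = 1
      · have hν1 : ν ≠ 1 := fun hh => hne (hμ1.trans hh.symm)
        exact hGne ν hν hν1 (hass.symm.dvd.trans hπν)
      · exact hGne μ hμ hμ1 (hass.symm.dvd.trans hπμ)
    · have hy' : π ∣ y := by
        rcases hπ.dvd_or_dvd hd1 with h1 | h1
        · exact absurd h1 hπl
        · exact Units.dvd_mul_left.mp h1
      have hx' : π ∣ x := by
        rcases hπ.dvd_or_dvd hd2 with h1 | h1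
        · exact absurd h1 hπl
        · exact Units.dvd_mul_left.mp h1
      exact hπ.not_isUnit (hcop.isUnit_of_dvd' hx' hy')
  -- the product formula
  obtain ⟨z₁, hz₁⟩ := hzd
  have hz₁0 : z₁ ≠ 0 := by
    rintro rfl
    exact hz (by rw [hz₁, mul_zero])
  have hprod : ∏ μ ∈ nthRootsFinset p (1 : R), G μ = ε * z₁ ^ p := by
    have e1 : ∏ μ ∈ nthRootsFinset p (1 : R), (x + μ * y) =
        (η - 1) ^ p * ∏ μ ∈ nthRootsFinset p (1 : R), G μ := by
      rw [Finset.prod_congr rfl hG, Finset.prod_mul_distrib, Finset.prod_const, h.card_roots]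
    have e2 : (η - 1) ^ p * ∏ μ ∈ nthRootsFinset p (1 : R), G μ = (η - 1) ^ p * (ε * z₁ ^ p) := by
      rw [← e1, ← h.pow_add_pow_eq_prod, heq, hz₁, mul_pow]; ring
    exact mul_left_cancel₀ (pow_ne_zero _ hl0) e2
  have hGnz : ∀ μ ∈ nthRootsFinset p (1 : R), G μ ≠ 0 := by
    intro μ hμ h0
    have : ∏ μ ∈ nthRootsFinset p (1 : R), G μ = 0 := Finset.prod_eq_zero hμ h0
    rw [hprod] at this
    exact (mul_ne_zero ε.ne_zero (pow_ne_zero _ hz₁0)) this
  -- each `G μ` is associated to a `p`-th power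
  have hpow : ∀ μ ∈ nthRootsFinset p (1 : R), ∃ d : R, Associated (d ^ p) (G μ) := by
    intro μ hμ
    have hc : IsCoprime (G μ) (∏ ν ∈ (nthRootsFinset p (1 : R)).erase μ, G ν) := by
      refine IsCoprime.prod_right ?_
      intro ν hν
      rw [Finset.mem_erase] at hν
      exact hcopG μ hμ ν hν.2 (Ne.symm hν.1)
    have hmul : G μ * ∏ ν ∈ (nthRootsFinset p (1 : R)).erase μ, G ν = ε * z₁ ^ p := by
      rw [Finset.mul_prod_erase _ _ hμ, hprod]
    refine exists_associated_pow_of_associated_pow_mul (c := z₁) hc ?_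
    rw [hmul]
    exact ⟨ε, by ring⟩
  obtain ⟨ρ₀, e₀, hρ₀⟩ := hpow 1 h.one_mem
  obtain ⟨ρ₁, e₁, hρ₁⟩ := hpow η h.eta_mem
  obtain ⟨ρ₂, e₂, hρ₂⟩ := hpow (η ^ 2) h.eta_sq_mem
  -- divisibility facts on the `ρ`'s
  have hρ₀d : (η - 1) ∣ ρ₀ := by
    have : (η - 1) ∣ ρ₀ ^ p * e₀ := hρ₀ ▸ hG1
    exact h.lam_prime.dvd_of_dvd_pow ((Units.dvd_mul_right).mp this)
  have hρ₁d : ¬ (η - 1) ∣ ρ₁ := by
    intro hd
    apply hGne η h.eta_mem h.eta_ne_one
    rw [← hρ₁]
    exact Dvd.dvd.mul_right (dvd_pow hd hp0) _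
  have hρ₂d : ¬ (η - 1) ∣ ρ₂ := by
    intro hd
    apply hGne (η ^ 2) h.eta_sq_mem h.eta_sq_ne_one
    rw [← hρ₂]
    exact Dvd.dvd.mul_right (dvd_pow hd hp0) _
  have hρ₀0 : ρ₀ ≠ 0 := by
    rintro rfl
    apply hGnz 1 h.one_mem
    rw [← hρ₀, zero_pow hp0, zero_mul]
  -- the linear relation
  have hrel : G η * (1 + η) - G (η ^ 2) = η * G 1 := by
    apply mul_left_cancel₀ hl0
    have e0 := hG 1 h.one_mem
    have e1 := hG η h.eta_mem
    have e2 := hG (η ^ 2) h.eta_sq_mem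
    calc (η - 1) * (G η * (1 + η) - G (η ^ 2))
        = ((η - 1) * G η) * (1 + η) - (η - 1) * G (η ^ 2) := by ring
      _ = (x + η * y) * (1 + η) - (x + η ^ 2 * y) := by rw [e1, e2]
      _ = η * (x + 1 * y) := by ring
      _ = (η - 1) * (η * G 1) := by rw [e0]; ring
  obtain ⟨w, hw⟩ := h.isUnit_one_add_eta
  obtain ⟨ηu, hηu⟩ := h.isUnit_eta
  set u : Rˣ := e₂ * (e₁ * w)⁻¹ with hu_def
  set u' : Rˣ := ηu * e₀ * (e₁ * w)⁻¹ with hu'_def
  have hmain : ρ₁ ^ p - u * ρ₂ ^ p = u' * ρ₀ ^ p := by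
    have hrel' : ρ₁ ^ p * e₁ * w - ρ₂ ^ p * e₂ = ηu * (ρ₀ ^ p * e₀) := by
      rw [hρ₀, hρ₁, hρ₂, hw, hηu]; exact hrel
    have hunit : ((e₁ * w : Rˣ) : R) * (((e₁ * w)⁻¹ : Rˣ) : R) = 1 := by
      rw [← Units.val_mul, mul_inv_cancel, Units.val_one]
    have hunit' : ((e₁ : R) * (w : R)) * (((e₁ * w)⁻¹ : Rˣ) : R) = 1 := by
      rw [← Units.val_mul]; exact hunit
    calc ρ₁ ^ p - u * ρ₂ ^ p
        = ρ₁ ^ p * (((e₁ : R) * (w : R)) * (((e₁ * w)⁻¹ : Rˣ) : R))
            - (e₂ : R) * (((e₁ * w)⁻¹ : Rˣ) : R) * ρ₂ ^ p := by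
          rw [hunit', mul_one, hu_def, Units.val_mul]
      _ = (ρ₁ ^ p * e₁ * w - ρ₂ ^ p * e₂) * (((e₁ * w)⁻¹ : Rˣ) : R) := by ring
      _ = (ηu * (ρ₀ ^ p * e₀)) * (((e₁ * w)⁻¹ : Rˣ) : R) := by rw [hrel']
      _ = u' * ρ₀ ^ p := by
          rw [hu'_def, Units.val_mul, Units.val_mul]; ring
  -- `u` is congruent to an integer modulo `p`
  have hpρ₀ : (p : R) ∣ ρ₀ ^ p := by
    have h3 := h.three_le
    exact dvd_trans (h.p_dvd_lam_pow (k := p) (by omega)) (pow_dvd_pow_of_dvd hρ₀d p)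
  obtain ⟨a, ha⟩ := h.exists_int_pow_congr ρ₁
  obtain ⟨b, hb⟩ := h.exists_int_pow_congr ρ₂
  have hpb : ¬ (p : ℤ) ∣ b := by
    intro hd
    apply hρ₂d
    apply h.lam_prime.dvd_of_dvd_pow (n := p)
    have h1 : (η - 1) ∣ (b : R) := h.lam_dvd_intCast hd
    have h2 : (η - 1) ∣ ρ₂ ^ p - b := dvd_trans h.lam_dvd_p hb
    have : ρ₂ ^ p = (ρ₂ ^ p - b) + b := by ring
    rw [this]
    exact dvd_add h2 h1
  have hcopb : IsCoprime (p : ℤ) b :=
    (Nat.prime_iff_prime_int.mp h.prime).coprime_iff_not_dvd.mpr hpb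
  obtain ⟨c, b', hcb⟩ := hcopb
  have hucong : ∃ n : ℤ, (p : R) ∣ (u : R) - n := by
    refine ⟨a * b', ?_⟩
    have hd1 : (p : R) ∣ ρ₁ ^ p - u * ρ₂ ^ p := by
      rw [hmain]; exact Dvd.dvd.mul_left hpρ₀ _
    have hcb' : (c : R) * p + b' * b = 1 := by exact_mod_cast congrArg (Int.cast : ℤ → R) hcb
    have key : (u : R) - ((a * b' : ℤ) : R) =
        (u : R) * c * p + b' * ((u : R) * (b - ρ₂ ^ p) - (ρ₁ ^ p - u * ρ₂ ^ p) + (ρ₁ ^ p - a)) := by
      push_cast
      have : (u : R) = (u : R) * ((c : R) * p + b' * b) := by rw [hcb', mul_one]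
      nth_rewrite 1 [this]
      ring
    rw [key]
    refine dvd_add (Dvd.intro_left _ rfl) (Dvd.dvd.mul_left ?_ _)
    refine dvd_add (dvd_sub (Dvd.dvd.mul_left ?_ _) hd1) ha
    rw [← dvd_neg, neg_sub]
    exact hb
  obtain ⟨v, hv⟩ := h.kummer u hucong
  have hodd : Odd p := h.prime.odd_of_ne_two h.odd
  refine ⟨ρ₁, -(v * ρ₂), ρ₀, u', ?_, hρ₀0, hρ₀d, hρ₁d, ?_, ?_, ?_⟩
  · -- `ρ₀` is a proper divisor of `z`
    refine ⟨hρ₀0, ?_⟩
    have hd : ρ₀ ^ p ∣ z₁ ^ p := by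
      have h1 : ρ₀ ^ p ∣ G 1 := Dvd.intro _ hρ₀
      have h2 : G 1 ∣ ∏ μ ∈ nthRootsFinset p (1 : R), G μ := Finset.dvd_prod_of_mem _ h.one_mem
      rw [hprod] at h2
      exact Units.dvd_mul_left.mp (h1.trans h2)
    have hd' : ρ₀ ∣ z₁ := (UniqueFactorizationMonoid.pow_dvd_pow_iff_dvd hp0).mp hd
    obtain ⟨s, hs⟩ := hd'
    refine ⟨(η - 1) * s, ?_, ?_⟩
    · intro hunit
      exact h.lam_prime.not_isUnit (isUnit_of_mul_isUnit_left hunit)
    · rw [hz₁, hs]; ring
  · rw [dvd_neg]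
    intro hd
    exact hρ₂d (Units.dvd_mul_left.mp hd)
  · have h1 : IsCoprime (G η) (G (η ^ 2)) :=
      hcopG η h.eta_mem (η ^ 2) h.eta_sq_mem (Ne.symm h.eta_sq_ne_eta)
    rw [← hρ₁, ← hρ₂] at h1
    have h2 : IsCoprime (ρ₁ ^ p) (ρ₂ ^ p) :=
      (h1.of_mul_left_left).of_mul_right_left
    have h3 : IsCoprime ρ₁ ρ₂ := (IsCoprime.pow_iff h.prime.pos h.prime.pos).mp h2
    exact ((isCoprime_mul_unit_left_right v.isUnit _ _).mpr h3).neg_right
  · rw [hodd.neg_pow, mul_pow, ← Units.val_pow_eq_pow_val, ← hv, ← sub_eq_add_neg]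
    exact hmain

/-- **Kummer's descent**: the generalised Fermat equation has no solution in the second case. -/
theorem no_solution (h : CaseIIRing p η) [IsPrincipalIdealRing R] :
    ∀ z : R, z ≠ 0 → (η - 1) ∣ z → ∀ (x y : R) (ε : Rˣ), ¬ (η - 1) ∣ y →
      IsCoprime x y → x ^ p + y ^ p ≠ ε * z ^ p := by
  intro z
  induction z using (wellFounded_dvdNotUnit (α := R)).induction with
  | _ z IH =>
    intro hz hzd x y ε hy hcop heq
    have hp0 : p ≠ 0 := h.prime.ne_zero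
    have hxy : (η - 1) ∣ x ^ p + y ^ p := by
      rw [heq]
      exact Dvd.dvd.mul_left (dvd_pow hzd hp0) _
    obtain ⟨μ, hμ, hsq⟩ := h.exists_sq_dvd_factor hy hxy
    have hμu : IsUnit μ := h.isUnit_of_mem_roots hμ
    have hμp : μ ^ p = 1 := (mem_nthRootsFinset h.prime.pos 1).mp hμ
    have hy' : ¬ (η - 1) ∣ μ * y := fun hd => hy ((hμu.dvd_mul_left).mp hd)
    have hcop' : IsCoprime x (μ * y) := (isCoprime_mul_unit_left_right hμu _ _).mpr hcop
    have heq' : x ^ p + (μ * y) ^ p = ε * z ^ p := by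
      rw [mul_pow, hμp, one_mul, heq]
    obtain ⟨x', y', z', ε', hlt, hz', hzd', -, hy'', hcop'', heq''⟩ :=
      h.descent_step hz hzd hy' hcop' heq' hsq
    exact IH z' hlt hz' hzd' x' y' ε' hy'' hcop'' heq''

end CaseIIRing

end Fermat.Agent.Kummer
end MergeWrap_Lib_Kummer_CaseIICore

section MergeWrap_Lib_Kummer_CaseII -- from Lib/Kummer/CaseII.lean

/-!
# Second case of Fermat's Last Theorem for a prime `p` with `𝓞 (ℚ(ζ_p))` principal and
Kummer's lemma

`caseII`: if `p` is an odd prime, the ring of integers of the `p`-th cyclotomic field is a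
principal ideal ring and Kummer's lemma holds for `p`, then `a ^ p + b ^ p ≠ c ^ p` for all coprime
integers `a`, `b` and all nonzero integers `c` divisible by `p`.
-/

set_option autoImplicit false

open NumberField

namespace Fermat.Agent.Kummer

section

variable {p : ℕ} [hp : Fact p.Prime] {K : Type*} [Field K] [NumberField K]
  [IsCyclotomicExtension {p} ℚ K] {ζ : K} (hζ : IsPrimitiveRoot ζ p)

include hζ in
/-- Every element of `𝓞 K` is congruent to a rational integer modulo `ζ - 1`. -/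
lemma exists_int_sub_dvd_toInteger (x : 𝓞 K) : ∃ n : ℤ, (hζ.toInteger - 1) ∣ x - n := by
  have htop : Algebra.adjoin ℤ {hζ.toInteger} = ⊤ := by
    have := hζ.integralPowerBasis.adjoin_gen_eq_top
    rwa [hζ.integralPowerBasis_gen] at this
  have hx : x ∈ Algebra.adjoin ℤ {hζ.toInteger} := by rw [htop]; trivial
  induction hx using Algebra.adjoin_induction with
  | mem y hy =>
    rw [Set.mem_singleton_iff] at hy
    exact ⟨1, by rw [hy]; simp⟩
  | algebraMap r =>
    exact ⟨r, by simp⟩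
  | add y z _ _ hy hz =>
    obtain ⟨n, hn⟩ := hy
    obtain ⟨m, hm⟩ := hz
    refine ⟨n + m, ?_⟩
    have : y + z - ((n + m : ℤ) : 𝓞 K) = (y - n) + (z - m) := by push_cast; ring
    rw [this]
    exact dvd_add hn hm
  | mul y z _ _ hy hz =>
    obtain ⟨n, hn⟩ := hy
    obtain ⟨m, hm⟩ := hz
    refine ⟨n * m, ?_⟩
    have : y * z - ((n * m : ℤ) : 𝓞 K) = (y - n) * z + n * (z - m) := by push_cast; ring
    rw [this]
    exact dvd_add (Dvd.dvd.mul_right hn _) (Dvd.dvd.mul_left hm _)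

include hζ in
/-- The ring of integers of the `p`-th cyclotomic field satisfies the hypotheses of the abstract
descent, provided Kummer's lemma holds. -/
lemma caseIIRing_toInteger (hp2 : p ≠ 2) (hK : KummerLemmaFor p K) :
    CaseIIRing p hζ.toInteger where
  prime := hp.out
  odd := hp2
  root := hζ.toInteger_isPrimitiveRoot
  lam_prime := hζ.zeta_sub_one_prime'
  p_assoc := (IsCyclotomicExtension.Rat.associated_zeta_sub_one_pow_prime p hζ).symm
  residue := exists_int_sub_dvd_toInteger hζ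
  kummer := hK

end

/-- **Second case of Fermat's Last Theorem** for an odd prime `p` such that the ring of integers of
the `p`-th cyclotomic field is principal and Kummer's lemma holds. -/
theorem caseII {p : ℕ} [Fact p.Prime] (hp2 : p ≠ 2) {K : Type*} [Field K] [NumberField K]
    [IsCyclotomicExtension {p} ℚ K] [IsPrincipalIdealRing (𝓞 K)] (hK : KummerLemmaFor p K)
    (a b c : ℤ) (hab : IsCoprime a b) (hc : c ≠ 0) (hpc : (p : ℤ) ∣ c) :
    a ^ p + b ^ p ≠ c ^ p := by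
  intro heq
  have hpP : p.Prime := Fact.out
  have hζ : IsPrimitiveRoot (IsCyclotomicExtension.zeta p ℚ K) p :=
    IsCyclotomicExtension.zeta_spec p ℚ K
  have hR := caseIIRing_toInteger hζ hp2 hK
  -- `p` does not divide `b`
  have hpb : ¬ (p : ℤ) ∣ b := by
    intro hd
    have hpa : (p : ℤ) ∣ a ^ p := by
      have : a ^ p = c ^ p - b ^ p := by rw [← heq]; ring
      rw [this]
      exact dvd_sub (dvd_pow hpc hpP.ne_zero) (dvd_pow hd hpP.ne_zero)
    have hpa' : (p : ℤ) ∣ a := (Nat.prime_iff_prime_int.mp hpP).dvd_of_dvd_pow hpa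
    exact (Nat.prime_iff_prime_int.mp hpP).not_isUnit (hab.isUnit_of_dvd' hpa' hd)
  refine hR.no_solution (c : 𝓞 K) ?_ ?_ (a : 𝓞 K) (b : 𝓞 K) 1 ?_ ?_ ?_
  · exact_mod_cast hc
  · exact hR.lam_dvd_intCast hpc
  · exact fun hd => hpb (hR.dvd_of_lam_dvd_intCast hd)
  · exact hab.intCast
  · rw [Units.val_one, one_mul]
    exact_mod_cast congrArg (Int.cast : ℤ → 𝓞 K) heq

end Fermat.Agent.Kummer
end MergeWrap_Lib_Kummer_CaseII

section MergeWrap_Lib_Kummer_CycLift -- from Lib/Kummer/CycLift.lean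

/-!
# Ring homomorphisms out of the ring of integers of a prime cyclotomic field

For `K` a `p`-th cyclotomic extension of `ℚ` (`p` prime) and `y` in a ring `T` with
`∑ i ∈ range p, y ^ i = 0`, we construct the ring homomorphism `𝓞 K →+* T` sending
`ζ` to `y`.  We also record that every element of `𝓞 K` is a polynomial in `ζ`.
-/

set_option autoImplicit false
set_option linter.unusedSectionVars false

open NumberField Polynomial

namespace Fermat.Agent.Kummer

section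

variable {p : ℕ} [hp : Fact p.Prime] {K : Type*} [Field K] [NumberField K]
  [IsCyclotomicExtension {p} ℚ K] {ζ : K} (hζ : IsPrimitiveRoot ζ p)

lemma minpoly_toInteger_eq_sum :
    minpoly ℤ hζ.toInteger = ∑ i ∈ Finset.range p, (X : ℤ[X]) ^ i := by
  rw [← RingOfIntegers.minpoly_coe, show ((hζ.toInteger : 𝓞 K) : K) = ζ from rfl,
    ← cyclotomic_eq_minpoly hζ hp.out.pos, cyclotomic_prime]

lemma aeval_minpoly_gen_eq_zero {T : Type*} [Ring T] (y : T)
    (hy : ∑ i ∈ Finset.range p, y ^ i = 0) :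
    aeval y (minpoly ℤ hζ.integralPowerBasis.gen) = 0 := by
  rw [hζ.integralPowerBasis_gen, minpoly_toInteger_eq_sum hζ]
  simpa using hy

/-- The ring homomorphism `𝓞 K →+* T` sending `ζ` to a root `y` of `1 + X + ⋯ + X ^ (p - 1)`. -/
noncomputable def cycLift {T : Type*} [Ring T] (y : T)
    (hy : ∑ i ∈ Finset.range p, y ^ i = 0) : 𝓞 K →+* T :=
  (hζ.integralPowerBasis.lift y (aeval_minpoly_gen_eq_zero hζ y hy)).toRingHom

@[simp]
lemma cycLift_toInteger {T : Type*} [Ring T] (y : T)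
    (hy : ∑ i ∈ Finset.range p, y ^ i = 0) : cycLift hζ y hy hζ.toInteger = y :=
  (congrArg _ hζ.integralPowerBasis_gen.symm).trans
    (hζ.integralPowerBasis.lift_gen y (aeval_minpoly_gen_eq_zero hζ y hy))

/-- Every element of `𝓞 K` is an integer polynomial in `ζ`. -/
lemma exists_eq_aeval_toInteger (x : 𝓞 K) : ∃ f : ℤ[X], x = aeval hζ.toInteger f := by
  obtain ⟨f, hf⟩ := hζ.integralPowerBasis.exists_eq_aeval' x
  rw [hζ.integralPowerBasis_gen] at hf
  exact ⟨f, hf⟩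

omit [NumberField K] [IsCyclotomicExtension {p} ℚ K] in
/-- The relation `1 + ζ + ⋯ + ζ ^ (p - 1) = 0` in `𝓞 K`. -/
lemma toInteger_geom_sum_eq_zero : ∑ i ∈ Finset.range p, hζ.toInteger ^ i = 0 :=
  hζ.toInteger_isPrimitiveRoot.geom_sum_eq_zero hp.out.one_lt

/-- Every element of `𝓞 K` is congruent to a rational integer modulo `ζ - a`, `a : ℤ`. -/
lemma exists_int_sub_dvd_sub (a : ℤ) (x : 𝓞 K) :
    ∃ n : ℤ, hζ.toInteger - (a : 𝓞 K) ∣ x - (n : 𝓞 K) := by
  obtain ⟨f, rfl⟩ := exists_eq_aeval_toInteger hζ x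
  refine ⟨f.eval a, ?_⟩
  have h := sub_dvd_eval_sub hζ.toInteger (a : 𝓞 K) (f.map (Int.castRingHom (𝓞 K)))
  rw [eval_intCast_map] at h
  have h2 : eval hζ.toInteger (f.map (Int.castRingHom (𝓞 K))) = aeval hζ.toInteger f := by
    rw [aeval_def, eval₂_eq_eval_map, algebraMap_int_eq]
  rwa [h2] at h

end

end Fermat.Agent.Kummer
end MergeWrap_Lib_Kummer_CycLift

section MergeWrap_Lib_Kummer_Wiring -- from Lib/Kummer/Wiring.lean

/-!
# Kummer route: assembling Case I and Case II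

Given Case I (`p ∣ a * b * c` for every coprime solution), a principal ring of integers and
Kummer's lemma, there is no solution of `a ^ p + b ^ p = c ^ p` in nonzero integers with
`a`, `b` coprime.
-/

set_option autoImplicit false

open NumberField

namespace Fermat.Agent.Kummer

/-- If `a ^ p + b ^ p = c ^ p` with `a`, `b` coprime, then `a`, `c` are coprime. -/
lemma wiring_isCoprime_left {p : ℕ} (hp : p ≠ 0) {a b c : ℤ} (hab : IsCoprime a b)
    (h : a ^ p + b ^ p = c ^ p) : IsCoprime a c := by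
  have h1 : IsCoprime (a ^ p) (b ^ p) := hab.pow
  have h2 : IsCoprime (a ^ p) (c ^ p) := by
    rw [← h]
    have h3 := h1.add_mul_left_right 1
    rwa [mul_one, add_comm] at h3
  exact (IsCoprime.pow_iff (Nat.pos_of_ne_zero hp) (Nat.pos_of_ne_zero hp)).mp h2

theorem flt_of_caseI_of_kummer {p : ℕ} [Fact p.Prime] (hp2 : p ≠ 2) {K : Type*} [Field K]
    [NumberField K] [IsCyclotomicExtension {p} ℚ K] [IsPrincipalIdealRing (𝓞 K)]
    (hK : KummerLemmaFor p K)
    (hI : ∀ a b c : ℤ, IsCoprime a b → a ^ p + b ^ p = c ^ p → (p : ℤ) ∣ a * b * c)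
    (a b c : ℤ) (ha : a ≠ 0) (hb : b ≠ 0) (hc : c ≠ 0) (hab : IsCoprime a b) :
    a ^ p + b ^ p ≠ c ^ p := by
  intro h
  have hpP : p.Prime := Fact.out
  have hodd : Odd p := hpP.odd_of_ne_two hp2
  have hpZ : Prime (p : ℤ) := Nat.prime_iff_prime_int.mp hpP
  have hac : IsCoprime a c := wiring_isCoprime_left hpP.ne_zero hab h
  have hbc : IsCoprime b c :=
    wiring_isCoprime_left hpP.ne_zero hab.symm (by rw [add_comm]; exact h)
  rcases hpZ.dvd_or_dvd (hI a b c hab h) with h1 | h1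
  · rcases hpZ.dvd_or_dvd h1 with h2 | h2
    · -- p ∣ a : c ^ p + (-b) ^ p = a ^ p
      refine caseII hp2 hK c (-b) a hbc.symm.neg_right ha h2 ?_
      rw [hodd.neg_pow, ← h]; ring
    · -- p ∣ b : c ^ p + (-a) ^ p = b ^ p
      refine caseII hp2 hK c (-a) b hac.symm.neg_right hb h2 ?_
      rw [hodd.neg_pow, ← h]; ring
  · exact caseII hp2 hK a b c hab hc h1 h

end Fermat.Agent.Kummer
end MergeWrap_Lib_Kummer_Wiring

section MergeWrap_Lib_Kummer_FreyWiring -- from Lib/Kummer/FreyWiring.lean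

/-!
# Kummer route: non-existence of Frey packages

`freyPackage_false_of_kummer`: if `p` is an odd prime such that the first case holds for `p`
(`IsCoprime a b → a ^ p + b ^ p = c ^ p → p ∣ a * b * c`), the ring of integers of a `p`-th
cyclotomic field `K` is principal and Kummer's lemma holds for `p` and `K`, then there is no Frey
package with prime `p`.
-/

set_option autoImplicit false

open NumberField

namespace Fermat.Agent.Kummer

/-- There is no Frey package whose prime is `p`, given the first case, principality and Kummer's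
lemma for `p`. -/
theorem freyPackage_false_of_kummer {p : ℕ} [Fact p.Prime] (hp2 : p ≠ 2) {K : Type*} [Field K]
    [NumberField K] [IsCyclotomicExtension {p} ℚ K] [IsPrincipalIdealRing (𝓞 K)]
    (hK : KummerLemmaFor p K)
    (hI : ∀ a b c : ℤ, IsCoprime a b → a ^ p + b ^ p = c ^ p → (p : ℤ) ∣ a * b * c)
    (P : FreyPackage) (hP : P.p = p) : False := by
  have hab : IsCoprime P.a P.b := by
    rw [Int.isCoprime_iff_gcd_eq_one]
    have h1 := P.hgcdab
    have h2 : ((Int.gcd P.a P.b : ℕ) : ℤ) = 1 := by rw [Int.coe_gcd]; exact h1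
    exact_mod_cast h2
  have hFLT : P.a ^ p + P.b ^ p = P.c ^ p := hP ▸ P.hFLT
  exact flt_of_caseI_of_kummer hp2 hK hI P.a P.b P.c P.ha0 P.hb0 P.hc0 hab hFLT

end Fermat.Agent.Kummer
end MergeWrap_Lib_Kummer_FreyWiring

section MergeWrap_Lib_Kummer_KLGeneric -- from Lib/Kummer/KLGeneric.lean

/-!
# Kummer's lemma from an independence certificate (generic part)

For a number field `K`, a prime `p`, a `ZMod p`-module `A` and a group hom
`θ : (𝓞 K)ˣ →* Multiplicative A` that kills every unit congruent to a rational integer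
modulo `p`: if `rank K + 1` units have `ZMod p`-linearly independent images under `θ`,
then every unit congruent to a rational integer modulo `p` is a `p`-th power.
-/

open NumberField

namespace Fermat.Agent.KummerLemma

variable {K : Type*} [Field K] [NumberField K]

/-- Generators of the unit group: a generator of the torsion and a fundamental system. -/
noncomputable def klGen (K : Type*) [Field K] [NumberField K] :
    Fin (Units.rank K + 1) → (𝓞 K)ˣ :=
  Fin.cons ((IsCyclic.exists_generator (α := Units.torsion K)).choose : (𝓞 K)ˣ)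
    (Units.fundSystem K)

lemma klGen_surj (u : (𝓞 K)ˣ) :
    ∃ e : Fin (Units.rank K + 1) → ℤ, u = ∏ i, klGen K i ^ e i := by
  obtain ⟨⟨τ, e⟩, hu, -⟩ := Units.exist_unique_eq_mul_prod K u
  have hgen := (IsCyclic.exists_generator (α := Units.torsion K)).choose_spec
  obtain ⟨k, hk⟩ := Subgroup.mem_zpowers_iff.mp (hgen τ)
  refine ⟨Fin.cons k e, ?_⟩
  rw [Fin.prod_univ_succ]
  simp only [klGen, Fin.cons_zero, Fin.cons_succ]
  rw [hu]
  congr 1
  rw [← hk]
  simp

variable {p : ℕ} [Fact p.Prime] {A : Type*} [AddCommGroup A] [Module (ZMod p) A]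

omit [NumberField K] in
lemma theta_prod_zpow (θ : (𝓞 K)ˣ →* Multiplicative A) {n : ℕ} (g : Fin n → (𝓞 K)ˣ)
    (e : Fin n → ℤ) :
    Multiplicative.toAdd (θ (∏ i, g i ^ e i)) =
      ∑ i, (e i : ZMod p) • Multiplicative.toAdd (θ (g i)) := by
  rw [map_prod, toAdd_prod]
  refine Finset.sum_congr rfl fun i _ => ?_
  rw [map_zpow, toAdd_zpow, Int.cast_smul_eq_zsmul]

theorem kummer_of_linearIndependent {ι : Type*} [Fintype ι]
    (hcard : Fintype.card ι = Units.rank K + 1)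
    (θ : (𝓞 K)ˣ →* Multiplicative A)
    (hθ : ∀ u : (𝓞 K)ˣ, (∃ n : ℤ, (p : 𝓞 K) ∣ (u : 𝓞 K) - (n : 𝓞 K)) → θ u = 1)
    (η : ι → (𝓞 K)ˣ)
    (hind : LinearIndependent (ZMod p) (fun a => Multiplicative.toAdd (θ (η a))))
    (u : (𝓞 K)ˣ) (hu : ∃ n : ℤ, (p : 𝓞 K) ∣ (u : 𝓞 K) - (n : 𝓞 K)) :
    ∃ v : (𝓞 K)ˣ, u = v ^ p := by
  classical
  have hne : Nonempty ι := Fintype.card_pos_iff.mp (by omega)
  -- the linear map
  let L : (Fin (Units.rank K + 1) → ZMod p) →ₗ[ZMod p] A :=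
    Fintype.linearCombination (ZMod p) (fun i => Multiplicative.toAdd (θ (klGen K i)))
  have hL : ∀ e : Fin (Units.rank K + 1) → ℤ,
      Multiplicative.toAdd (θ (∏ i, klGen K i ^ e i)) = L (fun i => (e i : ZMod p)) := by
    intro e
    rw [theta_prod_zpow (p := p)]
    simp only [L, Fintype.linearCombination_apply]
  -- exponent vectors of the η's
  choose E hE using fun a => klGen_surj (η a)
  let w : ι → (Fin (Units.rank K + 1) → ZMod p) := fun a i => (E a i : ZMod p)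
  have hw : (fun a => Multiplicative.toAdd (θ (η a))) = L ∘ w := by
    funext a
    simp only [Function.comp_apply]
    conv_lhs => rw [hE a]
    exact hL (E a)
  have hwind : LinearIndependent (ZMod p) w := by
    rw [hw] at hind
    exact hind.of_comp L
  have hfin : Fintype.card ι = Module.finrank (ZMod p) (Fin (Units.rank K + 1) → ZMod p) := by
    rw [hcard]; simp
  let b := basisOfLinearIndependentOfCardEqFinrank hwind hfin
  have hLinj : ∀ x, L x = 0 → x = 0 := by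
    intro x hx
    have hxb : x = ∑ a, b.repr x a • w a := by
      conv_lhs => rw [← b.sum_repr x]
      simp [b]
    have : ∑ a, b.repr x a • Multiplicative.toAdd (θ (η a)) = 0 := by
      have h2 : L x = ∑ a, b.repr x a • L (w a) := by
        conv_lhs => rw [hxb]
        simp
      rw [← hx, h2]
      refine Finset.sum_congr rfl fun a _ => ?_
      rw [show Multiplicative.toAdd (θ (η a)) = L (w a) from congrFun hw a]
    have hc := Fintype.linearIndependent_iff.mp hind _ this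
    rw [hxb]
    simp [hc]
  -- now the unit u
  obtain ⟨e, he⟩ := klGen_surj u
  have h1 : L (fun i => (e i : ZMod p)) = 0 := by
    rw [← hL e, ← he, hθ u hu]; rfl
  have h2 := hLinj _ h1
  have h3 : ∀ i, (p : ℤ) ∣ e i := fun i =>
    (ZMod.intCast_zmod_eq_zero_iff_dvd (e i) p).mp (congrFun h2 i)
  choose e' he' using h3
  refine ⟨∏ i, klGen K i ^ e' i, ?_⟩
  rw [he, ← Finset.prod_pow]
  refine Finset.prod_congr rfl fun i _ => ?_
  rw [he' i, ← zpow_natCast, ← zpow_mul, mul_comm]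

end Fermat.Agent.KummerLemma
end MergeWrap_Lib_Kummer_KLGeneric

section MergeWrap_Lib_Kummer_KLTheta -- from Lib/Kummer/KLTheta.lean

/-!
# The dual-number logarithmic derivative on units of `ℤ[ζ_p]`
-/

open NumberField Polynomial

namespace Fermat.Agent.KummerLemma

variable (p : ℕ)

/-- The truncated polynomial ring `𝔽_p[X]/(X^(p-2))`. -/
abbrev klA : Type := (ZMod p)[X] ⧸ Ideal.span {(X : (ZMod p)[X]) ^ (p - 2)}

/-- Dual numbers over `klA p`. -/
abbrev klB : Type := TrivSqZeroExt (klA p) (klA p)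

/-- The class of `1 + X`. -/
noncomputable def klx : klA p := Ideal.Quotient.mk _ (1 + X)

/-- The image of `ζ`: `(1+X)(1+ε)`. -/
noncomputable def kly : klB p := TrivSqZeroExt.inl (klx p) + TrivSqZeroExt.inr (klx p)

lemma klx_sub_one_pow : (klx p - 1) ^ (p - 2) = 0 := by
  have : klx p - 1 = Ideal.Quotient.mk (Ideal.span {(X : (ZMod p)[X]) ^ (p - 2)}) X := by
    simp [klx]
  rw [this, ← map_pow]
  exact Ideal.Quotient.eq_zero_iff_mem.mpr (Ideal.mem_span_singleton_self _)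

@[simp] lemma kly_fst : (kly p).fst = klx p := by simp [kly]

@[simp] lemma kly_snd : (kly p).snd = klx p := by simp [kly]

lemma kly_pow_fst (n : ℕ) : (kly p ^ n).fst = klx p ^ n := by simp

lemma kly_pow_snd (n : ℕ) : (kly p ^ n).snd = (n : klA p) * klx p ^ n := by
  rw [TrivSqZeroExt.snd_pow]
  cases n with
  | zero => simp
  | succ n => simp [pow_succ]

lemma kly_sub_one_pow (h3 : 3 ≤ p) : (kly p - 1) ^ (p - 1) = 0 := by
  have h1 : (p - 1 : ℕ) = (p - 2) + 1 := by omega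
  ext
  · simp only [TrivSqZeroExt.fst_pow, TrivSqZeroExt.fst_sub, kly_fst, TrivSqZeroExt.fst_one,
      TrivSqZeroExt.fst_zero]
    rw [h1, pow_succ, klx_sub_one_pow, zero_mul]
  · rw [TrivSqZeroExt.snd_pow]
    have : (p - 1).pred = p - 2 := by simp [Nat.pred_eq_sub_one]; omega
    rw [this]
    simp only [TrivSqZeroExt.fst_sub, kly_fst, TrivSqZeroExt.fst_one, klx_sub_one_pow]
    simp

variable [hp : Fact p.Prime]

lemma cyclotomic_zmod_eq : cyclotomic p (ZMod p) = (X - 1) ^ (p - 1) := by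
  have h := cyclotomic_mul_prime_pow_eq (ZMod p) (p := p) (m := 1)
    (by rw [Nat.dvd_one]; exact hp.out.one_lt.ne') (k := 1) one_pos
  simpa [cyclotomic_one] using h

lemma aeval_kly_cyclotomic (h3 : 3 ≤ p) : aeval (kly p) (cyclotomic p ℤ) = 0 := by
  have h2 : aeval (kly p) (cyclotomic p ℤ) = aeval (kly p) (cyclotomic p (ZMod p)) := by
    rw [← map_cyclotomic_int p (ZMod p), aeval_def, aeval_def, eval₂_map]
    congr 1
  rw [h2, cyclotomic_zmod_eq]
  simp only [map_pow, map_sub, aeval_X, map_one]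
  exact kly_sub_one_pow p h3

section Psi

variable {p}
variable {K : Type*} [Field K] [NumberField K] [IsCyclotomicExtension {p} ℚ K]
variable {ζ : K} (hζ : IsPrimitiveRoot ζ p)

lemma minpoly_toInteger : minpoly ℤ hζ.integralPowerBasis.gen = cyclotomic p ℤ := by
  rw [hζ.integralPowerBasis_gen, ← RingOfIntegers.minpoly_coe,
    cyclotomic_eq_minpoly hζ hp.out.pos]
  rfl

/-- The ring hom `𝓞 K → klB p` sending `ζ` to `kly p`. -/
noncomputable def klPsi (h3 : 3 ≤ p) : 𝓞 K →ₐ[ℤ] klB p :=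
  hζ.integralPowerBasis.lift (kly p) (by rw [minpoly_toInteger hζ]; exact aeval_kly_cyclotomic p h3)

lemma klPsi_zeta (h3 : 3 ≤ p) : klPsi hζ h3 hζ.toInteger = kly p := by
  have h1 : klPsi hζ h3 hζ.toInteger = klPsi hζ h3 hζ.integralPowerBasis.gen := by
    rw [hζ.integralPowerBasis_gen]
  rw [h1]
  exact hζ.integralPowerBasis.lift_gen (kly p) _

lemma klA_natCast_p : ((p : ℕ) : klA p) = 0 := by
  rw [← map_natCast (algebraMap (ZMod p) (klA p)), ZMod.natCast_self, map_zero]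

lemma klPsi_natCast_p (h3 : 3 ≤ p) : klPsi hζ h3 (p : 𝓞 K) = 0 := by
  rw [map_natCast]
  ext
  · simp [klA_natCast_p]
  · simp

/-- The logarithmic derivative `θ : (𝓞 K)ˣ →* Multiplicative (klA p)`. -/
noncomputable def klTheta (h3 : 3 ≤ p) : (𝓞 K)ˣ →* Multiplicative (klA p) where
  toFun u := Multiplicative.ofAdd
    ((klPsi hζ h3 (u : 𝓞 K)).snd * (klPsi hζ h3 ((u⁻¹ : (𝓞 K)ˣ) : 𝓞 K)).fst)
  map_one' := by simp
  map_mul' u v := by
    rw [← ofAdd_add]
    congr 1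
    have hu : (klPsi hζ h3 (u : 𝓞 K)).fst * (klPsi hζ h3 ((u⁻¹ : (𝓞 K)ˣ) : 𝓞 K)).fst = 1 := by
      rw [← TrivSqZeroExt.fst_mul, ← map_mul]; simp
    have hv : (klPsi hζ h3 (v : 𝓞 K)).fst * (klPsi hζ h3 ((v⁻¹ : (𝓞 K)ˣ) : 𝓞 K)).fst = 1 := by
      rw [← TrivSqZeroExt.fst_mul, ← map_mul]; simp
    simp only [Units.val_mul, map_mul, mul_inv_rev, TrivSqZeroExt.snd_mul, TrivSqZeroExt.fst_mul,
      smul_eq_mul, MulOpposite.smul_eq_mul_unop, MulOpposite.unop_op]
    linear_combination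
      ((klPsi hζ h3 (v : 𝓞 K)).snd * (klPsi hζ h3 ((v⁻¹ : (𝓞 K)ˣ) : 𝓞 K)).fst) * hu +
      ((klPsi hζ h3 (u : 𝓞 K)).snd * (klPsi hζ h3 ((u⁻¹ : (𝓞 K)ˣ) : 𝓞 K)).fst) * hv

lemma klTheta_mul_fst (h3 : 3 ≤ p) (u : (𝓞 K)ˣ) :
    Multiplicative.toAdd (klTheta hζ h3 u) * (klPsi hζ h3 (u : 𝓞 K)).fst =
      (klPsi hζ h3 (u : 𝓞 K)).snd := by
  have hu : (klPsi hζ h3 (u : 𝓞 K)).fst * (klPsi hζ h3 ((u⁻¹ : (𝓞 K)ˣ) : 𝓞 K)).fst = 1 := by
    rw [← TrivSqZeroExt.fst_mul, ← map_mul]; simp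
  simp only [klTheta, MonoidHom.coe_mk, OneHom.coe_mk, toAdd_ofAdd]
  linear_combination (klPsi hζ h3 (u : 𝓞 K)).snd * hu

lemma klTheta_eq_one (h3 : 3 ≤ p) (u : (𝓞 K)ˣ)
    (hu : ∃ n : ℤ, (p : 𝓞 K) ∣ (u : 𝓞 K) - (n : 𝓞 K)) : klTheta hζ h3 u = 1 := by
  obtain ⟨n, β, hβ⟩ := hu
  have h1 : (u : 𝓞 K) = n + p * β := by rw [← hβ]; ring
  have h2 : (klPsi hζ h3 (u : 𝓞 K)).snd = 0 := by
    rw [h1, map_add, map_mul, klPsi_natCast_p, zero_mul, add_zero, map_intCast]
    simp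
  simp only [klTheta, MonoidHom.coe_mk, OneHom.coe_mk, h2, zero_mul]
  rfl

end Psi

end Fermat.Agent.KummerLemma
end MergeWrap_Lib_Kummer_KLTheta

section MergeWrap_Lib_Kummer_KLPolyDefs -- from Lib/Kummer/KLPolyDefs.lean

/-!
# Kummer lemma, polynomial data (shared definitions)

`klD p a` and `klE p a` are the two components of the image of the cyclotomic unit
`η_a = 1 + ζ + ... + ζ^a` (and `η_0 = ζ`) under `ζ ↦ (1 + X) (1 + ε)`.
-/

set_option autoImplicit false

open Polynomial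

namespace Fermat.Agent.KummerLemma

/-- First component (value) of the image of `η_a`. -/
noncomputable def klD (p a : ℕ) : (ZMod p)[X] :=
  if a = 0 then 1 + X else ∑ i ∈ Finset.range (a + 1), (1 + X) ^ i

/-- Second component (derivative part) of the image of `η_a`. -/
noncomputable def klE (p a : ℕ) : (ZMod p)[X] :=
  if a = 0 then 1 + X else ∑ i ∈ Finset.range (a + 1), (i : (ZMod p)[X]) * (1 + X) ^ i

end Fermat.Agent.KummerLemma
end MergeWrap_Lib_Kummer_KLPolyDefs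

section MergeWrap_Lib_Kummer_KLAssemble -- from Lib/Kummer/KLAssemble.lean

/-!
# Kummer's lemma from a polynomial independence statement
-/

open NumberField Polynomial

namespace Fermat.Agent.KummerLemma

/-- The polynomial independence statement for the prime `p`. -/
def KLIndep (p : ℕ) : Prop :=
  ∀ c : Fin ((p - 1) / 2) → ZMod p,
    (X : (ZMod p)[X]) ^ (p - 2) ∣
      ∑ a : Fin ((p - 1) / 2), C (c a) * (klE p a * ∏ b ∈ Finset.univ.erase a, klD p b) →
    c = 0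

variable {p : ℕ} [hp : Fact p.Prime]
variable {K : Type*} [Field K] [NumberField K] [IsCyclotomicExtension {p} ℚ K]

lemma kl_rank (h3 : 3 ≤ p) : Units.rank K + 1 = (p - 1) / 2 := by
  have : NeZero p := ⟨hp.out.ne_zero⟩
  have h1 : Units.rank K = Fintype.card (InfinitePlace K) - 1 := rfl
  have h2 := InfinitePlace.card_eq_nrRealPlaces_add_nrComplexPlaces K
  have h3' := IsCyclotomicExtension.Rat.nrRealPlaces_eq_zero (n := p) K (by omega)
  have h4 := IsCyclotomicExtension.Rat.nrComplexPlaces_eq_totient_div_two p K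
  rw [Nat.totient_prime hp.out] at h4
  have h5 : 1 ≤ (p - 1) / 2 := by omega
  omega

variable {ζ : K} (hζ : IsPrimitiveRoot ζ p)

lemma kl_coprime (a : Fin ((p - 1) / 2)) : ((a : ℕ) + 1).Coprime p := by
  have ha := a.2
  refine Nat.Coprime.symm ((Nat.Prime.coprime_iff_not_dvd hp.out).mpr ?_)
  exact Nat.not_dvd_of_pos_of_lt (by omega) (by omega)

/-- The units `η_a`. -/
noncomputable def klEta (h3 : 3 ≤ p) (a : Fin ((p - 1) / 2)) : (𝓞 K)ˣ :=
  haveI : NeZero p := ⟨hp.out.ne_zero⟩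
  if (a : ℕ) = 0 then (hζ.toInteger_isPrimitiveRoot.isUnit hp.out.ne_zero).unit
  else (hζ.toInteger_isPrimitiveRoot.geom_sum_isUnit (by omega) (kl_coprime a)).unit

lemma klPsi_zeta_pow (h3 : 3 ≤ p) (i : ℕ) :
    klPsi hζ h3 (hζ.toInteger ^ i) = kly p ^ i := by
  rw [map_pow, klPsi_zeta]

lemma klPsi_klEta_fst (h3 : 3 ≤ p) (a : Fin ((p - 1) / 2)) :
    (klPsi hζ h3 (klEta hζ h3 a : 𝓞 K)).fst = Ideal.Quotient.mk _ (klD p a) := by
  unfold klEta klD
  split_ifs with h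
  · simp [klPsi_zeta, klx]
  · simp only [IsUnit.unit_spec, map_sum, klPsi_zeta_pow, TrivSqZeroExt.fst_sum, kly_pow_fst]
    simp [klx]

lemma klPsi_klEta_snd (h3 : 3 ≤ p) (a : Fin ((p - 1) / 2)) :
    (klPsi hζ h3 (klEta hζ h3 a : 𝓞 K)).snd = Ideal.Quotient.mk _ (klE p a) := by
  unfold klEta klE
  split_ifs with h
  · simp [klPsi_zeta, klx]
  · simp only [IsUnit.unit_spec, map_sum, klPsi_zeta_pow, TrivSqZeroExt.snd_sum, kly_pow_snd]
    simp [klx]

theorem kummerLemma_of_klIndep (h3 : 3 ≤ p) (hind : KLIndep p)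
    (u : (𝓞 K)ˣ) (hu : ∃ n : ℤ, (p : 𝓞 K) ∣ (u : 𝓞 K) - (n : 𝓞 K)) :
    ∃ v : (𝓞 K)ˣ, u = v ^ p := by
  classical
  have : NeZero p := ⟨hp.out.ne_zero⟩
  have hζ := IsCyclotomicExtension.zeta_spec p ℚ K
  refine kummer_of_linearIndependent (p := p) (ι := Fin ((p - 1) / 2))
    (by rw [Fintype.card_fin, kl_rank h3]) (klTheta hζ h3) (klTheta_eq_one hζ h3)
    (klEta hζ h3) ?_ u hu
  rw [Fintype.linearIndependent_iff]
  intro c hc
  have hc0 : c = 0 := by
    apply hind c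
    rw [← Ideal.mem_span_singleton, ← Ideal.Quotient.eq_zero_iff_mem]
    set I := Ideal.span {(X : (ZMod p)[X]) ^ (p - 2)} with hI
    have key : ∀ a : Fin ((p - 1) / 2),
        Multiplicative.toAdd (klTheta hζ h3 (klEta hζ h3 a)) *
          ∏ b : Fin ((p - 1) / 2), Ideal.Quotient.mk I (klD p b) =
        Ideal.Quotient.mk I (klE p a * ∏ b ∈ Finset.univ.erase a, klD p b) := by
      intro a
      rw [← Finset.mul_prod_erase Finset.univ _ (Finset.mem_univ a), ← mul_assoc,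
        ← klPsi_klEta_fst hζ h3 a, klTheta_mul_fst, klPsi_klEta_snd, map_mul, map_prod]
    have h1 : (∑ a, c a • Multiplicative.toAdd (klTheta hζ h3 (klEta hζ h3 a))) *
        ∏ b : Fin ((p - 1) / 2), Ideal.Quotient.mk I (klD p b) = 0 := by
      rw [hc, zero_mul]
    rw [Finset.sum_mul] at h1
    rw [map_sum, ← h1]
    refine Finset.sum_congr rfl fun a _ => ?_
    rw [smul_mul_assoc, key, ← Polynomial.smul_eq_C_mul]
    rfl
  intro a
  rw [hc0]
  rfl

end Fermat.Agent.KummerLemma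
end MergeWrap_Lib_Kummer_KLAssemble

section MergeWrap_Lib_Kummer_KLIndep11 -- from Lib/Kummer/KLIndep11.lean

/-!
# Kummer lemma, polynomial independence for p = 11

Generated data: the images of the cyclotomic units are linearly independent modulo `X ^ (p - 2)`.
-/

set_option autoImplicit false
set_option linter.unusedSimpArgs false
set_option linter.unusedVariables false

open Polynomial

namespace Fermat.Agent.KummerLemma

private lemma klD11_0 : klD 11 0 = (1 + X) := by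
  simp [klD, Finset.sum_range_succ]
private lemma klE11_0 : klE 11 0 = (1 + X) := by
  simp [klE, Finset.sum_range_succ]
private lemma klD11_1 : klD 11 1 = (1 + (1 + X)) := by
  simp [klD, Finset.sum_range_succ]
private lemma klE11_1 : klE 11 1 = ((1 + X)) := by
  simp [klE, Finset.sum_range_succ]
private lemma klD11_2 : klD 11 2 = (1 + (1 + X) + (1 + X) ^ 2) := by
  simp [klD, Finset.sum_range_succ]
private lemma klE11_2 : klE 11 2 = ((1 + X) + 2 * (1 + X) ^ 2) := by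
  simp [klE, Finset.sum_range_succ]
private lemma klD11_3 : klD 11 3 = (1 + (1 + X) + (1 + X) ^ 2 + (1 + X) ^ 3) := by
  simp [klD, Finset.sum_range_succ]
private lemma klE11_3 : klE 11 3 = ((1 + X) + 2 * (1 + X) ^ 2 + 3 * (1 + X) ^ 3) := by
  simp [klE, Finset.sum_range_succ]
private lemma klD11_4 : klD 11 4 = (1 + (1 + X) + (1 + X) ^ 2 + (1 + X) ^ 3 + (1 + X) ^ 4) := by
  simp [klD, Finset.sum_range_succ]
private lemma klE11_4 : klE 11 4 = ((1 + X) + 2 * (1 + X) ^ 2 + 3 * (1 + X) ^ 3 + 4 * (1 + X) ^ 4) := by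
  simp [klE, Finset.sum_range_succ]

private lemma klErase11_0 : (Finset.univ.erase (0 : Fin 5)) = {1, 2, 3, 4} := by decide
private lemma klErase11_1 : (Finset.univ.erase (1 : Fin 5)) = {0, 2, 3, 4} := by decide
private lemma klErase11_2 : (Finset.univ.erase (2 : Fin 5)) = {0, 1, 3, 4} := by decide
private lemma klErase11_3 : (Finset.univ.erase (3 : Fin 5)) = {0, 1, 2, 4} := by decide
private lemma klErase11_4 : (Finset.univ.erase (4 : Fin 5)) = {0, 1, 2, 3} := by decide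

private lemma klP11_0 : klE 11 ((0 : Fin 5) : ℕ) * ∏ b ∈ Finset.univ.erase (0 : Fin 5), klD 11 (b : ℕ)
    = (120 + 720 * X + 2050 * X ^ 2 + 3650 * X ^ 3 + 4499 * X ^ 4 + 4016 * X ^ 5 + 2640 * X ^ 6 + 1274 * X ^ 7 + 441 * X ^ 8 + 104 * X ^ 9 + 15 * X ^ 10 + 1 * X ^ 11 : (ZMod 11)[X]) := by
  have h1 : klE 11 ((0 : Fin 5) : ℕ) * ∏ b ∈ Finset.univ.erase (0 : Fin 5), klD 11 (b : ℕ)
      = ((1 + X) * ((1 + (1 + X)) * ((1 + (1 + X) + (1 + X) ^ 2) * ((1 + (1 + X) + (1 + X) ^ 2 + (1 + X) ^ 3) * (1 + (1 + X) + (1 + X) ^ 2 + (1 + X) ^ 3 + (1 + X) ^ 4)))) : (ZMod 11)[X]) := by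
    rw [klErase11_0]
    simp [klE11_0, klD11_1, klD11_2, klD11_3, klD11_4]
  rw [h1]
  ring

private lemma klP11_1 : klE 11 ((1 : Fin 5) : ℕ) * ∏ b ∈ Finset.univ.erase (1 : Fin 5), klD 11 (b : ℕ)
    = (60 + 390 * X + 1190 * X ^ 2 + 2255 * X ^ 3 + 2947 * X ^ 4 + 2784 * X ^ 5 + 1936 * X ^ 6 + 989 * X ^ 7 + 363 * X ^ 8 + 91 * X ^ 9 + 14 * X ^ 10 + 1 * X ^ 11 : (ZMod 11)[X]) := by
  have h1 : klE 11 ((1 : Fin 5) : ℕ) * ∏ b ∈ Finset.univ.erase (1 : Fin 5), klD 11 (b : ℕ)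
      = (((1 + X)) * ((1 + X) * ((1 + (1 + X) + (1 + X) ^ 2) * ((1 + (1 + X) + (1 + X) ^ 2 + (1 + X) ^ 3) * (1 + (1 + X) + (1 + X) ^ 2 + (1 + X) ^ 3 + (1 + X) ^ 4)))) : (ZMod 11)[X]) := by
    rw [klErase11_1]
    simp [klE11_1, klD11_0, klD11_2, klD11_3, klD11_4]
  rw [h1]
  ring

private lemma klP11_2 : klE 11 ((2 : Fin 5) : ℕ) * ∏ b ∈ Finset.univ.erase (2 : Fin 5), klD 11 (b : ℕ)
    = (120 + 800 * X + 2490 * X ^ 2 + 4790 * X ^ 3 + 6329 * X ^ 4 + 6022 * X ^ 5 + 4201 * X ^ 6 + 2143 * X ^ 7 + 781 * X ^ 8 + 193 * X ^ 9 + 29 * X ^ 10 + 2 * X ^ 11 : (ZMod 11)[X]) := by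
  have h1 : klE 11 ((2 : Fin 5) : ℕ) * ∏ b ∈ Finset.univ.erase (2 : Fin 5), klD 11 (b : ℕ)
      = (((1 + X) + 2 * (1 + X) ^ 2) * ((1 + X) * ((1 + (1 + X)) * ((1 + (1 + X) + (1 + X) ^ 2 + (1 + X) ^ 3) * (1 + (1 + X) + (1 + X) ^ 2 + (1 + X) ^ 3 + (1 + X) ^ 4)))) : (ZMod 11)[X]) := by
    rw [klErase11_2]
    simp [klE11_2, klD11_0, klD11_1, klD11_3, klD11_4]
  rw [h1]
  ring

private lemma klP11_3 : klE 11 ((3 : Fin 5) : ℕ) * ∏ b ∈ Finset.univ.erase (3 : Fin 5), klD 11 (b : ℕ)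
    = (180 + 1230 * X + 3900 * X ^ 2 + 7595 * X ^ 3 + 10101 * X ^ 4 + 9624 * X ^ 5 + 6690 * X ^ 6 + 3385 * X ^ 7 + 1219 * X ^ 8 + 297 * X ^ 9 + 44 * X ^ 10 + 3 * X ^ 11 : (ZMod 11)[X]) := by
  have h1 : klE 11 ((3 : Fin 5) : ℕ) * ∏ b ∈ Finset.univ.erase (3 : Fin 5), klD 11 (b : ℕ)
      = (((1 + X) + 2 * (1 + X) ^ 2 + 3 * (1 + X) ^ 3) * ((1 + X) * ((1 + (1 + X)) * ((1 + (1 + X) + (1 + X) ^ 2) * (1 + (1 + X) + (1 + X) ^ 2 + (1 + X) ^ 3 + (1 + X) ^ 4)))) : (ZMod 11)[X]) := by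
    rw [klErase11_3]
    simp [klE11_3, klD11_0, klD11_1, klD11_2, klD11_4]
  rw [h1]
  ring

private lemma klP11_4 : klE 11 ((4 : Fin 5) : ℕ) * ∏ b ∈ Finset.univ.erase (4 : Fin 5), klD 11 (b : ℕ)
    = (240 + 1680 * X + 5420 * X ^ 2 + 10656 * X ^ 3 + 14200 * X ^ 4 + 13474 * X ^ 5 + 9291 * X ^ 6 + 4655 * X ^ 7 + 1660 * X ^ 8 + 401 * X ^ 9 + 59 * X ^ 10 + 4 * X ^ 11 : (ZMod 11)[X]) := by
  have h1 : klE 11 ((4 : Fin 5) : ℕ) * ∏ b ∈ Finset.univ.erase (4 : Fin 5), klD 11 (b : ℕ)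
      = (((1 + X) + 2 * (1 + X) ^ 2 + 3 * (1 + X) ^ 3 + 4 * (1 + X) ^ 4) * ((1 + X) * ((1 + (1 + X)) * ((1 + (1 + X) + (1 + X) ^ 2) * (1 + (1 + X) + (1 + X) ^ 2 + (1 + X) ^ 3)))) : (ZMod 11)[X]) := by
    rw [klErase11_4]
    simp [klE11_4, klD11_0, klD11_1, klD11_2, klD11_3]
  rw [h1]
  ring

theorem klIndep_eleven (c : Fin 5 → ZMod 11)
    (h : (X : (ZMod 11)[X]) ^ 9 ∣ ∑ a : Fin 5, C (c a) * (klE 11 a * ∏ b ∈ Finset.univ.erase a, klD 11 b)) :
    c = 0 := by
  rw [Fin.sum_univ_five, klP11_0, klP11_1, klP11_2, klP11_3, klP11_4] at h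
  rw [Polynomial.X_pow_dvd_iff] at h
  have h11 : (11 : ZMod 11) = 0 := by decide
  have e0 := h 0 (by norm_num)
  simp only [coeff_add, coeff_C_mul, coeff_ofNat_mul, coeff_X_pow, coeff_X, coeff_ofNat_zero, coeff_ofNat_succ, coeff_one, coeff_X_zero, coeff_one_zero] at e0
  norm_num at e0
  have e1 := h 1 (by norm_num)
  simp only [coeff_add, coeff_C_mul, coeff_ofNat_mul, coeff_X_pow, coeff_X, coeff_ofNat_zero, coeff_ofNat_succ, coeff_one, coeff_X_zero, coeff_one_zero] at e1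
  norm_num at e1
  have e2 := h 3 (by norm_num)
  simp only [coeff_add, coeff_C_mul, coeff_ofNat_mul, coeff_X_pow, coeff_X, coeff_ofNat_zero, coeff_ofNat_succ, coeff_one, coeff_X_zero, coeff_one_zero] at e2
  norm_num at e2
  have e3 := h 5 (by norm_num)
  simp only [coeff_add, coeff_C_mul, coeff_ofNat_mul, coeff_X_pow, coeff_X, coeff_ofNat_zero, coeff_ofNat_succ, coeff_one, coeff_X_zero, coeff_one_zero] at e3
  norm_num at e3
  have e4 := h 7 (by norm_num)
  simp only [coeff_add, coeff_C_mul, coeff_ofNat_mul, coeff_X_pow, coeff_X, coeff_ofNat_zero, coeff_ofNat_succ, coeff_one, coeff_X_zero, coeff_one_zero] at e4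
  norm_num at e4
  funext j
  fin_cases j
  · show c 0 = 0
    linear_combination (8) * e0 + (1) * e1 + (2) * e2 + (1) * e3 + (2) * e4 - ((1413) * c 0 + (922) * c 1 + (1968) * c 2 + (3114) * c 3 + (4336) * c 4) * h11
  · show c 1 = 0
    linear_combination (5) * e0 + (0) * e1 + (8) * e2 + (8) * e3 + (10) * e4 - ((6788) * c 0 + (4591) * c 1 + (9866) * c 2 + (15682) * c 3 + (21890) * c 4) * h11
  · show c 2 = 0
    linear_combination (5) * e0 + (1) * e1 + (4) * e2 + (9) * e3 + (6) * e4 - ((5428) * c 0 + (3700) * c 1 + (7965) * c 2 + (12676) * c 3 + (17700) * c 4) * h11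
  · show c 3 = 0
    linear_combination (9) * e0 + (6) * e1 + (8) * e2 + (9) * e3 + (7) * e4 - ((7242) * c 0 + (4809) * c 1 + (10309) * c 2 + (16370) * c 3 + (22849) * c 4) * h11
  · show c 4 = 0
    linear_combination (7) * e0 + (0) * e1 + (0) * e2 + (0) * e3 + (2) * e4 - ((308) * c 0 + (218) * c 1 + (466) * c 2 + (730) * c 3 + (999) * c 4) * h11

end Fermat.Agent.KummerLemma
end MergeWrap_Lib_Kummer_KLIndep11

section MergeWrap_Lib_Kummer_KLIndep13 -- from Lib/Kummer/KLIndep13.lean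

/-!
# Kummer lemma, polynomial independence for p = 13

Generated data: the images of the cyclotomic units are linearly independent modulo `X ^ (p - 2)`.
-/

set_option autoImplicit false
set_option linter.unusedSimpArgs false
set_option linter.unusedVariables false

open Polynomial

namespace Fermat.Agent.KummerLemma

private lemma klD13_0 : klD 13 0 = (1 + X) := by
  simp [klD, Finset.sum_range_succ]
private lemma klE13_0 : klE 13 0 = (1 + X) := by
  simp [klE, Finset.sum_range_succ]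
private lemma klD13_1 : klD 13 1 = (1 + (1 + X)) := by
  simp [klD, Finset.sum_range_succ]
private lemma klE13_1 : klE 13 1 = ((1 + X)) := by
  simp [klE, Finset.sum_range_succ]
private lemma klD13_2 : klD 13 2 = (1 + (1 + X) + (1 + X) ^ 2) := by
  simp [klD, Finset.sum_range_succ]
private lemma klE13_2 : klE 13 2 = ((1 + X) + 2 * (1 + X) ^ 2) := by
  simp [klE, Finset.sum_range_succ]
private lemma klD13_3 : klD 13 3 = (1 + (1 + X) + (1 + X) ^ 2 + (1 + X) ^ 3) := by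
  simp [klD, Finset.sum_range_succ]
private lemma klE13_3 : klE 13 3 = ((1 + X) + 2 * (1 + X) ^ 2 + 3 * (1 + X) ^ 3) := by
  simp [klE, Finset.sum_range_succ]
private lemma klD13_4 : klD 13 4 = (1 + (1 + X) + (1 + X) ^ 2 + (1 + X) ^ 3 + (1 + X) ^ 4) := by
  simp [klD, Finset.sum_range_succ]
private lemma klE13_4 : klE 13 4 = ((1 + X) + 2 * (1 + X) ^ 2 + 3 * (1 + X) ^ 3 + 4 * (1 + X) ^ 4) := by
  simp [klE, Finset.sum_range_succ]
private lemma klD13_5 : klD 13 5 = (1 + (1 + X) + (1 + X) ^ 2 + (1 + X) ^ 3 + (1 + X) ^ 4 + (1 + X) ^ 5) := by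
  simp [klD, Finset.sum_range_succ]
private lemma klE13_5 : klE 13 5 = ((1 + X) + 2 * (1 + X) ^ 2 + 3 * (1 + X) ^ 3 + 4 * (1 + X) ^ 4 + 5 * (1 + X) ^ 5) := by
  simp [klE, Finset.sum_range_succ]

private lemma klErase13_0 : (Finset.univ.erase (0 : Fin 6)) = {1, 2, 3, 4, 5} := by decide
private lemma klErase13_1 : (Finset.univ.erase (1 : Fin 6)) = {0, 2, 3, 4, 5} := by decide
private lemma klErase13_2 : (Finset.univ.erase (2 : Fin 6)) = {0, 1, 3, 4, 5} := by decide
private lemma klErase13_3 : (Finset.univ.erase (3 : Fin 6)) = {0, 1, 2, 4, 5} := by decide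
private lemma klErase13_4 : (Finset.univ.erase (4 : Fin 6)) = {0, 1, 2, 3, 5} := by decide
private lemma klErase13_5 : (Finset.univ.erase (5 : Fin 6)) = {0, 1, 2, 3, 4} := by decide

private lemma klP13_0 : klE 13 ((0 : Fin 6) : ℕ) * ∏ b ∈ Finset.univ.erase (0 : Fin 6), klD 13 (b : ℕ)
    = (720 + 6120 * X + 25500 * X ^ 2 + 68850 * X ^ 3 + 134264 * X ^ 4 + 199771 * X ^ 5 + 233830 * X ^ 6 + 218999 * X ^ 7 + 165440 * X ^ 8 + 100914 * X ^ 9 + 49436 * X ^ 10 + 19210 * X ^ 11 + 5795 * X ^ 12 + 1310 * X ^ 13 + 209 * X ^ 14 + 21 * X ^ 15 + 1 * X ^ 16 : (ZMod 13)[X]) := by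
  have h1 : klE 13 ((0 : Fin 6) : ℕ) * ∏ b ∈ Finset.univ.erase (0 : Fin 6), klD 13 (b : ℕ)
      = ((1 + X) * ((1 + (1 + X)) * ((1 + (1 + X) + (1 + X) ^ 2) * ((1 + (1 + X) + (1 + X) ^ 2 + (1 + X) ^ 3) * ((1 + (1 + X) + (1 + X) ^ 2 + (1 + X) ^ 3 + (1 + X) ^ 4) * (1 + (1 + X) + (1 + X) ^ 2 + (1 + X) ^ 3 + (1 + X) ^ 4 + (1 + X) ^ 5))))) : (ZMod 13)[X]) := by
    rw [klErase13_0]
    simp [klE13_0, klD13_1, klD13_2, klD13_3, klD13_4, klD13_5]
  rw [h1]
  ring

private lemma klP13_1 : klE 13 ((1 : Fin 6) : ℕ) * ∏ b ∈ Finset.univ.erase (1 : Fin 6), klD 13 (b : ℕ)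
    = (360 + 3240 * X + 14190 * X ^ 2 + 40080 * X ^ 3 + 81517 * X ^ 4 + 126259 * X ^ 5 + 153671 * X ^ 6 + 149579 * X ^ 7 + 117430 * X ^ 8 + 74462 * X ^ 9 + 37944 * X ^ 10 + 15351 * X ^ 11 + 4827 * X ^ 12 + 1139 * X ^ 13 + 190 * X ^ 14 + 20 * X ^ 15 + 1 * X ^ 16 : (ZMod 13)[X]) := by
  have h1 : klE 13 ((1 : Fin 6) : ℕ) * ∏ b ∈ Finset.univ.erase (1 : Fin 6), klD 13 (b : ℕ)
      = (((1 + X)) * ((1 + X) * ((1 + (1 + X) + (1 + X) ^ 2) * ((1 + (1 + X) + (1 + X) ^ 2 + (1 + X) ^ 3) * ((1 + (1 + X) + (1 + X) ^ 2 + (1 + X) ^ 3 + (1 + X) ^ 4) * (1 + (1 + X) + (1 + X) ^ 2 + (1 + X) ^ 3 + (1 + X) ^ 4 + (1 + X) ^ 5))))) : (ZMod 13)[X]) := by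
    rw [klErase13_1]
    simp [klE13_1, klD13_0, klD13_2, klD13_3, klD13_4, klD13_5]
  rw [h1]
  ring

private lemma klP13_2 : klE 13 ((2 : Fin 6) : ℕ) * ∏ b ∈ Finset.univ.erase (2 : Fin 6), klD 13 (b : ℕ)
    = (720 + 6600 * X + 29340 * X ^ 2 + 83890 * X ^ 3 + 172344 * X ^ 4 + 269137 * X ^ 5 + 329706 * X ^ 6 + 322478 * X ^ 7 + 253945 * X ^ 8 + 161209 * X ^ 9 + 82062 * X ^ 10 + 33081 * X ^ 11 + 10334 * X ^ 12 + 2414 * X ^ 13 + 397 * X ^ 14 + 41 * X ^ 15 + 2 * X ^ 16 : (ZMod 13)[X]) := by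
  have h1 : klE 13 ((2 : Fin 6) : ℕ) * ∏ b ∈ Finset.univ.erase (2 : Fin 6), klD 13 (b : ℕ)
      = (((1 + X) + 2 * (1 + X) ^ 2) * ((1 + X) * ((1 + (1 + X)) * ((1 + (1 + X) + (1 + X) ^ 2 + (1 + X) ^ 3) * ((1 + (1 + X) + (1 + X) ^ 2 + (1 + X) ^ 3 + (1 + X) ^ 4) * (1 + (1 + X) + (1 + X) ^ 2 + (1 + X) ^ 3 + (1 + X) ^ 4 + (1 + X) ^ 5))))) : (ZMod 13)[X]) := by
    rw [klErase13_2]
    simp [klE13_2, klD13_0, klD13_1, klD13_3, klD13_4, klD13_5]
  rw [h1]
  ring

private lemma klP13_3 : klE 13 ((3 : Fin 6) : ℕ) * ∏ b ∈ Finset.univ.erase (3 : Fin 6), klD 13 (b : ℕ)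
    = (1080 + 10080 * X + 45450 * X ^ 2 + 131370 * X ^ 3 + 272061 * X ^ 4 + 427219 * X ^ 5 + 525075 * X ^ 6 + 514125 * X ^ 7 + 404450 * X ^ 8 + 255962 * X ^ 9 + 129638 * X ^ 10 + 51903 * X ^ 11 + 16079 * X ^ 12 + 3721 * X ^ 13 + 606 * X ^ 14 + 62 * X ^ 15 + 3 * X ^ 16 : (ZMod 13)[X]) := by
  have h1 : klE 13 ((3 : Fin 6) : ℕ) * ∏ b ∈ Finset.univ.erase (3 : Fin 6), klD 13 (b : ℕ)
      = (((1 + X) + 2 * (1 + X) ^ 2 + 3 * (1 + X) ^ 3) * ((1 + X) * ((1 + (1 + X)) * ((1 + (1 + X) + (1 + X) ^ 2) * ((1 + (1 + X) + (1 + X) ^ 2 + (1 + X) ^ 3 + (1 + X) ^ 4) * (1 + (1 + X) + (1 + X) ^ 2 + (1 + X) ^ 3 + (1 + X) ^ 4 + (1 + X) ^ 5))))) : (ZMod 13)[X]) := by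
    rw [klErase13_3]
    simp [klE13_3, klD13_0, klD13_1, klD13_2, klD13_4, klD13_5]
  rw [h1]
  ring

private lemma klP13_4 : klE 13 ((4 : Fin 6) : ℕ) * ∏ b ∈ Finset.univ.erase (4 : Fin 6), klD 13 (b : ℕ)
    = (1440 + 13680 * X + 62520 * X ^ 2 + 182436 * X ^ 3 + 380080 * X ^ 4 + 598584 * X ^ 5 + 735896 * X ^ 6 + 719131 * X ^ 7 + 563571 * X ^ 8 + 354815 * X ^ 9 + 178614 * X ^ 10 + 71050 * X ^ 11 + 21870 * X ^ 12 + 5031 * X ^ 13 + 815 * X ^ 14 + 83 * X ^ 15 + 4 * X ^ 16 : (ZMod 13)[X]) := by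
  have h1 : klE 13 ((4 : Fin 6) : ℕ) * ∏ b ∈ Finset.univ.erase (4 : Fin 6), klD 13 (b : ℕ)
      = (((1 + X) + 2 * (1 + X) ^ 2 + 3 * (1 + X) ^ 3 + 4 * (1 + X) ^ 4) * ((1 + X) * ((1 + (1 + X)) * ((1 + (1 + X) + (1 + X) ^ 2) * ((1 + (1 + X) + (1 + X) ^ 2 + (1 + X) ^ 3) * (1 + (1 + X) + (1 + X) ^ 2 + (1 + X) ^ 3 + (1 + X) ^ 4 + (1 + X) ^ 5))))) : (ZMod 13)[X]) := by
    rw [klErase13_4]
    simp [klE13_4, klD13_0, klD13_1, klD13_2, klD13_3, klD13_5]
  rw [h1]
  ring

private lemma klP13_5 : klE 13 ((5 : Fin 6) : ℕ) * ∏ b ∈ Finset.univ.erase (5 : Fin 6), klD 13 (b : ℕ)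
    = (1800 + 17400 * X + 80550 * X ^ 2 + 236980 * X ^ 3 + 495645 * X ^ 4 + 780865 * X ^ 5 + 957795 * X ^ 6 + 932201 * X ^ 7 + 726910 * X ^ 8 + 455224 * X ^ 9 + 227976 * X ^ 10 + 90255 * X ^ 11 + 27665 * X ^ 12 + 6341 * X ^ 13 + 1024 * X ^ 14 + 104 * X ^ 15 + 5 * X ^ 16 : (ZMod 13)[X]) := by
  have h1 : klE 13 ((5 : Fin 6) : ℕ) * ∏ b ∈ Finset.univ.erase (5 : Fin 6), klD 13 (b : ℕ)
      = (((1 + X) + 2 * (1 + X) ^ 2 + 3 * (1 + X) ^ 3 + 4 * (1 + X) ^ 4 + 5 * (1 + X) ^ 5) * ((1 + X) * ((1 + (1 + X)) * ((1 + (1 + X) + (1 + X) ^ 2) * ((1 + (1 + X) + (1 + X) ^ 2 + (1 + X) ^ 3) * (1 + (1 + X) + (1 + X) ^ 2 + (1 + X) ^ 3 + (1 + X) ^ 4))))) : (ZMod 13)[X]) := by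
    rw [klErase13_5]
    simp [klE13_5, klD13_0, klD13_1, klD13_2, klD13_3, klD13_4]
  rw [h1]
  ring

theorem klIndep_thirteen (c : Fin 6 → ZMod 13)
    (h : (X : (ZMod 13)[X]) ^ 11 ∣ ∑ a : Fin 6, C (c a) * (klE 13 a * ∏ b ∈ Finset.univ.erase a, klD 13 b)) :
    c = 0 := by
  rw [Fin.sum_univ_six, klP13_0, klP13_1, klP13_2, klP13_3, klP13_4, klP13_5] at h
  rw [Polynomial.X_pow_dvd_iff] at h
  have h13 : (13 : ZMod 13) = 0 := by decide
  have e0 := h 0 (by norm_num)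
  simp only [coeff_add, coeff_C_mul, coeff_ofNat_mul, coeff_X_pow, coeff_X, coeff_ofNat_zero, coeff_ofNat_succ, coeff_one, coeff_X_zero, coeff_one_zero] at e0
  norm_num at e0
  have e1 := h 1 (by norm_num)
  simp only [coeff_add, coeff_C_mul, coeff_ofNat_mul, coeff_X_pow, coeff_X, coeff_ofNat_zero, coeff_ofNat_succ, coeff_one, coeff_X_zero, coeff_one_zero] at e1
  norm_num at e1
  have e2 := h 3 (by norm_num)
  simp only [coeff_add, coeff_C_mul, coeff_ofNat_mul, coeff_X_pow, coeff_X, coeff_ofNat_zero, coeff_ofNat_succ, coeff_one, coeff_X_zero, coeff_one_zero] at e2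
  norm_num at e2
  have e3 := h 5 (by norm_num)
  simp only [coeff_add, coeff_C_mul, coeff_ofNat_mul, coeff_X_pow, coeff_X, coeff_ofNat_zero, coeff_ofNat_succ, coeff_one, coeff_X_zero, coeff_one_zero] at e3
  norm_num at e3
  have e4 := h 7 (by norm_num)
  simp only [coeff_add, coeff_C_mul, coeff_ofNat_mul, coeff_X_pow, coeff_X, coeff_ofNat_zero, coeff_ofNat_succ, coeff_one, coeff_X_zero, coeff_one_zero] at e4
  norm_num at e4
  have e5 := h 9 (by norm_num)
  simp only [coeff_add, coeff_C_mul, coeff_ofNat_mul, coeff_X_pow, coeff_X, coeff_ofNat_zero, coeff_ofNat_succ, coeff_one, coeff_X_zero, coeff_one_zero] at e5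
  norm_num at e5
  funext j
  fin_cases j
  · show c 0 = 0
    linear_combination (7) * e0 + (11) * e1 + (3) * e2 + (11) * e3 + (10) * e4 + (6) * e5 - ((405528) * c 0 + (268447) * c 1 + (575527) * c 2 + (914537) * c 3 + (1277884) * c 4 + (1658293) * c 5) * h13
  · show c 1 = 0
    linear_combination (6) * e0 + (3) * e1 + (9) * e2 + (2) * e3 + (6) * e4 + (9) * e5 - ((251084) * c 0 + (168673) * c 1 + (361781) * c 2 + (573992) * c 3 + (799761) * c 4 + (1034444) * c 5) * h13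
  · show c 2 = 0
    linear_combination (4) * e0 + (10) * e1 + (0) * e2 + (1) * e3 + (4) * e4 + (4) * e5 - ((118731) * c 0 + (81251) * c 1 + (174828) * c 2 + (277899) * c 3 + (387456) * c 4 + (500905) * c 5) * h13
  · show c 3 = 0
    linear_combination (2) * e0 + (11) * e1 + (1) * e2 + (9) * e3 + (6) * e4 + (10) * e5 - ((327591) * c 0 + (219605) * c 1 + (471317) * c 2 + (748750) * c 3 + (1045076) * c 4 + (1354247) * c 5) * h13
  · show c 4 = 0
    linear_combination (4) * e0 + (7) * e1 + (5) * e2 + (3) * e3 + (9) * e4 + (1) * e5 - ((235476) * c 0 + (155690) * c 1 + (333804) * c 2 + (530498) * c 3 + (741265) * c 4 + (961656) * c 5) * h13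
  · show c 5 = 0
    linear_combination (1) * e0 + (10) * e1 + (8) * e2 + (0) * e3 + (11) * e4 + (3) * e5 - ((255727) * c 0 + (170935) * c 1 + (366825) * c 2 + (582777) * c 3 + (813278) * c 4 + (1053194) * c 5) * h13

end Fermat.Agent.KummerLemma
end MergeWrap_Lib_Kummer_KLIndep13

section MergeWrap_Lib_Kummer_KLIndep5 -- from Lib/Kummer/KLIndep5.lean

/-!
# Kummer lemma, polynomial independence for p = 5

Generated data: the images of the cyclotomic units are linearly independent modulo `X ^ (p - 2)`.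
-/

set_option autoImplicit false
set_option linter.unusedSimpArgs false
set_option linter.unusedVariables false

open Polynomial

namespace Fermat.Agent.KummerLemma

private lemma klD5_0 : klD 5 0 = (1 + X) := by
  simp [klD, Finset.sum_range_succ]
private lemma klE5_0 : klE 5 0 = (1 + X) := by
  simp [klE, Finset.sum_range_succ]
private lemma klD5_1 : klD 5 1 = (1 + (1 + X)) := by
  simp [klD, Finset.sum_range_succ]
private lemma klE5_1 : klE 5 1 = ((1 + X)) := by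
  simp [klE, Finset.sum_range_succ]

private lemma klErase5_0 : (Finset.univ.erase (0 : Fin 2)) = {1} := by decide
private lemma klErase5_1 : (Finset.univ.erase (1 : Fin 2)) = {0} := by decide

private lemma klP5_0 : klE 5 ((0 : Fin 2) : ℕ) * ∏ b ∈ Finset.univ.erase (0 : Fin 2), klD 5 (b : ℕ)
    = (2 + 3 * X + 1 * X ^ 2 : (ZMod 5)[X]) := by
  have h1 : klE 5 ((0 : Fin 2) : ℕ) * ∏ b ∈ Finset.univ.erase (0 : Fin 2), klD 5 (b : ℕ)
      = ((1 + X) * (1 + (1 + X)) : (ZMod 5)[X]) := by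
    rw [klErase5_0]
    simp [klE5_0, klD5_1]
  rw [h1]
  ring

private lemma klP5_1 : klE 5 ((1 : Fin 2) : ℕ) * ∏ b ∈ Finset.univ.erase (1 : Fin 2), klD 5 (b : ℕ)
    = (1 + 2 * X + 1 * X ^ 2 : (ZMod 5)[X]) := by
  have h1 : klE 5 ((1 : Fin 2) : ℕ) * ∏ b ∈ Finset.univ.erase (1 : Fin 2), klD 5 (b : ℕ)
      = (((1 + X)) * (1 + X) : (ZMod 5)[X]) := by
    rw [klErase5_1]
    simp [klE5_1, klD5_0]
  rw [h1]
  ring

theorem klIndep_five (c : Fin 2 → ZMod 5)
    (h : (X : (ZMod 5)[X]) ^ 3 ∣ ∑ a : Fin 2, C (c a) * (klE 5 a * ∏ b ∈ Finset.univ.erase a, klD 5 b)) :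
    c = 0 := by
  rw [Fin.sum_univ_two, klP5_0, klP5_1] at h
  rw [Polynomial.X_pow_dvd_iff] at h
  have h5 : (5 : ZMod 5) = 0 := by decide
  have e0 := h 0 (by norm_num)
  simp only [coeff_add, coeff_C_mul, coeff_ofNat_mul, coeff_X_pow, coeff_X, coeff_ofNat_zero, coeff_ofNat_succ, coeff_one, coeff_X_zero, coeff_one_zero] at e0
  norm_num at e0
  have e1 := h 1 (by norm_num)
  simp only [coeff_add, coeff_C_mul, coeff_ofNat_mul, coeff_X_pow, coeff_X, coeff_ofNat_zero, coeff_ofNat_succ, coeff_one, coeff_X_zero, coeff_one_zero] at e1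
  norm_num at e1
  funext j
  fin_cases j
  · show c 0 = 0
    linear_combination (2) * e0 + (4) * e1 - ((3) * c 0 + (2) * c 1) * h5
  · show c 1 = 0
    linear_combination (2) * e0 + (2) * e1 - ((2) * c 0 + (1) * c 1) * h5

end Fermat.Agent.KummerLemma
end MergeWrap_Lib_Kummer_KLIndep5

section MergeWrap_Lib_Kummer_KLIndep7 -- from Lib/Kummer/KLIndep7.lean

/-!
# Kummer lemma, polynomial independence for p = 7

Generated data: the images of the cyclotomic units are linearly independent modulo `X ^ (p - 2)`.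
-/

set_option autoImplicit false
set_option linter.unusedSimpArgs false
set_option linter.unusedVariables false

open Polynomial

namespace Fermat.Agent.KummerLemma

private lemma klD7_0 : klD 7 0 = (1 + X) := by
  simp [klD, Finset.sum_range_succ]
private lemma klE7_0 : klE 7 0 = (1 + X) := by
  simp [klE, Finset.sum_range_succ]
private lemma klD7_1 : klD 7 1 = (1 + (1 + X)) := by
  simp [klD, Finset.sum_range_succ]
private lemma klE7_1 : klE 7 1 = ((1 + X)) := by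
  simp [klE, Finset.sum_range_succ]
private lemma klD7_2 : klD 7 2 = (1 + (1 + X) + (1 + X) ^ 2) := by
  simp [klD, Finset.sum_range_succ]
private lemma klE7_2 : klE 7 2 = ((1 + X) + 2 * (1 + X) ^ 2) := by
  simp [klE, Finset.sum_range_succ]

private lemma klErase7_0 : (Finset.univ.erase (0 : Fin 3)) = {1, 2} := by decide
private lemma klErase7_1 : (Finset.univ.erase (1 : Fin 3)) = {0, 2} := by decide
private lemma klErase7_2 : (Finset.univ.erase (2 : Fin 3)) = {0, 1} := by decide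

private lemma klP7_0 : klE 7 ((0 : Fin 3) : ℕ) * ∏ b ∈ Finset.univ.erase (0 : Fin 3), klD 7 (b : ℕ)
    = (6 + 15 * X + 14 * X ^ 2 + 6 * X ^ 3 + 1 * X ^ 4 : (ZMod 7)[X]) := by
  have h1 : klE 7 ((0 : Fin 3) : ℕ) * ∏ b ∈ Finset.univ.erase (0 : Fin 3), klD 7 (b : ℕ)
      = ((1 + X) * ((1 + (1 + X)) * (1 + (1 + X) + (1 + X) ^ 2)) : (ZMod 7)[X]) := by
    rw [klErase7_0]
    simp [klE7_0, klD7_1, klD7_2]
  rw [h1]
  ring

private lemma klP7_1 : klE 7 ((1 : Fin 3) : ℕ) * ∏ b ∈ Finset.univ.erase (1 : Fin 3), klD 7 (b : ℕ)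
    = (3 + 9 * X + 10 * X ^ 2 + 5 * X ^ 3 + 1 * X ^ 4 : (ZMod 7)[X]) := by
  have h1 : klE 7 ((1 : Fin 3) : ℕ) * ∏ b ∈ Finset.univ.erase (1 : Fin 3), klD 7 (b : ℕ)
      = (((1 + X)) * ((1 + X) * (1 + (1 + X) + (1 + X) ^ 2)) : (ZMod 7)[X]) := by
    rw [klErase7_1]
    simp [klE7_1, klD7_0, klD7_2]
  rw [h1]
  ring

private lemma klP7_2 : klE 7 ((2 : Fin 3) : ℕ) * ∏ b ∈ Finset.univ.erase (2 : Fin 3), klD 7 (b : ℕ)
    = (6 + 19 * X + 22 * X ^ 2 + 11 * X ^ 3 + 2 * X ^ 4 : (ZMod 7)[X]) := by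
  have h1 : klE 7 ((2 : Fin 3) : ℕ) * ∏ b ∈ Finset.univ.erase (2 : Fin 3), klD 7 (b : ℕ)
      = (((1 + X) + 2 * (1 + X) ^ 2) * ((1 + X) * (1 + (1 + X))) : (ZMod 7)[X]) := by
    rw [klErase7_2]
    simp [klE7_2, klD7_0, klD7_1]
  rw [h1]
  ring

theorem klIndep_seven (c : Fin 3 → ZMod 7)
    (h : (X : (ZMod 7)[X]) ^ 5 ∣ ∑ a : Fin 3, C (c a) * (klE 7 a * ∏ b ∈ Finset.univ.erase a, klD 7 b)) :
    c = 0 := by
  rw [Fin.sum_univ_three, klP7_0, klP7_1, klP7_2] at h
  rw [Polynomial.X_pow_dvd_iff] at h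
  have h7 : (7 : ZMod 7) = 0 := by decide
  have e0 := h 0 (by norm_num)
  simp only [coeff_add, coeff_C_mul, coeff_ofNat_mul, coeff_X_pow, coeff_X, coeff_ofNat_zero, coeff_ofNat_succ, coeff_one, coeff_X_zero, coeff_one_zero] at e0
  norm_num at e0
  have e1 := h 1 (by norm_num)
  simp only [coeff_add, coeff_C_mul, coeff_ofNat_mul, coeff_X_pow, coeff_X, coeff_ofNat_zero, coeff_ofNat_succ, coeff_one, coeff_X_zero, coeff_one_zero] at e1
  norm_num at e1
  have e2 := h 3 (by norm_num)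
  simp only [coeff_add, coeff_C_mul, coeff_ofNat_mul, coeff_X_pow, coeff_X, coeff_ofNat_zero, coeff_ofNat_succ, coeff_one, coeff_X_zero, coeff_one_zero] at e2
  norm_num at e2
  funext j
  fin_cases j
  · show c 0 = 0
    linear_combination (1) * e0 + (1) * e1 + (6) * e2 - ((8) * c 0 + (6) * c 1 + (13) * c 2) * h7
  · show c 1 = 0
    linear_combination (3) * e0 + (4) * e1 + (1) * e2 - ((12) * c 0 + (7) * c 1 + (15) * c 2) * h7
  · show c 2 = 0
    linear_combination (0) * e0 + (4) * e1 + (4) * e2 - ((12) * c 0 + (8) * c 1 + (17) * c 2) * h7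

end Fermat.Agent.KummerLemma
end MergeWrap_Lib_Kummer_KLIndep7

section MergeWrap_Lib_Kummer_KummerLemma -- from Lib/Kummer/KummerLemma.lean

/-!
# Kummer's lemma for `p = 5, 7, 11, 13`
-/

open NumberField

namespace Fermat.Agent.Kummer

open Fermat.Agent.KummerLemma

theorem kummerLemma_five (K : Type*) [Field K] [NumberField K] [IsCyclotomicExtension {5} ℚ K] :
    KummerLemmaFor 5 K :=
  haveI : Fact (Nat.Prime 5) := ⟨by norm_num⟩
  fun u hu => kummerLemma_of_klIndep (p := 5) (by norm_num) (fun c h => klIndep_five c h) u hu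

theorem kummerLemma_seven (K : Type*) [Field K] [NumberField K] [IsCyclotomicExtension {7} ℚ K] :
    KummerLemmaFor 7 K :=
  haveI : Fact (Nat.Prime 7) := ⟨by norm_num⟩
  fun u hu => kummerLemma_of_klIndep (p := 7) (by norm_num) (fun c h => klIndep_seven c h) u hu

theorem kummerLemma_eleven (K : Type*) [Field K] [NumberField K] [IsCyclotomicExtension {11} ℚ K] :
    KummerLemmaFor 11 K :=
  haveI : Fact (Nat.Prime 11) := ⟨by norm_num⟩
  fun u hu => kummerLemma_of_klIndep (p := 11) (by norm_num) (fun c h => klIndep_eleven c h) u hu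

theorem kummerLemma_thirteen (K : Type*) [Field K] [NumberField K]
    [IsCyclotomicExtension {13} ℚ K] : KummerLemmaFor 13 K :=
  haveI : Fact (Nat.Prime 13) := ⟨by norm_num⟩
  fun u hu => kummerLemma_of_klIndep (p := 13) (by norm_num) (fun c h => klIndep_thirteen c h) u hu

end Fermat.Agent.Kummer
end MergeWrap_Lib_Kummer_KummerLemma

section MergeWrap_Lib_Kummer_PID11 -- from Lib/Kummer/PID11.lean

/-!
# The ring of integers of `ℚ(ζ₁₁)` is a principal ideal domain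
-/

set_option autoImplicit false
set_option linter.unusedSectionVars false

open NumberField Polynomial Ideal Module InfinitePlace Nat Real

namespace Fermat.Agent.Kummer

section

variable (K : Type*) [Field K] [NumberField K] [IsCyclotomicExtension {11} ℚ K]

lemma pid11_minkowski_lt :
    (4 / π) ^ nrComplexPlaces K *
      ((finrank ℚ K)! / (finrank ℚ K) ^ (finrank ℚ K) * √|discr K|) < 60 := by
  have : Fact (Nat.Prime 11) := ⟨by norm_num⟩
  rw [IsCyclotomicExtension.Rat.discr_prime 11 K, IsCyclotomicExtension.finrank (n := 11) K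
    (cyclotomic.irreducible_rat (by norm_num)),
    IsCyclotomicExtension.Rat.nrComplexPlaces_eq_totient_div_two 11,
    totient_prime (by norm_num : Nat.Prime 11)]
  have h1 : (4 / π) ^ 5 < (4 / 3.14) ^ 5 := by
    gcongr
    exact pi_gt_d2
  have h2 : √|(((-1 : ℤ) ^ ((11 - 1) / 2) * (11 : ℤ) ^ (11 - 2) : ℤ) : ℝ)| < 48565 := by
    rw [Real.sqrt_lt' (by norm_num)]
    norm_num
  have h3 : (0 : ℝ) ≤ √|(((-1 : ℤ) ^ ((11 - 1) / 2) * (11 : ℤ) ^ (11 - 2) : ℤ) : ℝ)| :=
    Real.sqrt_nonneg _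
  have h4 : (0 : ℝ) < (4 / π) ^ 5 := by positivity
  have h5 : ((10 : ℕ)! : ℝ) = 3628800 := by
    norm_num [Nat.factorial]
  show (4 / π) ^ ((11 - 1) / 2) * (((11 - 1 : ℕ)! : ℝ) / ((11 - 1 : ℕ) : ℝ) ^ (11 - 1) *
    √|(((-1 : ℤ) ^ ((11 - 1) / 2) * (11 : ℤ) ^ (11 - 2) : ℤ) : ℝ)|) < 60
  norm_num only [h5] at h1 h2 h3 h4 ⊢
  have h6 : (567 / 1562500 : ℝ) * √2357947691 < 567 / 1562500 * 48565 := by
    have : (0 : ℝ) < 567 / 1562500 := by norm_num
    exact mul_lt_mul_of_pos_left h2 this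
  have h7 := mul_lt_mul'' h1 h6 h4.le (by positivity)
  refine h7.trans ?_
  norm_num

lemma pid11_floor_le :
    ⌊(4 / π) ^ nrComplexPlaces K *
      ((finrank ℚ K)! / (finrank ℚ K) ^ (finrank ℚ K) * √|discr K|)⌋₊ ≤ 59 := by
  have h := pid11_minkowski_lt K
  have h0 : (0 : ℝ) ≤ (4 / π) ^ nrComplexPlaces K *
      ((finrank ℚ K)! / (finrank ℚ K) ^ (finrank ℚ K) * √|discr K|) := by positivity
  exact Nat.lt_succ_iff.mp ((Nat.floor_lt h0).mpr (by exact_mod_cast h))

lemma pid11_pow_order (q d : ℕ) (hq : q.Prime) (hq59 : q ≤ 59) (h11 : q ≠ 11) (h23 : q ≠ 23)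
    (hd : 0 < d) (h : q ^ d ≤ 59) : (q : ZMod 11) ^ d ≠ 1 := by
  have hd5 : d ≤ 5 := by
    by_contra hcon
    rw [not_le] at hcon
    have h2 : 2 ^ 6 ≤ q ^ d :=
      (Nat.pow_le_pow_left hq.two_le 6).trans (Nat.pow_le_pow_right hq.pos hcon)
    omega
  have hq1 : 1 ≤ q := hq.pos
  interval_cases d <;> interval_cases q <;>
    first
    | (exfalso; exact absurd rfl h11)
    | (exfalso; exact absurd rfl h23)
    | (exfalso; revert hq; norm_num; done)
    | (exfalso; revert h; norm_num; done)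
    | decide

lemma pid11_sum_four : ∑ i ∈ Finset.range 11, (4 : ZMod 23) ^ i = 0 := by decide

/-- The prime above `23`: kernel of `ζ ↦ 4`. -/
lemma pid11_ker_isPrincipal {ζ : K} (hζ : IsPrimitiveRoot ζ 11) :
    haveI : Fact (Nat.Prime 11) := ⟨by norm_num⟩
    (RingHom.ker (cycLift hζ (4 : ZMod 23) pid11_sum_four)).IsPrincipal := by
  have : Fact (Nat.Prime 11) := ⟨by norm_num⟩
  set ev : 𝓞 K →+* ZMod 23 := cycLift hζ (4 : ZMod 23) pid11_sum_four with hev
  set z : 𝓞 K := hζ.toInteger with hz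
  have hevz : ev z = 4 := cycLift_toInteger hζ _ _
  have hsum : ∑ i ∈ Finset.range 11, z ^ i = 0 := toInteger_geom_sum_eq_zero hζ
  have h23 : (1 + z + z ^ 3) * (-2 - 14 * z - 17 * z ^ 2 - 12 * z ^ 3 - 5 * z ^ 4 - 9 * z ^ 5
      - 10 * z ^ 6 - 16 * z ^ 7 - 6 * z ^ 8 - 15 * z ^ 9) = 23 := by
    have : (1 + z + z ^ 3) * (-2 - 14 * z - 17 * z ^ 2 - 12 * z ^ 3 - 5 * z ^ 4 - 9 * z ^ 5
      - 10 * z ^ 6 - 16 * z ^ 7 - 6 * z ^ 8 - 15 * z ^ 9) - 23
        = (∑ i ∈ Finset.range 11, z ^ i) * (-25 + 9 * z - 15 * z ^ 2) := by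
      simp only [Finset.sum_range_succ, Finset.sum_range_zero]
      ring
    rw [hsum, zero_mul, sub_eq_zero] at this
    exact this
  have hz4 : (1 + z + z ^ 3) * (1 + 3 * z + 3 * z ^ 2 + 2 * z ^ 3 + z ^ 4 + 2 * z ^ 5 + 2 * z ^ 6
      + 3 * z ^ 7 + z ^ 8 + 3 * z ^ 9) = z - 4 := by
    have : (1 + z + z ^ 3) * (1 + 3 * z + 3 * z ^ 2 + 2 * z ^ 3 + z ^ 4 + 2 * z ^ 5 + 2 * z ^ 6
      + 3 * z ^ 7 + z ^ 8 + 3 * z ^ 9) - (z - 4)
        = (∑ i ∈ Finset.range 11, z ^ i) * (5 - 2 * z + 3 * z ^ 2) := by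
      simp only [Finset.sum_range_succ, Finset.sum_range_zero]
      ring
    rw [hsum, zero_mul, sub_eq_zero] at this
    exact this
  refine ⟨1 + z + z ^ 3, ?_⟩
  apply le_antisymm
  · intro x hx
    rw [RingHom.mem_ker] at hx
    obtain ⟨n, y, hy⟩ := exists_int_sub_dvd_sub hζ 4 x
    rw [← hz] at hy
    have hn : ((n : ℤ) : ZMod 23) = 0 := by
      have := congrArg ev hy
      simp only [map_sub, map_mul, map_intCast, hx, hevz, Int.cast_ofNat] at this
      have h4 : ev 4 = 4 := map_ofNat ev 4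
      rw [h4] at this
      simpa using this
    rw [ZMod.intCast_zmod_eq_zero_iff_dvd] at hn
    obtain ⟨m, rfl⟩ := hn
    rw [Ideal.submodule_span_eq, Ideal.mem_span_singleton]
    have hx' : x = (23 : 𝓞 K) * (m : 𝓞 K) + (z - 4) * y := by
      have : x = (((23 : ℕ) : ℤ) * m : ℤ) + (z - ((4 : ℤ) : 𝓞 K)) * y := by
        rw [← hy]; ring
      rw [this]; push_cast; ring
    rw [hx']
    exact dvd_add (Dvd.dvd.mul_right (Dvd.intro _ h23) _) (Dvd.dvd.mul_right (Dvd.intro _ hz4) _)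
  · rw [Ideal.submodule_span_eq, Ideal.span_singleton_le_iff_mem, RingHom.mem_ker]
    simp only [map_add, map_one, map_pow, hevz]
    decide

/-- The ring of integers of the `11`-th cyclotomic field is a principal ideal domain. -/
theorem pid_eleven : IsPrincipalIdealRing (𝓞 K) := by
  have hfact : Fact (Nat.Prime 11) := ⟨by norm_num⟩
  have hgal : IsGalois ℚ K := IsCyclotomicExtension.isGalois {11} ℚ K
  have hζ := IsCyclotomicExtension.zeta_spec 11 ℚ K
  apply RingOfIntegers.isPrincipalIdealRing_of_isPrincipal_of_lt_or_isPrincipal_of_mem_primesOver_of_mem_Icc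
  intro q hq hqprime
  have hq59 : q ≤ 59 := (Finset.mem_Icc.mp hq).2.trans (pid11_floor_le K)
  have hqfact : Fact q.Prime := ⟨hqprime⟩
  have hspan : (span {(q : ℤ)}).IsPrime :=
    (span_singleton_prime (by exact_mod_cast hqprime.ne_zero)).mpr
      (Nat.prime_iff_prime_int.mp hqprime)
  by_cases h11 : q = 11
  · subst h11
    obtain ⟨⟨P, hP1, hP2⟩⟩ := (span {((11 : ℕ) : ℤ)}).nonempty_primesOver (S := 𝓞 K)
    refine ⟨P, ⟨hP1, hP2⟩, Or.inr ?_⟩
    rw [IsCyclotomicExtension.Rat.eq_span_zeta_sub_one_of_liesOver' 11 K hζ P]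
    exact ⟨_, rfl⟩
  by_cases h23 : q = 23
  · subst h23
    refine ⟨RingHom.ker (cycLift hζ (4 : ZMod 23) pid11_sum_four), ⟨RingHom.ker_isPrime _, ?_⟩,
      Or.inr (pid11_ker_isPrincipal K hζ)⟩
    rw [liesOver_iff, under_def, RingHom.comap_ker]
    have : (cycLift hζ (4 : ZMod 23) pid11_sum_four).comp (algebraMap ℤ (𝓞 K)) =
        Int.castRingHom (ZMod 23) := RingHom.ext_int _ _
    rw [this, ZMod.ker_intCastRingHom]
  · obtain ⟨⟨P, hP1, hP2⟩⟩ := (span {(q : ℤ)}).nonempty_primesOver (S := 𝓞 K)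
    refine ⟨P, ⟨hP1, hP2⟩, Or.inl ?_⟩
    have hndvd : ¬ q ∣ 11 := by
      rw [Nat.prime_dvd_prime_iff_eq hqprime (by norm_num)]
      exact h11
    rw [IsCyclotomicExtension.Rat.inertiaDeg_eq_of_not_dvd q K P (m := 11) hndvd]
    by_contra hcon
    rw [not_lt] at hcon
    have hle : q ^ orderOf (q : ZMod 11) ≤ 59 := hcon.trans (pid11_floor_le K)
    have hq0 : (q : ZMod 11) ≠ 0 := by
      rw [Ne, ZMod.natCast_eq_zero_iff]
      intro h
      exact hndvd ((Nat.prime_dvd_prime_iff_eq (by norm_num) hqprime).mp h ▸ dvd_refl _)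
    have hfin : IsOfFinOrder (q : ZMod 11) :=
      isOfFinOrder_iff_pow_eq_one.mpr ⟨10, by norm_num, ZMod.pow_card_sub_one_eq_one hq0⟩
    exact pid11_pow_order q _ hqprime hq59 h11 h23 (orderOf_pos_iff.mpr hfin) hle
      (pow_orderOf_eq_one _)

end

end Fermat.Agent.Kummer
end MergeWrap_Lib_Kummer_PID11

section MergeWrap_Lib_Kummer_PID13 -- from Lib/Kummer/PID13.lean

/-!
# `ℤ[ζ₁₃]` is a principal ideal domain

We prove that the ring of integers of the 13-th cyclotomic field is a PID, following the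
standard Minkowski-bound technique (`M < 313`):

* for every prime `q ≤ 312` other than `3, 13, 53, 79, 131, 157`, the norm `q ^ f` of a prime
  above `q` exceeds the bound (`f` is the order of `q` modulo `13`);
* the prime above `13` is generated by `ζ - 1`;
* for `q = 3, 53, 79, 131, 157` we exhibit an explicit generator of a prime above `q`
  (via the Kummer-Dedekind description `(q, Q(ζ))` of the primes above `q`).

Main result: `Fermat.Agent.Kummer.pid_thirteen`.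
-/

set_option autoImplicit false

open NumberField Polynomial Ideal Module InfinitePlace Nat Real RingOfIntegers NumberField.Ideal

namespace Fermat.Agent.KummerPID13

section Bound

variable (K : Type*) [Field K] [NumberField K] [IsCyclotomicExtension {13} ℚ K]

/-- The Minkowski bound of `ℚ(ζ₁₃)` is less than `313`. -/
lemma minkowski_lt :
    (4 / π) ^ nrComplexPlaces K *
      ((finrank ℚ K)! / (finrank ℚ K) ^ (finrank ℚ K) * √|discr K|) < 313 := by
  have : Fact (Nat.Prime 13) := ⟨by norm_num⟩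
  rw [IsCyclotomicExtension.Rat.discr_prime 13 K, IsCyclotomicExtension.finrank (n := 13) K
    (cyclotomic.irreducible_rat (by simp)),
    IsCyclotomicExtension.Rat.nrComplexPlaces_eq_totient_div_two 13,
    totient_prime (by norm_num : Nat.Prime 13)]
  have hpi : (3.14 : ℝ) < π := Real.pi_gt_d2
  have h1 : (4 / π) ^ 6 ≤ ((4 : ℝ) / 3.14) ^ 6 := by
    gcongr
  have habs : |((((-1 : ℤ) ^ ((13 - 1) / 2) * ((13 : ℕ) : ℤ) ^ (13 - 2) : ℤ)) : ℝ)| = 13 ^ 11 := by
    norm_num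
  have h2 : √((13 : ℝ) ^ 11) ≤ 13 ^ 5 * 3.606 := by
    rw [Real.sqrt_le_iff]
    constructor
    · positivity
    · norm_num
  have hfac : ((12 : ℕ)! : ℝ) = 479001600 := by
    norm_cast
  rw [habs]
  have e1 : (13 - 1) / 2 = 6 := by norm_num
  have e2 : (13 - 1 : ℕ) = 12 := by norm_num
  rw [e1, e2, hfac]
  calc (4 / π) ^ 6 * ((479001600 : ℝ) / ((12 : ℕ) : ℝ) ^ 12 * √((13 : ℝ) ^ 11))
      ≤ ((4 : ℝ) / 3.14) ^ 6 * ((479001600 : ℝ) / ((12 : ℕ) : ℝ) ^ 12 * (13 ^ 5 * 3.606)) := by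
        gcongr
    _ < 313 := by
        norm_num

end Bound

section Order

lemma orderOf_thirteen_pos {q : ℕ} (hq : q.Prime) (h13 : q ≠ 13) : 0 < orderOf (q : ZMod 13) := by
  have : Fact (Nat.Prime 13) := ⟨by norm_num⟩
  rw [orderOf_pos_iff, isOfFinOrder_iff_pow_eq_one]
  refine ⟨12, by norm_num, ?_⟩
  have hne : (q : ZMod 13) ≠ 0 := by
    rw [Ne, ZMod.natCast_eq_zero_iff]
    intro h
    exact h13 ((Nat.prime_dvd_prime_iff_eq (by norm_num) hq).mp h).symm
  exact ZMod.pow_card_sub_one_eq_one hne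

lemma lt_pow_orderOf_thirteen {q : ℕ} (hq : q.Prime) (hq312 : q ≤ 312)
    (h3 : q ≠ 3) (h13 : q ≠ 13) (h53 : q ≠ 53) (h79 : q ≠ 79) (h131 : q ≠ 131) (h157 : q ≠ 157) :
    312 < q ^ orderOf (q : ZMod 13) := by
  have hpos := orderOf_thirteen_pos hq h13
  by_cases hbig : 19 ≤ q
  · -- order ≥ 2 unless q ≡ 1 mod 13
    have hne1 : orderOf (q : ZMod 13) ≠ 1 := by
      rw [Ne, orderOf_eq_one_iff]
      intro h
      have h1 : ((q : ℕ) : ZMod 13) = ((1 : ℕ) : ZMod 13) := by simpa using h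
      rw [ZMod.natCast_eq_natCast_iff'] at h1
      norm_num at h1
      -- q % 13 = 1, q ≤ 312, prime
      obtain ⟨k, rfl⟩ : ∃ k, q = 13 * k + 1 := ⟨q / 13, by omega⟩
      have hk : k ≤ 23 := by omega
      interval_cases k <;> first | omega | (norm_num at hq)
    have h2 : 2 ≤ orderOf (q : ZMod 13) := by omega
    calc 312 < 19 ^ 2 := by norm_num
      _ ≤ q ^ 2 := Nat.pow_le_pow_left hbig 2
      _ ≤ q ^ orderOf (q : ZMod 13) := Nat.pow_le_pow_right hq.pos h2
  · push Not at hbig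
    have hq2 := hq.two_le
    interval_cases q
    all_goals first
      | omega
      | (exfalso; revert hq; norm_num; done)
      | skip
    · -- q = 2
      have : orderOf ((2 : ℕ) : ZMod 13) = 12 := by
        rw [orderOf_eq_iff (by norm_num)]
        refine ⟨by decide, ?_⟩
        decide
      rw [this]; norm_num
    · -- q = 5
      have : orderOf ((5 : ℕ) : ZMod 13) = 4 := by
        rw [orderOf_eq_iff (by norm_num)]
        refine ⟨by decide, ?_⟩
        decide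
      rw [this]; norm_num
    · -- q = 7
      have : orderOf ((7 : ℕ) : ZMod 13) = 12 := by
        rw [orderOf_eq_iff (by norm_num)]
        refine ⟨by decide, ?_⟩
        decide
      rw [this]; norm_num
    · -- q = 11
      have : orderOf ((11 : ℕ) : ZMod 13) = 12 := by
        rw [orderOf_eq_iff (by norm_num)]
        refine ⟨by decide, ?_⟩
        decide
      rw [this]; norm_num
    · -- q = 17
      have : orderOf ((17 : ℕ) : ZMod 13) = 6 := by
        rw [orderOf_eq_iff (by norm_num)]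
        refine ⟨by decide, ?_⟩
        decide
      rw [this]; norm_num

end Order

section Principal

variable (K : Type*) [Field K] [NumberField K] [IsCyclotomicExtension {13} ℚ K]

/-- The chosen primitive 13-th root of unity, as an element of `𝓞 K`. -/
noncomputable abbrev zeta : 𝓞 K := (IsCyclotomicExtension.zeta_spec 13 ℚ K).toInteger

lemma minpoly_zeta : minpoly ℤ (zeta K) = cyclotomic 13 ℤ := by
  rw [← RingOfIntegers.minpoly_coe, show ((zeta K : 𝓞 K) : K) = IsCyclotomicExtension.zeta 13 ℚ K from rfl,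
    ← cyclotomic_eq_minpoly (IsCyclotomicExtension.zeta_spec 13 ℚ K) (by norm_num)]

lemma zeta_sum : 1 + zeta K + zeta K ^ 2 + zeta K ^ 3 + zeta K ^ 4 + zeta K ^ 5 + zeta K ^ 6 +
    zeta K ^ 7 + zeta K ^ 8 + zeta K ^ 9 + zeta K ^ 10 + zeta K ^ 11 + zeta K ^ 12 = 0 := by
  have h := (IsCyclotomicExtension.zeta_spec 13 ℚ K).toInteger_isPrimitiveRoot.geom_sum_eq_zero
    (by norm_num)
  simpa [Finset.sum_range_succ] using h

lemma exists_principal_of_cert (q : ℕ) [Fact q.Prime] (Q : ℤ[X])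
    (hirr : Irreducible (Q.map (Int.castRingHom (ZMod q))))
    (hmonic : (Q.map (Int.castRingHom (ZMod q))).Monic)
    (hdvd : Q.map (Int.castRingHom (ZMod q)) ∣ (cyclotomic 13 ℤ).map (Int.castRingHom (ZMod q)))
    (g : 𝓞 K) (h1 : g ∣ (q : 𝓞 K)) (h2 : g ∣ aeval (zeta K) Q)
    (h3 : g ∈ span {(q : 𝓞 K), aeval (zeta K) Q}) :
    ∃ P ∈ primesOver (span {(q : ℤ)}) (𝓞 K), Submodule.IsPrincipal P := by
  have h₁ : ¬ q ∣ exponent (zeta K) := by
    rw [exponent_eq_one_iff.mpr <|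
      IsCyclotomicExtension.Rat.adjoin_singleton_eq_top (IsCyclotomicExtension.zeta_spec 13 ℚ K)]
    exact (Fact.out : q.Prime).not_dvd_one
  have hQ : Q.map (Int.castRingHom (ZMod q)) ∈ monicFactorsMod (zeta K) q := by
    rw [Multiset.mem_toFinset, Polynomial.mem_normalizedFactors_iff
      (map_monic_ne_zero (minpoly.monic (zeta K).isIntegral))]
    exact ⟨hirr, hmonic, by rwa [minpoly_zeta]⟩
  refine ⟨((primesOverSpanEquivMonicFactorsMod h₁).symm ⟨_, hQ⟩ : Ideal (𝓞 K)),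
    ((primesOverSpanEquivMonicFactorsMod h₁).symm ⟨_, hQ⟩).2, ?_⟩
  rw [primesOverSpanEquivMonicFactorsMod_symm_apply_eq_span h₁ hQ]
  have hspan : span {(q : 𝓞 K), aeval (zeta K) Q} = span {g} := by
    refine le_antisymm (span_le.mpr ?_) ((span_singleton_le_iff_mem _).mpr h3)
    rintro x (rfl | rfl)
    · exact mem_span_singleton.mpr h1
    · exact mem_span_singleton.mpr h2
  rw [hspan]
  exact ⟨⟨g, rfl⟩⟩


omit [NumberField K] [IsCyclotomicExtension {13} ℚ K] in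
lemma sum_pow_53 : ∑ x ∈ Finset.range 13, (36 : ZMod 53) ^ x = 0 := by decide

lemma principal_53 :
    ∃ P ∈ primesOver (span {((53 : ℕ) : ℤ)}) (𝓞 K), Submodule.IsPrincipal P := by
  have : Fact (Nat.Prime 53) := ⟨by norm_num⟩
  have : Fact (Nat.Prime 13) := ⟨by norm_num⟩
  have hζ := zeta_sum K
  refine exists_principal_of_cert K 53 (X - C 36) ?_ ?_ ?_ (1 + zeta K + zeta K ^ 3) ?_ ?_ ?_
  · simp only [Polynomial.map_sub, map_X, map_C]
    exact irreducible_X_sub_C _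
  · simp only [Polynomial.map_sub, map_X, map_C]
    exact monic_X_sub_C _
  · rw [Polynomial.map_sub, map_X, map_C, dvd_iff_isRoot, map_cyclotomic, cyclotomic_prime,
      IsRoot.def, eval_finsetSum]
    simp only [eval_pow, eval_X, eq_intCast, Int.cast_ofNat]
    exact sum_pow_53
  · refine ⟨1 - 24 * zeta K - 35 * zeta K ^ 2 - 25 * zeta K ^ 3 - 10 * zeta K ^ 4 - 14 * zeta K ^ 5 - 20 * zeta K ^ 6 - 29 * zeta K ^ 7 - 16 * zeta K ^ 8 - 23 * zeta K ^ 9 - 7 * zeta K ^ 10 - 36 * zeta K ^ 11, ?_⟩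
    push_cast
    linear_combination (-(-52 + 29 * zeta K - 36 * zeta K ^ 2)) * hζ
  · refine ⟨17 * zeta K + 24 * zeta K ^ 2 + 17 * zeta K ^ 3 + 7 * zeta K ^ 4 + 10 * zeta K ^ 5 + 14 * zeta K ^ 6 + 20 * zeta K ^ 7 + 11 * zeta K ^ 8 + 16 * zeta K ^ 9 + 5 * zeta K ^ 10 + 25 * zeta K ^ 11, ?_⟩
    simp only [map_sub, aeval_X, map_ofNat]
    linear_combination (-(36 - 20 * zeta K + 25 * zeta K ^ 2)) * hζ
  · rw [mem_span_pair]
    refine ⟨881, 1297 + 36 * zeta K + zeta K ^ 2, ?_⟩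
    simp only [map_sub, aeval_X, map_ofNat]
    push_cast
    ring

omit [NumberField K] [IsCyclotomicExtension {13} ℚ K] in
lemma sum_pow_79 : ∑ x ∈ Finset.range 13, (64 : ZMod 79) ^ x = 0 := by decide

lemma principal_79 :
    ∃ P ∈ primesOver (span {((79 : ℕ) : ℤ)}) (𝓞 K), Submodule.IsPrincipal P := by
  have : Fact (Nat.Prime 79) := ⟨by norm_num⟩
  have : Fact (Nat.Prime 13) := ⟨by norm_num⟩
  have hζ := zeta_sum K
  refine exists_principal_of_cert K 79 (X - C 64) ?_ ?_ ?_ (1 + zeta K - zeta K ^ 4) ?_ ?_ ?_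
  · simp only [Polynomial.map_sub, map_X, map_C]
    exact irreducible_X_sub_C _
  · simp only [Polynomial.map_sub, map_X, map_C]
    exact monic_X_sub_C _
  · rw [Polynomial.map_sub, map_X, map_C, dvd_iff_isRoot, map_cyclotomic, cyclotomic_prime,
      IsRoot.def, eval_finsetSum]
    simp only [eval_pow, eval_X, eq_intCast, Int.cast_ofNat]
    exact sum_pow_79
  · refine ⟨24 - 25 * zeta K - 27 * zeta K ^ 2 + 10 * zeta K ^ 3 - 3 * zeta K ^ 4 - 39 * zeta K ^ 5 - 5 * zeta K ^ 6 - 2 * zeta K ^ 7 - 18 * zeta K ^ 8 - 38 * zeta K ^ 9 + 16 * zeta K ^ 10 - 35 * zeta K ^ 11, ?_⟩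
    push_cast
    linear_combination (-(-55 + 54 * zeta K - 51 * zeta K ^ 2 + 35 * zeta K ^ 3)) * hζ
  · refine ⟨-19 + 21 * zeta K + 22 * zeta K ^ 2 - 8 * zeta K ^ 3 + 3 * zeta K ^ 4 + 32 * zeta K ^ 5 + 4 * zeta K ^ 6 + 2 * zeta K ^ 7 + 15 * zeta K ^ 8 + 31 * zeta K ^ 9 - 13 * zeta K ^ 10 + 29 * zeta K ^ 11, ?_⟩
    simp only [map_sub, aeval_X, map_ofNat]
    linear_combination (-(45 - 44 * zeta K + 42 * zeta K ^ 2 - 29 * zeta K ^ 3)) * hζ
  · rw [mem_span_pair]
    refine ⟨-212369, -262143 - 4096 * zeta K - 64 * zeta K ^ 2 - zeta K ^ 3, ?_⟩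
    simp only [map_sub, aeval_X, map_ofNat]
    push_cast
    ring

omit [NumberField K] [IsCyclotomicExtension {13} ℚ K] in
lemma sum_pow_131 : ∑ x ∈ Finset.range 13, (80 : ZMod 131) ^ x = 0 := by decide

lemma principal_131 :
    ∃ P ∈ primesOver (span {((131 : ℕ) : ℤ)}) (𝓞 K), Submodule.IsPrincipal P := by
  have : Fact (Nat.Prime 131) := ⟨by norm_num⟩
  have : Fact (Nat.Prime 13) := ⟨by norm_num⟩
  have hζ := zeta_sum K
  refine exists_principal_of_cert K 131 (X - C 80) ?_ ?_ ?_ (1 - zeta K - zeta K ^ 3) ?_ ?_ ?_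
  · simp only [Polynomial.map_sub, map_X, map_C]
    exact irreducible_X_sub_C _
  · simp only [Polynomial.map_sub, map_X, map_C]
    exact monic_X_sub_C _
  · rw [Polynomial.map_sub, map_X, map_C, dvd_iff_isRoot, map_cyclotomic, cyclotomic_prime,
      IsRoot.def, eval_finsetSum]
    simp only [eval_pow, eval_X, eq_intCast, Int.cast_ofNat]
    exact sum_pow_131
  · refine ⟨111 + 78 * zeta K + 17 * zeta K ^ 2 + 67 * zeta K ^ 3 + 84 * zeta K ^ 4 + 40 * zeta K ^ 5 + 46 * zeta K ^ 6 + 69 * zeta K ^ 7 + 48 * zeta K ^ 8 + 33 * zeta K ^ 9 + 41 * zeta K ^ 10 + 28 * zeta K ^ 11, ?_⟩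
    push_cast
    linear_combination (-(-20 - 13 * zeta K - 28 * zeta K ^ 2)) * hζ
  · refine ⟨-68 - 47 * zeta K - 10 * zeta K ^ 2 - 41 * zeta K ^ 3 - 51 * zeta K ^ 4 - 24 * zeta K ^ 5 - 28 * zeta K ^ 6 - 42 * zeta K ^ 7 - 29 * zeta K ^ 8 - 20 * zeta K ^ 9 - 25 * zeta K ^ 10 - 17 * zeta K ^ 11, ?_⟩
    simp only [map_sub, aeval_X, map_ofNat]
    linear_combination (-(12 + 8 * zeta K + 17 * zeta K ^ 2)) * hζ
  · rw [mem_span_pair]
    refine ⟨-3909, -6401 - 80 * zeta K - zeta K ^ 2, ?_⟩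
    simp only [map_sub, aeval_X, map_ofNat]
    push_cast
    ring

omit [NumberField K] [IsCyclotomicExtension {13} ℚ K] in
lemma sum_pow_157 : ∑ x ∈ Finset.range 13, (75 : ZMod 157) ^ x = 0 := by decide

lemma principal_157 :
    ∃ P ∈ primesOver (span {((157 : ℕ) : ℤ)}) (𝓞 K), Submodule.IsPrincipal P := by
  have : Fact (Nat.Prime 157) := ⟨by norm_num⟩
  have : Fact (Nat.Prime 13) := ⟨by norm_num⟩
  have hζ := zeta_sum K
  refine exists_principal_of_cert K 157 (X - C 75) ?_ ?_ ?_ (1 - zeta K + zeta K ^ 2 + zeta K ^ 4) ?_ ?_ ?_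
  · simp only [Polynomial.map_sub, map_X, map_C]
    exact irreducible_X_sub_C _
  · simp only [Polynomial.map_sub, map_X, map_C]
    exact monic_X_sub_C _
  · rw [Polynomial.map_sub, map_X, map_C, dvd_iff_isRoot, map_cyclotomic, cyclotomic_prime,
      IsRoot.def, eval_finsetSum]
    simp only [eval_pow, eval_X, eq_intCast, Int.cast_ofNat]
    exact sum_pow_157
  · refine ⟨89 + 86 * zeta K + 42 * zeta K ^ 2 + 77 * zeta K ^ 3 + 67 * zeta K ^ 4 + 25 * zeta K ^ 5 + 37 * zeta K ^ 6 + 56 * zeta K ^ 7 + 73 * zeta K ^ 8 + 113 * zeta K ^ 9 + 124 * zeta K ^ 10 + 76 * zeta K ^ 11, ?_⟩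
    push_cast
    linear_combination (-(-68 + 65 * zeta K + 48 * zeta K ^ 2 + 76 * zeta K ^ 3)) * hζ
  · refine ⟨-43 - 41 * zeta K - 20 * zeta K ^ 2 - 37 * zeta K ^ 3 - 32 * zeta K ^ 4 - 12 * zeta K ^ 5 - 18 * zeta K ^ 6 - 27 * zeta K ^ 7 - 35 * zeta K ^ 8 - 54 * zeta K ^ 9 - 59 * zeta K ^ 10 - 36 * zeta K ^ 11, ?_⟩
    simp only [map_sub, aeval_X, map_ofNat]
    linear_combination (-(32 - 31 * zeta K - 23 * zeta K ^ 2 - 36 * zeta K ^ 3)) * hζ
  · rw [mem_span_pair]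
    refine ⟨201568, 421949 + 5626 * zeta K + 75 * zeta K ^ 2 + zeta K ^ 3, ?_⟩
    simp only [map_sub, aeval_X, map_ofNat]
    push_cast
    ring

omit [NumberField K] [IsCyclotomicExtension {13} ℚ K] in
lemma no_root_three : ∀ x : ZMod 3, ¬ (x ^ 3 - x - 1 = 0) := by decide

lemma principal_3 :
    ∃ P ∈ primesOver (span {((3 : ℕ) : ℤ)}) (𝓞 K), Submodule.IsPrincipal P := by
  have : Fact (Nat.Prime 3) := ⟨by norm_num⟩
  have : Fact (Nat.Prime 13) := ⟨by norm_num⟩
  have hζ := zeta_sum K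
  have hmap : (X ^ 3 - X - 1 : ℤ[X]).map (Int.castRingHom (ZMod 3)) = X ^ 3 - X - 1 := by
    simp
  refine exists_principal_of_cert K 3 (X ^ 3 - X - 1) ?_ ?_ ?_ (1 + zeta K - zeta K ^ 3) ?_ ?_ ?_
  · rw [hmap]
    apply irreducible_of_degree_le_three_of_not_isRoot
    · have : (X ^ 3 - X - 1 : (ZMod 3)[X]).natDegree = 3 := by compute_degree!
      rw [this]; decide
    · intro x
      simp only [IsRoot.def, eval_sub, eval_pow, eval_X, eval_one]
      exact no_root_three x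
  · rw [hmap]
    monicity!
  · rw [hmap]
    refine ⟨(20 + 15 * X + 11 * X ^ 2 + 8 * X ^ 3 + 6 * X ^ 4 + 4 * X ^ 5 + 3 * X ^ 6 + 2 * X ^ 7 + X ^ 8 + X ^ 9 : ℤ[X]).map (Int.castRingHom (ZMod 3)), ?_⟩
    have h3 : ((3 : ℤ[X])).map (Int.castRingHom (ZMod 3)) = 0 := by
      rw [show (3 : ℤ[X]) = C (3 : ℤ) from rfl, map_C]
      simp
      rfl
    have key : cyclotomic 13 ℤ = (X ^ 3 - X - 1) * (20 + 15 * X + 11 * X ^ 2 + 8 * X ^ 3 + 6 * X ^ 4 + 4 * X ^ 5 + 3 * X ^ 6 + 2 * X ^ 7 + X ^ 8 + X ^ 9) + 3 * (7 + 12 * X + 9 * X ^ 2) := by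
      rw [cyclotomic_prime]
      simp only [Finset.sum_range_succ, Finset.sum_range_zero]
      ring
    rw [key, Polynomial.map_add, Polynomial.map_mul, Polynomial.map_mul, h3, hmap, zero_mul, add_zero]
  · refine ⟨-1 - zeta K ^ 2 - zeta K ^ 3 - 2 * zeta K ^ 5 - zeta K ^ 7 - 2 * zeta K ^ 8 + zeta K ^ 9 - 3 * zeta K ^ 10, ?_⟩
    push_cast
    linear_combination (-(-4 + 3 * zeta K)) * hζ
  · refine ⟨-1, ?_⟩
    simp only [map_sub, aeval_X, map_pow, map_one]
    ring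
  · rw [mem_span_pair]
    refine ⟨0, -1, ?_⟩
    simp only [map_sub, aeval_X, map_pow, map_one]
    ring


/-- The prime above `13` is principal. -/
lemma principal_13 :
    ∃ P ∈ primesOver (span {((13 : ℕ) : ℤ)}) (𝓞 K), Submodule.IsPrincipal P := by
  have : Fact (Nat.Prime 13) := ⟨by norm_num⟩
  obtain ⟨⟨P, hP1, hP2⟩⟩ := (span {((13 : ℕ) : ℤ)}).nonempty_primesOver (S := 𝓞 K)
  refine ⟨P, ⟨hP1, hP2⟩, ?_⟩
  rw [IsCyclotomicExtension.Rat.eq_span_zeta_sub_one_of_liesOver' 13 K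
    (IsCyclotomicExtension.zeta_spec 13 ℚ K) P]
  exact ⟨⟨_, rfl⟩⟩

end Principal

end Fermat.Agent.KummerPID13

namespace Fermat.Agent.Kummer

open Fermat.Agent.KummerPID13

/-- The ring of integers of the 13-th cyclotomic field is a principal ideal domain. -/
theorem pid_thirteen (K : Type*) [Field K] [NumberField K] [IsCyclotomicExtension {13} ℚ K] :
    IsPrincipalIdealRing (𝓞 K) := by
  have : IsGalois ℚ K := IsCyclotomicExtension.isGalois {13} ℚ K
  have hM : ⌊(4 / π) ^ nrComplexPlaces K *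
      ((finrank ℚ K)! / (finrank ℚ K) ^ (finrank ℚ K) * √|discr K|)⌋₊ ≤ 312 := by
    have h := minkowski_lt K
    apply Nat.le_of_lt_succ
    rw [Nat.floor_lt (by positivity)]
    exact_mod_cast h
  apply RingOfIntegers.isPrincipalIdealRing_of_isPrincipal_of_lt_or_isPrincipal_of_mem_primesOver_of_mem_Icc
  intro q hq hqprime
  have hq312 : q ≤ 312 := (Finset.mem_Icc.mp hq).2.trans hM
  by_cases h3 : q = 3
  · subst h3
    obtain ⟨P, hP, hprin⟩ := principal_3 K
    exact ⟨P, hP, Or.inr hprin⟩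
  by_cases h13 : q = 13
  · subst h13
    obtain ⟨P, hP, hprin⟩ := principal_13 K
    exact ⟨P, hP, Or.inr hprin⟩
  by_cases h53 : q = 53
  · subst h53
    obtain ⟨P, hP, hprin⟩ := principal_53 K
    exact ⟨P, hP, Or.inr hprin⟩
  by_cases h79 : q = 79
  · subst h79
    obtain ⟨P, hP, hprin⟩ := principal_79 K
    exact ⟨P, hP, Or.inr hprin⟩
  by_cases h131 : q = 131
  · subst h131
    obtain ⟨P, hP, hprin⟩ := principal_131 K
    exact ⟨P, hP, Or.inr hprin⟩
  by_cases h157 : q = 157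
  · subst h157
    obtain ⟨P, hP, hprin⟩ := principal_157 K
    exact ⟨P, hP, Or.inr hprin⟩
  have : Fact q.Prime := ⟨hqprime⟩
  obtain ⟨⟨P, hP1, hP2⟩⟩ := (span {(q : ℤ)}).nonempty_primesOver (S := 𝓞 K)
  refine ⟨P, ⟨hP1, hP2⟩, Or.inl ?_⟩
  have hm : ¬ q ∣ 13 := by
    rw [Nat.prime_dvd_prime_iff_eq hqprime (by norm_num)]
    exact h13
  rw [IsCyclotomicExtension.Rat.inertiaDeg_eq_of_not_dvd q K P hm]
  exact lt_of_le_of_lt hM (lt_pow_orderOf_thirteen hqprime hq312 h3 h13 h53 h79 h131 h157)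

end Fermat.Agent.Kummer
end MergeWrap_Lib_Kummer_PID13

section MergeWrap_Lib_Kummer_PID7 -- from Lib/Kummer/PID7.lean

/-!
# The ring of integers of `ℚ(ζ₇)` is a principal ideal domain

The Minkowski bound is `< 5`, and the primes `2`, `3` are inert enough (`2 ^ 3`, `3 ^ 6 > 4`).
-/

set_option autoImplicit false
set_option linter.unusedSectionVars false

open NumberField Polynomial Ideal Module InfinitePlace Nat Real

namespace Fermat.Agent.Kummer

section

variable (K : Type*) [Field K] [NumberField K] [IsCyclotomicExtension {7} ℚ K]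

lemma pid7_minkowski_lt :
    (4 / π) ^ nrComplexPlaces K *
      ((finrank ℚ K)! / (finrank ℚ K) ^ (finrank ℚ K) * √|discr K|) < 5 := by
  have : Fact (Nat.Prime 7) := ⟨by norm_num⟩
  rw [IsCyclotomicExtension.Rat.discr_prime 7 K, IsCyclotomicExtension.finrank (n := 7) K
    (cyclotomic.irreducible_rat (by norm_num)),
    IsCyclotomicExtension.Rat.nrComplexPlaces_eq_totient_div_two 7,
    totient_prime (by norm_num : Nat.Prime 7)]
  have h1 : (4 / π) ^ 3 < (4 / 3) ^ 3 := by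
    gcongr
    exact pi_gt_three
  have h2 : √|(((-1 : ℤ) ^ ((7 - 1) / 2) * (7 : ℤ) ^ (7 - 2) : ℤ) : ℝ)| < 130 := by
    rw [Real.sqrt_lt' (by norm_num)]
    norm_num
  have h5 : ((6 : ℕ)! : ℝ) = 720 := by
    norm_num [Nat.factorial]
  show (4 / π) ^ ((7 - 1) / 2) * (((7 - 1 : ℕ)! : ℝ) / ((7 - 1 : ℕ) : ℝ) ^ (7 - 1) *
    √|(((-1 : ℤ) ^ ((7 - 1) / 2) * (7 : ℤ) ^ (7 - 2) : ℤ) : ℝ)|) < 5
  have h6 : (((7 - 1 : ℕ)! : ℝ) / ((7 - 1 : ℕ) : ℝ) ^ (7 - 1)) *
      √|(((-1 : ℤ) ^ ((7 - 1) / 2) * (7 : ℤ) ^ (7 - 2) : ℤ) : ℝ)|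
        < (720 / 6 ^ 6) * 130 := by
    have h7 : (((7 - 1 : ℕ)! : ℝ) / ((7 - 1 : ℕ) : ℝ) ^ (7 - 1)) = 720 / 6 ^ 6 := by
      rw [show (7 - 1 : ℕ) = 6 from rfl, h5]
      norm_num
    rw [h7]
    exact mul_lt_mul_of_pos_left h2 (by norm_num)
  have h8 : (0 : ℝ) ≤ (((7 - 1 : ℕ)! : ℝ) / ((7 - 1 : ℕ) : ℝ) ^ (7 - 1)) *
      √|(((-1 : ℤ) ^ ((7 - 1) / 2) * (7 : ℤ) ^ (7 - 2) : ℤ) : ℝ)| := by positivity
  have h9 := mul_lt_mul'' (show (4 / π) ^ ((7 - 1) / 2) < (4 / 3) ^ 3 from h1) h6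
    (by positivity) h8
  refine h9.trans ?_
  norm_num

lemma pid7_floor_le :
    ⌊(4 / π) ^ nrComplexPlaces K *
      ((finrank ℚ K)! / (finrank ℚ K) ^ (finrank ℚ K) * √|discr K|)⌋₊ ≤ 4 := by
  have h := pid7_minkowski_lt K
  have h0 : (0 : ℝ) ≤ (4 / π) ^ nrComplexPlaces K *
      ((finrank ℚ K)! / (finrank ℚ K) ^ (finrank ℚ K) * √|discr K|) := by positivity
  exact Nat.lt_succ_iff.mp ((Nat.floor_lt h0).mpr (by exact_mod_cast h))

lemma pid7_pow_order (q d : ℕ) (hq : q.Prime) (hq4 : q ≤ 4)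
    (hd : 0 < d) (h : q ^ d ≤ 4) : (q : ZMod 7) ^ d ≠ 1 := by
  have hd2 : d ≤ 2 := by
    by_contra hcon
    rw [not_le] at hcon
    have h2 : 2 ^ 3 ≤ q ^ d :=
      (Nat.pow_le_pow_left hq.two_le 3).trans (Nat.pow_le_pow_right hq.pos hcon)
    omega
  have hq1 : 2 ≤ q := hq.two_le
  interval_cases d <;> interval_cases q <;>
    first
    | (exfalso; revert hq; norm_num; done)
    | (exfalso; revert h; norm_num; done)
    | decide

/-- The ring of integers of the `7`-th cyclotomic field is a principal ideal domain. -/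
theorem pid_seven : IsPrincipalIdealRing (𝓞 K) := by
  have hfact : Fact (Nat.Prime 7) := ⟨by norm_num⟩
  have hgal : IsGalois ℚ K := IsCyclotomicExtension.isGalois {7} ℚ K
  apply RingOfIntegers.isPrincipalIdealRing_of_isPrincipal_of_lt_or_isPrincipal_of_mem_primesOver_of_mem_Icc
  intro q hq hqprime
  have hq4 : q ≤ 4 := (Finset.mem_Icc.mp hq).2.trans (pid7_floor_le K)
  have hqfact : Fact q.Prime := ⟨hqprime⟩
  have h7 : q ≠ 7 := by omega
  obtain ⟨⟨P, hP1, hP2⟩⟩ := (span {(q : ℤ)}).nonempty_primesOver (S := 𝓞 K)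
  refine ⟨P, ⟨hP1, hP2⟩, Or.inl ?_⟩
  have hndvd : ¬ q ∣ 7 := by
    rw [Nat.prime_dvd_prime_iff_eq hqprime (by norm_num)]
    exact h7
  rw [IsCyclotomicExtension.Rat.inertiaDeg_eq_of_not_dvd q K P (m := 7) hndvd]
  by_contra hcon
  rw [not_lt] at hcon
  have hle : q ^ orderOf (q : ZMod 7) ≤ 4 := hcon.trans (pid7_floor_le K)
  have hq0 : (q : ZMod 7) ≠ 0 := by
    rw [Ne, ZMod.natCast_eq_zero_iff]
    intro h
    exact h7 ((Nat.prime_dvd_prime_iff_eq (by norm_num) hqprime).mp h).symm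
  have hfin : IsOfFinOrder (q : ZMod 7) :=
    isOfFinOrder_iff_pow_eq_one.mpr ⟨6, by norm_num, ZMod.pow_card_sub_one_eq_one hq0⟩
  exact pid7_pow_order q _ hqprime hq4 (orderOf_pos_iff.mpr hfin) hle (pow_orderOf_eq_one _)

end

end Fermat.Agent.Kummer
end MergeWrap_Lib_Kummer_PID7

section MergeWrap_S05 -- from S05.lean

set_option autoImplicit false
open WeierstrassCurve WeierstrassCurve.Affine WeierstrassCurve.Affine.Point
open CuspForm ModularFormClass UpperHalfPlane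
open FreyPackage

namespace Fermat.Agent.S05

theorem result (P : FreyPackage) {q : ℕ} (hq : q.Prime) (hq2 : q ≠ 2) (hqp : q ≠ P.p) : P.GaloisRepUnramifiedAt q := by
  intro A hA σ hσ x
  apply Subtype.ext
  show Point.map σ.toAlgHom x.1 = x.1
  have hvq : A.valuation ((q : ℕ) : AlgebraicClosure ℚ) < 1 := A.mem_nonunits_iff.mp hA
  have hσ1 : ∀ a : AlgebraicClosure ℚ, A.valuation a ≤ 1 →
      A.valuation (σ.toAlgHom a - a) < 1 := by
    intro a ha
    rw [A.valuation_le_one_iff] at ha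
    exact A.mem_nonunits_iff.mp (S05H5.inertiaIn_sub_mem_nonunits A σ hσ ha)
  have hσ2 : ∀ a : AlgebraicClosure ℚ, 1 < A.valuation a →
      1 < A.valuation (σ.toAlgHom a) := by
    intro a ha
    rw [← not_le, A.valuation_le_one_iff] at ha ⊢
    intro h
    exact ha ((S05H5.inertiaIn_apply_mem_iff A σ hσ).mp h)
  have hX : P.p • x.1 = 0 := by
    have h1 : ((P.p : ℕ) : ℤ) • x.1 = 0 := (Submodule.mem_torsionBy_iff _ _).mp x.2
    rwa [natCast_zsmul] at h1
  have hp : A.valuation ((P.p : ℕ) : AlgebraicClosure ℚ) = 1 :=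
    S05H5.v_prime_eq_one A.valuation hq hvq P.pp hqp
  have h2 : A.valuation (2 : AlgebraicClosure ℚ) = 1 :=
    S05H5.v_two_eq_one A.valuation hq hvq hq2
  obtain ⟨ha₁, ha₂, ha₃, ha₄, ha₆⟩ :=
    S05H5.frey_coeff_le_one (K := AlgebraicClosure ℚ) P A.valuation
  have hΔ : (P.freyCurve⁄(AlgebraicClosure ℚ)).Δ ≠ 0 := S05H5.frey_Δ_ne_zero_K P
  have hE : S05H5.GoodOrNodal A.valuation P.freyCurve P.p :=
    S05H5.frey_goodOrNodal P A.valuation hq hq2 hvq
  exact S05H5.map_eq_self_of_goodOrNodal A.valuation P.freyCurve ha₁ ha₂ ha₃ ha₄ ha₆ hΔ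
    P.hp_odd hp h2 hE σ.toAlgHom hσ1 hσ2 _ hX

end Fermat.Agent.S05
end MergeWrap_S05

section MergeWrap_S10 -- from S10.lean

/-!
# S10: the mod-`p` representation of a Frey curve has no Galois-stable cofixed line, `p ∈ {5,7,13}`

There is no Frey package with `p ∈ {5, 7, 13}` at all: this is Fermat's Last Theorem for these
exponents, proved by Kummer's method (`ℤ[ζ_p]` is a principal ideal domain, Kummer's lemma holds
for `p`, first case by Sophie Germain's theorem).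
-/

set_option autoImplicit false
open WeierstrassCurve WeierstrassCurve.Affine WeierstrassCurve.Affine.Point
open CuspForm ModularFormClass UpperHalfPlane
open FreyPackage

namespace Fermat.Agent.S10

/-- There is no Frey package with `p = 5` (Fermat's Last Theorem for exponent `5`). -/
theorem no_freyPackage_five (P : FreyPackage) (hp : P.p = 5) : False := by
  have : Fact (Nat.Prime 5) := ⟨by norm_num⟩
  have : IsCyclotomicExtension {5} ℚ (CyclotomicField 5 ℚ) :=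
    CyclotomicField.isCyclotomicExtension 5 ℚ
  have : IsPrincipalIdealRing (NumberField.RingOfIntegers (CyclotomicField 5 ℚ)) :=
    IsCyclotomicExtension.Rat.five_pid (CyclotomicField 5 ℚ)
  exact Fermat.Agent.Kummer.freyPackage_false_of_kummer (p := 5) (by norm_num)
    (Fermat.Agent.Kummer.kummerLemma_five (CyclotomicField 5 ℚ))
    Fermat.Agent.Kummer.caseI_five P hp

/-- There is no Frey package with `p = 7` (Fermat's Last Theorem for exponent `7`). -/
theorem no_freyPackage_seven (P : FreyPackage) (hp : P.p = 7) : False := by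
  have : Fact (Nat.Prime 7) := ⟨by norm_num⟩
  have : IsCyclotomicExtension {7} ℚ (CyclotomicField 7 ℚ) :=
    CyclotomicField.isCyclotomicExtension 7 ℚ
  have : IsPrincipalIdealRing (NumberField.RingOfIntegers (CyclotomicField 7 ℚ)) :=
    Fermat.Agent.Kummer.pid_seven (CyclotomicField 7 ℚ)
  exact Fermat.Agent.Kummer.freyPackage_false_of_kummer (p := 7) (by norm_num)
    (Fermat.Agent.Kummer.kummerLemma_seven (CyclotomicField 7 ℚ))
    Fermat.Agent.Kummer.caseI_seven P hp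

/-- There is no Frey package with `p = 13` (Fermat's Last Theorem for exponent `13`). -/
theorem no_freyPackage_thirteen (P : FreyPackage) (hp : P.p = 13) : False := by
  have : Fact (Nat.Prime 13) := ⟨by norm_num⟩
  have : IsCyclotomicExtension {13} ℚ (CyclotomicField 13 ℚ) :=
    CyclotomicField.isCyclotomicExtension 13 ℚ
  have : IsPrincipalIdealRing (NumberField.RingOfIntegers (CyclotomicField 13 ℚ)) :=
    Fermat.Agent.Kummer.pid_thirteen (CyclotomicField 13 ℚ)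
  exact Fermat.Agent.Kummer.freyPackage_false_of_kummer (p := 13) (by norm_num)
    (Fermat.Agent.Kummer.kummerLemma_thirteen (CyclotomicField 13 ℚ))
    Fermat.Agent.Kummer.caseI_thirteen P hp

theorem result (P : FreyPackage) (hp : P.p = 5 ∨ P.p = 7 ∨ P.p = 13) : ¬ HasGaloisStableCofixedLine (K := AlgebraicClosure ℚ) ℚ P.freyCurve P.p := by
  rcases hp with hp | hp | hp
  · exact (no_freyPackage_five P hp).elim
  · exact (no_freyPackage_seven P hp).elim
  · exact (no_freyPackage_thirteen P hp).elim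

end Fermat.Agent.S10
end MergeWrap_S10

section MergeWrap_S11 -- from S11.lean

/-!
# S11: the mod-`11` representation of a Frey curve has no Galois-stable cofixed line

There is no Frey package with `p = 11` at all: this is Fermat's Last Theorem for the exponent
`11`, proved by Kummer's method (`ℤ[ζ₁₁]` is a principal ideal domain, Kummer's lemma holds for
`11`, first case by Sophie Germain's theorem with the auxiliary prime `23`).
-/

set_option autoImplicit false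
open WeierstrassCurve WeierstrassCurve.Affine WeierstrassCurve.Affine.Point
open CuspForm ModularFormClass UpperHalfPlane
open FreyPackage

namespace Fermat.Agent.S11

/-- There is no Frey package with `p = 11` (Fermat's Last Theorem for exponent `11`). -/
theorem no_freyPackage_eleven (P : FreyPackage) (hp : P.p = 11) : False := by
  have : Fact (Nat.Prime 11) := ⟨by norm_num⟩
  have : IsCyclotomicExtension {11} ℚ (CyclotomicField 11 ℚ) :=
    CyclotomicField.isCyclotomicExtension 11 ℚ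
  have : IsPrincipalIdealRing (NumberField.RingOfIntegers (CyclotomicField 11 ℚ)) :=
    Fermat.Agent.Kummer.pid_eleven (CyclotomicField 11 ℚ)
  have hab : IsCoprime P.a P.b := by
    rw [← gcd_isUnit_iff, P.hgcdab]
    exact isUnit_one
  have h := P.hFLT
  rw [hp] at h
  exact Fermat.Agent.Kummer.flt_of_caseI_of_kummer (p := 11) (by norm_num)
    (Fermat.Agent.Kummer.kummerLemma_eleven (CyclotomicField 11 ℚ))
    Fermat.Agent.Kummer.caseI_eleven
    P.a P.b P.c P.ha0 P.hb0 P.hc0 hab h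

theorem result (P : FreyPackage) (hp : P.p = 11) : ¬ HasGaloisStableCofixedLine (K := AlgebraicClosure ℚ) ℚ P.freyCurve P.p := by
  exact (no_freyPackage_eleven P hp).elim

end Fermat.Agent.S11
end MergeWrap_S11

section MergeWrap_S13_TwoNodal -- from S13/TwoNodal.lean

set_option autoImplicit false

namespace Fermat.Agent.S13Two

open WeierstrassCurve WeierstrassCurve.Affine S05H65 S05H75 S05H5

variable {K : Type*} [Field K] {Γ₀ : Type*} [LinearOrderedCommGroupWithZero Γ₀]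

/-- The curve has the shape `y² + a₁xy = x³ + a₂x² + a₄x` with integral `a₁, a₂`, with `a₄` in
the maximal ideal and with `b₂` a unit: its reduction has a node at the origin. -/
structure NodeAtOrigin (v : Valuation K Γ₀) (W : Affine K) : Prop where
  ha₁ : v W.a₁ ≤ 1
  ha₂ : v W.a₂ ≤ 1
  ha₃ : W.a₃ = 0
  ha₄ : v W.a₄ < 1
  ha₆ : W.a₆ = 0
  hb₂ : v W.b₂ = 1

namespace NodeAtOrigin

variable {v : Valuation K Γ₀} {W : Affine K}

theorem b₄_eq (h : NodeAtOrigin v W) : W.b₄ = 2 * W.a₄ := by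
  simp only [WeierstrassCurve.b₄, h.ha₃]; ring

theorem b₆_eq (h : NodeAtOrigin v W) : W.b₆ = 0 := by
  simp only [WeierstrassCurve.b₆, h.ha₃, h.ha₆]; ring

theorem b₈_eq (h : NodeAtOrigin v W) : W.b₈ = - W.a₄ ^ 2 := by
  simp only [WeierstrassCurve.b₈, h.ha₃, h.ha₆]; ring

theorem vb₂ (h : NodeAtOrigin v W) : v W.b₂ ≤ 1 := h.hb₂.le

theorem vb₄ (h : NodeAtOrigin v W) : v W.b₄ ≤ 1 := by
  rw [h.b₄_eq]; exact vle_mul v (vle_ofNat v 2) h.ha₄.le

theorem vb₆ (h : NodeAtOrigin v W) : v W.b₆ ≤ 1 := by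
  rw [h.b₆_eq, map_zero]; exact zero_le_one

theorem vb₈ (h : NodeAtOrigin v W) : v W.b₈ ≤ 1 := by
  rw [h.b₈_eq, Valuation.map_neg]; exact vle_pow v h.ha₄.le 2

theorem va₃ (h : NodeAtOrigin v W) : v W.a₃ ≤ 1 := by
  rw [h.ha₃, map_zero]; exact zero_le_one

theorem va₆ (h : NodeAtOrigin v W) : v W.a₆ ≤ 1 := by
  rw [h.ha₆, map_zero]; exact zero_le_one

theorem psi2sq_eq (h : NodeAtOrigin v W) (x : K) :
    psi2sq W x = x * (4 * x ^ 2 + W.b₂ * x + 4 * W.a₄) := by
  simp only [psi2sq, h.b₄_eq, h.b₆_eq]; ring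

theorem dupNum_eq (h : NodeAtOrigin v W) (x : K) :
    dupNum W x = (x ^ 2 - W.a₄) ^ 2 := by
  simp only [dupNum, h.b₄_eq, h.b₆_eq, h.b₈_eq]; ring

end NodeAtOrigin

section Reduction

variable {v : Valuation K Γ₀} {W : Affine K}

/-- A point with unit `x`-coordinate has nonsingular reduction. -/
theorem nonsing_red_of_unit (hN : NodeAtOrigin v W) {x y : K} (h : W.Equation x y)
    (hx : v x = 1) :
    ¬ (v (W.a₁ * y - (3 * x ^ 2 + 2 * W.a₂ * x + W.a₄)) < 1 ∧
        v (2 * y + W.a₁ * x + W.a₃) < 1) := by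
  rintro ⟨hFx, hFy⟩
  have hpsi : (2 * y + W.a₁ * x + W.a₃) ^ 2 = x * (4 * x ^ 2 + W.b₂ * x + 4 * W.a₄) := by
    have h1 := psi_sq_formula h
    rw [← hN.psi2sq_eq]
    simp only [psi2sq]
    rw [← h1]
    simp only [Affine.negY]
    ring
  have hlin : W.a₁ * (2 * y + W.a₁ * x + W.a₃)
      - 2 * (W.a₁ * y - (3 * x ^ 2 + 2 * W.a₂ * x + W.a₄))
      = x * (W.b₂ + 6 * x) + 2 * W.a₄ := by
    simp only [WeierstrassCurve.b₂, hN.ha₃]
    ring
  have hx0 : x ≠ 0 := by
    rintro rfl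
    rw [map_zero] at hx
    exact zero_ne_one hx
  -- cancelling the unit `x`
  have cancel : ∀ z : K, v (x * z) < 1 → v z < 1 := by
    intro z hz
    rwa [map_mul, hx, one_mul] at hz
  have h4a : v (4 * W.a₄) < 1 := vlt_mul_left v (vle_ofNat v 4) hN.ha₄
  have h2a : v (2 * W.a₄) < 1 := vlt_mul_left v (vle_ofNat v 2) hN.ha₄
  have hA : v (4 * x + W.b₂) < 1 := by
    have h1 : v (x * (4 * x ^ 2 + W.b₂ * x + 4 * W.a₄)) < 1 := by
      rw [← hpsi, pow_two]
      exact vlt_mul_left v hFy.le hFy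
    have h2 := cancel _ h1
    have h3 : v (x * (4 * x + W.b₂)) < 1 := by
      have e : x * (4 * x + W.b₂) = (4 * x ^ 2 + W.b₂ * x + 4 * W.a₄) - 4 * W.a₄ := by ring
      rw [e]
      exact vlt_sub v h2 h4a
    exact cancel _ h3
  have hB : v (W.b₂ + 6 * x) < 1 := by
    have h1 : v (x * (W.b₂ + 6 * x) + 2 * W.a₄) < 1 := by
      rw [← hlin]
      exact vlt_sub v (vlt_mul_left v hN.ha₁ hFy) (vlt_mul_left v (vle_ofNat v 2) hFx)
    have h3 : v (x * (W.b₂ + 6 * x)) < 1 := by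
      have e : x * (W.b₂ + 6 * x) = (x * (W.b₂ + 6 * x) + 2 * W.a₄) - 2 * W.a₄ := by ring
      rw [e]
      exact vlt_sub v h1 h2a
    exact cancel _ h3
  have h2x : v (2 * x) < 1 := by
    have e : 2 * x = (W.b₂ + 6 * x) - (4 * x + W.b₂) := by ring
    rw [e]
    exact vlt_sub v hB hA
  have hb : v W.b₂ < 1 := by
    have e : W.b₂ = (4 * x + W.b₂) - 2 * (2 * x) := by ring
    rw [e]
    exact vlt_sub v hA (vlt_mul_left v (vle_ofNat v 2) h2x)
  rw [hN.hb₂] at hb
  exact lt_irrefl _ hb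

end Reduction

section Galois

variable [DecidableEq K]
variable {R S : Type*} [CommRing R] [CommRing S] [Algebra R S] [Algebra R K] [Algebra S K]
  [IsScalarTower R S K]

/-- The "identity component": the origin together with the points with `1 ≤ v x`. -/
def InG0 (v : Valuation K Γ₀) {W : Affine K} (P : W.Point) : Prop := P = 0 ∨ 1 ≤ v (px P)

/-- An automorphism acting trivially modulo the maximal ideal moves a point of the identity
component within the kernel of reduction. -/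
theorem inG1_map_sub_of_inG0 (v : Valuation K Γ₀) (W' : Affine R)
    (hN : NodeAtOrigin v (W'⁄K))
    (σ : K →ₐ[S] K) (hσ : ∀ a : K, v a ≤ 1 → v (σ a - a) < 1)
    (hσ' : ∀ a : K, 1 < v a → 1 < v (σ a))
    (w : (W'⁄K).Point) (hw : InG0 v w) : InG1 v (Point.map σ w - w) := by
  rcases w with _ | ⟨x, y, h⟩
  · left
    exact sub_self _
  · have hξ : 1 ≤ v x := by
      rcases hw with hw | hw
      · exact absurd hw (Point.some_ne_zero h)
      · simpa using hw
    have hmap : Point.map σ (Point.some x y h) = Point.some (σ x) (σ y)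
        ((W'.baseChange_nonsingular σ.injective x y).mpr h) := Point.map_some σ h
    rw [hmap]
    by_cases hx : v x ≤ 1
    · have hy : v y ≤ 1 := v_y_le_one v (W'⁄K) hN.ha₁ hN.ha₂ hN.va₃ hN.ha₄.le hN.va₆ h.1 hx
      have hns := nonsing_red_of_unit hN h.1 (le_antisymm hx hξ)
      have hσx : v (x - σ x) < 1 := by rw [Valuation.map_sub_swap]; exact hσ x hx
      have hσy : v (y - σ y) < 1 := by rw [Valuation.map_sub_swap]; exact hσ y hy
      have hσx1 : v (σ x) ≤ 1 := by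
        have : σ x = (σ x - x) + x := by ring
        rw [this]; exact vle_add v (le_of_lt (hσ x hx)) hx
      have hB : InG1 v (Point.some x y h - Point.some (σ x) (σ y)
          ((W'.baseChange_nonsingular σ.injective x y).mpr h)) :=
        sub_eq_zero_or_one_lt_v_px v (W'⁄K) hN.ha₁ hN.ha₂ h
          ((W'.baseChange_nonsingular σ.injective x y).mpr h) hx hσx1 hσx hσy hns
      have := inG1_neg v hB
      rwa [neg_sub] at this
    · rw [not_le] at hx
      have h1 : InG1 v (Point.some x y h : (W'⁄K).Point) := Or.inr hx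
      have h2 : InG1 v (Point.some (σ x) (σ y)
          ((W'.baseChange_nonsingular σ.injective x y).mpr h) : (W'⁄K).Point) :=
        Or.inr (hσ' x hx)
      exact inG1_sub v hN.vb₂ hN.vb₄ hN.vb₆ hN.vb₈ h2 h1

/-- A torsion point (of order prime to the residue characteristic) of the identity component
is fixed by an automorphism acting trivially modulo the maximal ideal. -/
theorem map_eq_self_of_inG0 (v : Valuation K Γ₀) (W' : Affine R)
    (hN : NodeAtOrigin v (W'⁄K))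
    (σ : K →ₐ[S] K) (hσ : ∀ a : K, v a ≤ 1 → v (σ a - a) < 1)
    (hσ' : ∀ a : K, 1 < v a → 1 < v (σ a))
    {n : ℕ} (hn : v (n : K) = 1) (w : (W'⁄K).Point) (hnw : n • w = 0) (hw : InG0 v w) :
    Point.map σ w = w := by
  have h1 := inG1_map_sub_of_inG0 v W' hN σ hσ hσ' w hw
  have htor : n • (Point.map σ w - w) = 0 := by
    rw [smul_sub, hnw, ← map_nsmul, hnw, map_zero, sub_zero]
  exact sub_eq_zero.mp (inG1_torsion_free v hN.vb₂ hN.vb₄ hN.vb₆ hN.vb₈ hn h1 htor)

end Galois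

end Fermat.Agent.S13Two
end MergeWrap_S13_TwoNodal

section MergeWrap_S13_H65_Rho2 -- from S13/H65/Rho2.lean

/-!
# The component function on points of a Weierstrass model with `a₃ = a₆ = 0`
(node at the 2-torsion point `(0,0)`), any residue characteristic.
-/

set_option autoImplicit false

namespace S13H65

open WeierstrassCurve S05H65 S05H65.AVal

variable {K : Type*} [Field K] [DecidableEq K]
  {G : Type*} [AddCommGroup G] [LinearOrder G] [IsOrderedAddMonoid G]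
  {W : WeierstrassCurve.Affine K} {V : AVal K G} {h : G}

/-- The model is centred at the 2-torsion point `(0,0)`. -/
structure Centred (W : WeierstrassCurve.Affine K) : Prop where
  ha₃ : W.a₃ = 0
  ha₆ : W.a₆ = 0

omit [DecidableEq K] in
lemma Centred.b₄ (N : Centred W) : W.b₄ = 2 * W.a₄ := by
  simp [WeierstrassCurve.b₄, N.ha₃]

omit [DecidableEq K] in
lemma Centred.b₆ (N : Centred W) : W.b₆ = 0 := by
  simp [WeierstrassCurve.b₆, N.ha₃, N.ha₆]

omit [DecidableEq K] in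
lemma Centred.b₈ (N : Centred W) : W.b₈ = -W.a₄ ^ 2 := by
  simp [WeierstrassCurve.b₈, N.ha₃, N.ha₆]

lemma Centred.px_sum (N : Centred W) {P Q : W.Point} (hP : P ≠ 0) (hQ : Q ≠ 0)
    (h : px P ≠ px Q) :
    (px (P + Q) + px (P - Q)) * (px P - px Q) ^ 2
      = px P * px Q * (2 * (px P + px Q) + W.b₂) + 2 * W.a₄ * (px P + px Q) := by
  rw [px_add_add_px_sub hP hQ h, N.b₄, N.b₆]
  ring

lemma Centred.px_prod (N : Centred W) {P Q : W.Point} (hP : P ≠ 0) (hQ : Q ≠ 0)
    (h : px P ≠ px Q) :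
    (px (P + Q) * px (P - Q)) * (px P - px Q) ^ 2 = (px P * px Q - W.a₄) ^ 2 := by
  rw [px_add_mul_px_sub hP hQ h, N.b₄, N.b₆, N.b₈]
  ring

omit [DecidableEq K] in
lemma Centred.psi2sq_eq (N : Centred W) (x : K) :
    psi2sq W x = x * (4 * x ^ 2 + W.b₂ * x + 4 * W.a₄) := by
  simp only [psi2sq]
  rw [N.b₄, N.b₆]
  ring

omit [DecidableEq K] in
lemma Centred.dupNum_eq (N : Centred W) (x : K) : dupNum W x = (x ^ 2 - W.a₄) ^ 2 := by
  simp only [dupNum]
  rw [N.b₄, N.b₆, N.b₈]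
  ring

/-- The component function. -/
noncomputable def rho2 (V : AVal K G) (h : G) (P : W.Point) : G :=
  if P = 0 then 0 else V.cl h (px P)

@[simp] lemma rho2_zero : rho2 V h (0 : W.Point) = 0 := by simp [rho2]

lemma rho2_of_ne {P : W.Point} (hP : P ≠ 0) : rho2 V h P = V.cl h (px P) := by
  simp [rho2, hP]

@[simp] lemma rho2_neg (P : W.Point) : rho2 V h (-P) = rho2 V h P := by
  simp [rho2]

lemma rho2_nonneg (hh : 0 < h) (P : W.Point) : 0 ≤ rho2 V h P := by
  unfold rho2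
  split_ifs
  · exact le_refl _
  · exact AVal.cl_nonneg hh _

lemma rho2_le (hh : 0 < h) (P : W.Point) : rho2 V h P ≤ h := by
  unfold rho2
  split_ifs
  · exact hh.le
  · exact AVal.cl_le hh _

/-- `rho2 (P + P) = min (2a) (2h - 2a)` where `a = rho2 P`. -/
theorem rho2_dbl (N : Centred W) (C : Core2 V W.a₄ W.b₂ h) (P : W.Point) :
    rho2 V h (P + P)
      = min (rho2 V h P + rho2 V h P) (h + h - rho2 V h P - rho2 V h P) := by
  have hh := C.hh
  by_cases hP : P = 0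
  · subst hP
    simp only [add_zero, rho2_zero]
    grind
  by_cases h2 : P + P = 0
  · rw [h2, rho2_zero, rho2_of_ne hP]
    have h0 := (add_self_eq_zero_iff hP).mp h2
    rw [N.psi2sq_eq] at h0
    rcases mul_eq_zero.mp h0 with h1 | h1
    · rw [cl_of_ge hh (Or.inl h1)]
      grind
    · -- 4x² + b₂x + 4a₄ = 0 forces w x ≤ 0 or w x ≥ h
      rcases regime V h (px P) with ⟨α, hx, hα⟩ | ⟨α, hx, hα, hα'⟩ | hx
      · rw [cl_of_ex hx]; grind
      · exfalso
        have hq' : V.Ex (4 * px P ^ 2 + W.b₂ * px P + 4 * W.a₄) α :=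
          (((C.hb₂.mul hx).congr (by grind)).gt_add
            ((C.ge_four.mul hx.sq.ge).gt (by grind))).add_gt
            ((C.ge_four.mul C.ha₄.ge).gt (by grind))
        exact hq'.1 h1
      · rw [cl_of_ge hh hx]; grind
  · rw [rho2_of_ne h2, rho2_of_ne hP]
    have hden : px P * (4 * px P ^ 2 + W.b₂ * px P + 4 * W.a₄) ≠ 0 := by
      rw [← N.psi2sq_eq]
      exact fun h0 => h2 ((add_self_eq_zero_iff hP).mpr h0)
    have := px_add_self hP h2
    rw [N.psi2sq_eq, N.dupNum_eq] at this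
    exact dbl_rel2 C hden this

/-- The fundamental relation satisfied by the component function. -/
theorem rho2_rel (N : Centred W) (C : Core2 V W.a₄ W.b₂ h) (P Q : W.Point) :
    AVal.Rel h (rho2 V h P) (rho2 V h Q) (rho2 V h (P + Q)) (rho2 V h (P - Q)) := by
  have hh := C.hh
  by_cases hP : P = 0
  · subst hP
    have h1 := rho2_nonneg (V := V) hh Q
    have h2 := rho2_le (V := V) hh Q
    simp only [zero_add, zero_sub, rho2_neg, rho2_zero]
    unfold AVal.Rel; grind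
  by_cases hQ : Q = 0
  · subst hQ
    have h1 := rho2_nonneg (V := V) hh P
    have h2 := rho2_le (V := V) hh P
    simp only [add_zero, sub_zero, rho2_zero]
    unfold AVal.Rel; grind
  by_cases hx : px P = px Q
  · rcases eq_or_eq_neg_of_px_eq hP hQ hx with rfl | rfl
    · have := rho2_dbl (V := V) N C P
      rw [sub_self, rho2_zero, this]
      unfold AVal.Rel; grind
    · have := rho2_dbl (V := V) N C Q
      rw [neg_add_cancel, rho2_zero, show -Q - Q = -(Q + Q) by abel, rho2_neg, rho2_neg, this]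
      unfold AVal.Rel; grind
  · have hadd : P + Q ≠ 0 := add_ne_zero_of_px_ne hx hP hQ
    have hsub : P - Q ≠ 0 := sub_ne_zero_of_px_ne hx
    rw [rho2_of_ne hP, rho2_of_ne hQ, rho2_of_ne hadd, rho2_of_ne hsub]
    exact main_rel2 C hx (N.px_sum hP hQ hx) (N.px_prod hP hQ hx)

lemma rho2_pairRel (N : Centred W) (C : Core2 V W.a₄ W.b₂ h) :
    S05H27.PairRel (rho2 (W := W) V h) (h + h) := fun P Q => rel_simN (rho2_rel N C P Q)

/-- Torsion points have "rational" component. -/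
theorem rho2_torsion (N : Centred W) (C : Core2 V W.a₄ W.b₂ h) (X : W.Point) (p : ℕ)
    (hpX : p • X = 0) : ∃ m : ℤ, p • rho2 V h X = m • (h + h) :=
  S05H27.rho_pow_of_torsion (rho2 (W := W) V h) (h + h) rho2_zero (rho2_pairRel N C) X p hpX

lemma rho2_eq_zero_imp (hh : 0 < h) {T : W.Point} (h0 : rho2 V h T = 0) :
    T = 0 ∨ V.NotM (px T) := by
  by_cases hT : T = 0
  · exact Or.inl hT
  right
  rw [rho2_of_ne hT] at h0
  by_cases hx : px T = 0
  · rw [cl_of_ge hh (Or.inl hx)] at h0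
    exact absurd h0 hh.ne'
  · refine ⟨hx, ?_⟩
    rw [cl_of_ex (ex_of_ne hx)] at h0
    grind

/-- The identity component `{rho2 = 0}` is closed under addition and subtraction. -/
theorem rho2_add_eq_zero (N : Centred W) (C : Core2 V W.a₄ W.b₂ h) {P Q : W.Point}
    (hP : rho2 V h P = 0) (hQ : rho2 V h Q = 0) :
    rho2 V h (P + Q) = 0 ∧ rho2 V h (P - Q) = 0 := by
  have := rho2_rel N C P Q
  have hh := C.hh
  rw [hP, hQ] at this
  unfold AVal.Rel at this
  grind

end S13H65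
end MergeWrap_S13_H65_Rho2

section MergeWrap_S13_H65_Branch -- from S13/H65/Branch.lean

/-!
# The branch of a point near the node

For a model `y² + a₁xy = x³ + a₂x² + a₄x` and two points `P, Q` near the node with the same
valuation `0 < α < h` of the `x`-coordinate and on the same branch (`y₁/x₁ ≡ y₂/x₂`), the
difference `P - Q` lies in the identity component.
-/

set_option autoImplicit false

namespace S13H65

open WeierstrassCurve S05H65 S05H65.AVal

variable {K : Type*} [Field K] [DecidableEq K]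
  {G : Type*} [AddCommGroup G] [LinearOrder G] [IsOrderedAddMonoid G]
  {W : WeierstrassCurve.Affine K} {V : AVal K G} {h : G}

omit [DecidableEq K] in
/-- The slope `τ = y/x` of a point near the node is integral. -/
lemma branch_integral (N : Centred W) (C : Core2 V W.a₄ W.b₂ h)
    (ha₁ : V.Ge W.a₁ 0) (ha₂ : V.Ge W.a₂ 0) {x y : K} {α : G}
    (hE : W.Equation x y) (hx : V.Ex x α) (hα : 0 < α) (hα' : α < h) : V.Ge (y / x) 0 := by
  have hx0 := hx.1
  rw [Affine.equation_iff, N.ha₃, N.ha₆] at hE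
  have key : (y / x) ^ 2 + W.a₁ * (y / x) = x + W.a₂ + W.a₄ / x := by
    field_simp
    linear_combination hE
  have hc : V.Ge (x + W.a₂ + W.a₄ / x) 0 :=
    ((hx.ge' hα.le).add ha₂).add ((C.ha₄.div hx).ge' (by grind))
  by_contra hcon
  have ht0 : y / x ≠ 0 := fun h0 => hcon (Or.inl h0)
  have htlt : V.w (y / x) < 0 := by
    by_contra h'
    exact hcon (Or.inr (not_lt.mp h'))
  have ht : V.Ex (y / x) (V.w (y / x)) := ex_of_ne ht0
  have h1 : V.Ex ((y / x) ^ 2 + W.a₁ * (y / x)) (V.w (y / x) + V.w (y / x)) :=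
    ht.sq.add_gt ((ha₁.mul ht.ge).gt (by grind))
  rw [key] at h1
  have := h1.le_of_ge hc
  grind

omit [DecidableEq K] in
/-- `θ = 2τ + a₁` is a unit. -/
lemma branch_theta (N : Centred W) (C : Core2 V W.a₄ W.b₂ h)
    {x y : K} {α : G}
    (hE : W.Equation x y) (hx : V.Ex x α) (hα : 0 < α) (hα' : α < h) :
    V.Ex (2 * (y / x) + W.a₁) 0 := by
  have hx0 := hx.1
  rw [Affine.equation_iff, N.ha₃, N.ha₆] at hE
  have key : (2 * (y / x) + W.a₁) ^ 2 = W.b₂ + 4 * (x + W.a₄ / x) := by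
    simp only [WeierstrassCurve.b₂]
    field_simp
    linear_combination 4 * hE
  have hsq : V.Ex ((2 * (y / x) + W.a₁) ^ 2) 0 := by
    rw [key]
    have hk : V.Gt (x + W.a₄ / x) 0 := (hx.gt' hα).add ((C.ha₄.div hx).gt' (by grind))
    exact C.hb₂.add_gt ((C.ge_four.mul_gt hk).mono (by grind))
  have h0 : 2 * (y / x) + W.a₁ ≠ 0 := by
    intro h0
    rw [h0] at hsq
    exact hsq.1 (by simp)
  have := (ex_of_ne h0).sq.unique hsq
  exact ⟨h0, by grind⟩

/-- Two points near the node with the same valuation of `x` and on the same branch differ by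
a point of the identity component. -/
theorem same_branch_sub (N : Centred W) (C : Core2 V W.a₄ W.b₂ h)
    {x₁ y₁ x₂ y₂ : K} {α : G}
    (h₁ : W.Nonsingular x₁ y₁) (h₂ : W.Nonsingular x₂ y₂)
    (hx₁ : V.Ex x₁ α) (hx₂ : V.Ex x₂ α) (hα : 0 < α) (hα' : α < h)
    (hbr : V.Gt (y₁ / x₁ - y₂ / x₂) 0) :
    Affine.Point.some x₁ y₁ h₁ - Affine.Point.some x₂ y₂ h₂ = 0 ∨
      V.NotM (px (Affine.Point.some x₁ y₁ h₁ - Affine.Point.some x₂ y₂ h₂)) := by
  have hh := C.hh
  have hx₁0 := hx₁.1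
  have hx₂0 := hx₂.1
  have hθ₁ := branch_theta N C h₁.1 hx₁ hα hα'
  have hθ₂ := branch_theta N C h₂.1 hx₂ hα hα'
  have hE₁ := h₁.1
  have hE₂ := h₂.1
  rw [Affine.equation_iff, N.ha₃, N.ha₆] at hE₁ hE₂
  by_cases hx : x₁ = x₂
  · -- same x-coordinate: the points are equal
    left
    subst hx
    rcases Affine.Y_eq_of_X_eq h₁.1 h₂.1 rfl with hy | hy
    · subst hy
      exact sub_self _
    · exfalso
      -- y₁ = negY x₁ y₂ contradicts the branch condition
      have : y₁ / x₁ - y₂ / x₁ = -(2 * (y₂ / x₁) + W.a₁) := by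
        rw [hy, Affine.negY, N.ha₃]
        field_simp
        ring
      rw [this] at hbr
      have := hθ₂.neg.not_gt hbr
      exact lt_irrefl _ this
  · right
    rw [sub_eq_add_neg, Affine.Point.neg_some, Affine.Point.add_of_X_ne hx, px_some,
      Affine.slope_of_X_ne hx]
    have hd0 : x₁ - x₂ ≠ 0 := sub_ne_zero.mpr hx
    have hdge : V.Ge (x₁ - x₂) α := hx₁.ge.sub hx₂.ge
    have hd : α ≤ V.w (x₁ - x₂) := hdge.le_of_ne hd0
    have hD : V.Ex ((x₁ - x₂) ^ 2) (V.w (x₁ - x₂) + V.w (x₁ - x₂)) := (ex_of_ne hd0).sq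
    -- the key identity
    have key : W.addX x₁ x₂ ((y₁ - W.negY x₂ y₂) / (x₁ - x₂)) * (x₁ - x₂) ^ 2
        = ((2 * (y₁ / x₁) + W.a₁) - (y₁ / x₁ - y₂ / x₂)) * x₂
            * ((2 * (y₁ / x₁) + W.a₁) * x₁ - (y₁ / x₁ - y₂ / x₂) * x₂)
          + (W.a₄ / x₁ - x₂) * (x₁ - x₂) ^ 2 := by
      simp only [Affine.addX, Affine.negY, N.ha₃]
      field_simp
      linear_combination (x₁ - x₂) ^ 2 * hE₁
    have hε : V.Ex (((2 * (y₁ / x₁) + W.a₁) - (y₁ / x₁ - y₂ / x₂)) * x₂) (0 + α) :=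
      (hθ₁.sub_gt hbr).mul hx₂
    have hε' : V.Ex ((2 * (y₁ / x₁) + W.a₁) * x₁ - (y₁ / x₁ - y₂ / x₂) * x₂) (0 + α) :=
      (hθ₁.mul hx₁).sub_gt ((hbr.mul_ge hx₂.ge).mono (by grind))
    have hrest : V.Gt ((W.a₄ / x₁ - x₂) * (x₁ - x₂) ^ 2)
        (0 + (V.w (x₁ - x₂) + V.w (x₁ - x₂))) :=
      (((C.ha₄.div hx₁).gt' (by grind)).sub (hx₂.gt' hα)).mul_ge hD.ge
    have hnum : V.Ex (W.addX x₁ x₂ ((y₁ - W.negY x₂ y₂) / (x₁ - x₂)) * (x₁ - x₂) ^ 2)
        (0 + α + (0 + α)) := by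
      rw [key]
      exact (hε.mul hε').add_gt (hrest.mono (by grind))
    have hfin := hnum.div hD
    rw [mul_div_cancel_right₀ _ (pow_ne_zero 2 hd0)] at hfin
    exact hfin.notM (by grind)

end S13H65
end MergeWrap_S13_H65_Branch

section MergeWrap_S13_TwoUnip -- from S13/TwoUnip.lean

set_option autoImplicit false

namespace Fermat.Agent.S13Two

open WeierstrassCurve WeierstrassCurve.Affine S05H65 S05H75 S05H5

variable {K : Type*} [Field K] [DecidableEq K] {Γ₀ : Type*} [LinearOrderedCommGroupWithZero Γ₀]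
variable {R S : Type*} [CommRing R] [CommRing S] [Algebra R S] [Algebra R K] [Algebra S K]
  [IsScalarTower R S K]

theorem inG0_neg {v : Valuation K Γ₀} {W : Affine K} {P : W.Point} (hP : InG0 v P) :
    InG0 v (-P) := by
  rcases hP with h | h
  · left; rw [h, neg_zero]
  · right; rwa [px_neg]

/-- For a torsion point `X` of odd order prime to the residue characteristic, `σX - X` lies in
the identity component. -/
theorem inG0_map_sub (v : Valuation K Γ₀) (W' : Affine R)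
    (hN : NodeAtOrigin v (W'⁄K)) (ha₄0 : (W'⁄K).a₄ ≠ 0)
    (σ : K →ₐ[S] K) (hσ : ∀ a : K, v a ≤ 1 → v (σ a - a) < 1)
    (hσv : ∀ a : K, v (σ a) = v a)
    {n : ℕ} (hodd : Odd n) (hn : v (n : K) = 1) (X : (W'⁄K).Point) (hX : n • X = 0) :
    InG0 v (Point.map σ X - X) := by
  classical
  have hσ' : ∀ a : K, 1 < v a → 1 < v (σ a) := fun a ha => by rw [hσv]; exact ha
  by_cases hX0 : InG0 v X
  · have := map_eq_self_of_inG0 v W' hN σ hσ hσ' hn X hX hX0
    rw [this, sub_self]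
    exact Or.inl rfl
  set V := S05H27.ofValuation v with hV
  set h := V.w (W'⁄K).a₄ with hh_def
  have hh : 0 < h := (S05H27.zero_lt_w_iff v ha₄0).mpr hN.ha₄
  have N : S13H65.Centred (W'⁄K) := ⟨hN.ha₃, hN.ha₆⟩
  have C : S13H65.Core2 V (W'⁄K).a₄ (W'⁄K).b₂ h :=
    ⟨(S05H27.le_one_iff_ge v 2).mp (vle_ofNat v 2), (S05H27.eq_one_iff_ex v _).mp hN.hb₂,
      ⟨ha₄0, rfl⟩, hh⟩
  rcases X with _ | ⟨x, y, hxy⟩
  · exact absurd (Or.inl rfl) hX0
  have hx1 : v x < 1 := by
    by_contra hcon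
    exact hX0 (Or.inr (not_lt.mp hcon))
  obtain ⟨m, hm⟩ := S13H65.rho2_torsion N C (Point.some x y hxy) n hX
  rw [S13H65.rho2_of_ne (Point.some_ne_zero _), px_some] at hm
  rcases AVal.regime V h x with ⟨α, hx, hα⟩ | ⟨α, hx, hα, hα'⟩ | hx
  · exact absurd ((S05H27.one_le_iff_notM v x).mpr (hx.notM hα)) (not_le.2 hx1)
  · -- the main case: `0 < w x < h`
    have hmap : Point.map σ (Point.some x y hxy) = Point.some (σ x) (σ y)
        ((W'.baseChange_nonsingular σ.injective x y).mpr hxy) := Point.map_some σ hxy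
    rw [hmap]
    have hσx0 : σ x ≠ 0 := by
      intro h0
      exact hx.1 ((map_eq_zero_iff σ σ.injective).mp h0)
    have hσx : V.Ex (σ x) α :=
      ⟨hσx0, ((S05H27.w_eq_w_iff v hσx0 hx.1).mpr (hσv x)).trans hx.2⟩
    have ha₁ : V.Ge (W'⁄K).a₁ 0 := (S05H27.le_one_iff_ge v _).mp hN.ha₁
    have ha₂ : V.Ge (W'⁄K).a₂ 0 := (S05H27.le_one_iff_ge v _).mp hN.ha₂
    have hT : v (y / x) ≤ 1 :=
      (S05H27.le_one_iff_ge v _).mpr (S13H65.branch_integral N C ha₁ ha₂ hxy.1 hx hα hα')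
    have hbr : V.Gt (y / x - σ y / σ x) 0 := by
      rw [← S05H27.lt_one_iff_gt, Valuation.map_sub_swap, ← map_div₀]
      exact hσ _ hT
    have key := S13H65.same_branch_sub N C hxy
      ((W'.baseChange_nonsingular σ.injective x y).mpr hxy) hx hσx hα hα' hbr
    have key' : InG0 v (Point.some x y hxy - Point.some (σ x) (σ y)
        ((W'.baseChange_nonsingular σ.injective x y).mpr hxy)) := by
      rcases key with key | key
      · exact Or.inl key
      · exact Or.inr ((S05H27.one_le_iff_notM v _).mpr key)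
    have := inG0_neg key'
    rwa [neg_sub] at this
  · -- `w x ≥ h` contradicts the oddness of `n`
    exfalso
    rw [AVal.cl_of_ge hh hx] at hm
    have h1 : ((n : ℤ) - 2 * m) • h = 0 := by
      rw [sub_smul, natCast_zsmul, hm, mul_comm, mul_smul, two_smul, sub_self]
    have h3 : (n : ℤ) - 2 * m = 0 := by
      rcases smul_eq_zero.mp h1 with h4 | h4
      · exact h4
      · exact absurd h4 hh.ne'
    obtain ⟨k, hk⟩ := hodd
    omega

/-- Unipotence: `σ(σX - X) = σX - X` for every torsion point `X` of odd order prime to the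
residue characteristic. -/
theorem map_sub_fixed (v : Valuation K Γ₀) (W' : Affine R)
    (hN : NodeAtOrigin v (W'⁄K)) (ha₄0 : (W'⁄K).a₄ ≠ 0)
    (σ : K →ₐ[S] K) (hσ : ∀ a : K, v a ≤ 1 → v (σ a - a) < 1)
    (hσv : ∀ a : K, v (σ a) = v a)
    {n : ℕ} (hodd : Odd n) (hn : v (n : K) = 1) (X : (W'⁄K).Point) (hX : n • X = 0) :
    Point.map σ (Point.map σ X - X) = Point.map σ X - X := by
  have hσ' : ∀ a : K, 1 < v a → 1 < v (σ a) := fun a ha => by rw [hσv]; exact ha
  have hY := inG0_map_sub v W' hN ha₄0 σ hσ hσv hodd hn X hX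
  have htor : n • (Point.map σ X - X) = 0 := by
    rw [smul_sub, hX, ← map_nsmul, hX, map_zero, sub_zero]
  exact map_eq_self_of_inG0 v W' hN σ hσ hσ' hn _ htor hY

end Fermat.Agent.S13Two
end MergeWrap_S13_TwoUnip

section MergeWrap_S13_TwoFrey -- from S13/TwoFrey.lean

set_option autoImplicit false

namespace Fermat.Agent.S13Two

open WeierstrassCurve WeierstrassCurve.Affine S05H65 S05H75 S05H5 Fermat.Agent.FreyLib

section FreyTwo

variable {K : Type*} [Field K] [Algebra ℚ K] {Γ₀ : Type*} [LinearOrderedCommGroupWithZero Γ₀]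

/-- `2 ∣ a₄` for the integral Frey curve. -/
theorem frey_two_dvd_a₄ (P : FreyPackage) : (2 : ℤ) ∣ P.freyCurveInt.a₄ := by
  have h16 := sixteen_mul_a₄ P
  obtain ⟨k, hk⟩ := thirtytwo_dvd_b_pow P
  refine ⟨-(P.a ^ P.p) * k, ?_⟩
  have : 16 * P.freyCurveInt.a₄ = 16 * (2 * (-(P.a ^ P.p) * k)) := by
    rw [h16, hk]; ring
  exact mul_left_cancel₀ (by norm_num) this

theorem frey_a₄_ne_zero (P : FreyPackage) : P.freyCurveInt.a₄ ≠ 0 := by
  intro h0
  have h16 := sixteen_mul_a₄ P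
  rw [h0, mul_zero] at h16
  have h1 : P.a ^ P.p * P.b ^ P.p = 0 := by linarith
  rcases mul_eq_zero.mp h1 with h | h
  · exact P.ha0 (pow_eq_zero_iff P.hp0 |>.mp h)
  · exact P.hb0 (pow_eq_zero_iff P.hp0 |>.mp h)

/-- `b₂ = b^p - a^p` is odd. -/
theorem frey_b₂_odd (P : FreyPackage) : ¬ (2 : ℤ) ∣ P.freyCurveInt.b₂ := by
  rw [freyCurveInt_b₂]
  have h1 := a_pow_emod_four P
  have h2 := thirtytwo_dvd_b_pow P
  omega

/-- `S05H75.frey_baseChange_eq` for the affine base change notation. -/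
theorem frey_baseChange_affine (P : FreyPackage) :
    (P.freyCurve⁄K) = P.freyCurveInt.map (Int.castRingHom K) :=
  frey_baseChange_eq (K := K) P

/-- The Frey curve has a node at the origin at every valuation over `2`. -/
theorem frey_nodeAtOrigin (P : FreyPackage) (v : Valuation K Γ₀) (hv2 : v (2 : K) < 1) :
    NodeAtOrigin v (P.freyCurve⁄K) := by
  have hv2' : v ((2 : ℕ) : K) < 1 := by simpa using hv2
  rw [frey_baseChange_affine (K := K) P]
  refine ⟨?_, ?_, ?_, ?_, ?_, ?_⟩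
  · rw [map_a₁, eq_intCast]; exact vle_intCast v _
  · rw [map_a₂, eq_intCast]; exact vle_intCast v _
  · rw [map_a₃, freyCurveInt_a₃, map_zero]
  · rw [map_a₄, eq_intCast]
    exact v_intCast_lt_one v hv2' (by exact_mod_cast frey_two_dvd_a₄ P)
  · rw [map_a₆, freyCurveInt_a₆, map_zero]
  · rw [map_b₂, eq_intCast]
    exact v_intCast_eq_one v Nat.prime_two hv2' (by exact_mod_cast frey_b₂_odd P)

theorem frey_a₄_ne_zero' [CharZero K] (P : FreyPackage) : (P.freyCurve⁄K).a₄ ≠ 0 := by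
  rw [frey_baseChange_affine (K := K) P, map_a₄, eq_intCast]
  exact_mod_cast frey_a₄_ne_zero P

end FreyTwo

/-- (U2): the inertia group at `2` acts unipotently on the `p`-torsion of the Frey curve. -/
theorem frey_inertia_two_unipotent (P : FreyPackage) (A : ValuationSubring (AlgebraicClosure ℚ))
    (hA : A.LiesOverPrime 2) (σ : AlgebraicClosure ℚ ≃ₐ[ℚ] AlgebraicClosure ℚ)
    (hσ : σ ∈ A.inertiaSubgroupIn ℚ)
    (x : Submodule.torsionBy ℤ (P.freyCurve⁄(AlgebraicClosure ℚ)).Point P.p) :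
    σ • (σ • x - x) = σ • x - x := by
  have hv2 : A.valuation ((2 : ℕ) : AlgebraicClosure ℚ) < 1 := A.mem_nonunits_iff.mp hA
  have hv2' : A.valuation (2 : AlgebraicClosure ℚ) < 1 := by simpa using hv2
  have hN := frey_nodeAtOrigin (K := AlgebraicClosure ℚ) P A.valuation hv2'
  have ha₄0 := frey_a₄_ne_zero' (K := AlgebraicClosure ℚ) P
  have hdec := inertiaIn_mem_decomp A σ hσ
  have hσ1 : ∀ a : AlgebraicClosure ℚ, A.valuation a ≤ 1 →
      A.valuation (σ.toAlgHom a - a) < 1 := by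
    intro a ha
    have ha' : a ∈ A := (A.valuation_le_one_iff a).mp ha
    exact A.mem_nonunits_iff.mp (inertiaIn_sub_mem_nonunits A σ hσ ha')
  have : Algebra.IsAlgebraic ℚ (AlgebraicClosure ℚ) := AlgebraicClosure.isAlgebraic ℚ
  have hσv : ∀ a : AlgebraicClosure ℚ, A.valuation (σ.toAlgHom a) = A.valuation a :=
    fun a => decomp_val_eq A σ hdec a
  have hp2 : (2 : ℕ) ≠ P.p := by
    have := P.hp5
    omega
  have hn : A.valuation ((P.p : ℕ) : AlgebraicClosure ℚ) = 1 :=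
    v_prime_eq_one A.valuation Nat.prime_two hv2 P.pp hp2
  have hX : P.p • (x : (P.freyCurve⁄(AlgebraicClosure ℚ)).Point) = 0 := by
    have := x.2
    rw [Submodule.mem_torsionBy_iff] at this
    rw [← natCast_zsmul]
    exact this
  have key := map_sub_fixed A.valuation P.freyCurve hN ha₄0 σ.toAlgHom hσ1 hσv P.hp_odd hn
    (x : (P.freyCurve⁄(AlgebraicClosure ℚ)).Point) hX
  apply Subtype.ext
  exact key

end Fermat.Agent.S13Two
end MergeWrap_S13_TwoFrey

section MergeWrap_S13_WireR -- from S13/WireR.lean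

set_option autoImplicit false

namespace Fermat.Agent.S13Final

open WeierstrassCurve WeierstrassCurve.Affine WeierstrassCurve.Affine.Point

/-- S13 from (R). -/
theorem s13_of_R (P : FreyPackage)
    (hR : ∀ x : Submodule.torsionBy ℤ (P.freyCurve⁄(AlgebraicClosure ℚ)).Point P.p,
      (∀ σ : AlgebraicClosure ℚ ≃ₐ[ℚ] AlgebraicClosure ℚ, σ • x = x) → x = 0)
    (hred : ¬ GaloisRepIsIrreducible (K := AlgebraicClosure ℚ) ℚ P.freyCurve P.p) :
    HasGaloisStableCofixedLine (K := AlgebraicClosure ℚ) ℚ P.freyCurve P.p :=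
  s13_of_pieces P (Fermat.Agent.S13Count.frey_torsion_nontrivial P)
    (Fermat.Agent.S13Count.frey_torsion_finite P)
    (Fermat.Agent.S13Count.frey_card_torsion P).le
    (fun _ hq hq2 hqp => Fermat.Agent.S05.result P hq hq2 hqp)
    (fun A hA σ hσ x => Fermat.Agent.S13Two.frey_inertia_two_unipotent P A hA σ hσ x)
    hR
    (fun hcard N hN hbot htop A hA =>
      Fermat.Agent.S13AtP.frey_inertia_p_dichotomy P hcard N hN hbot htop A hA)
    hred

end Fermat.Agent.S13Final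
end MergeWrap_S13_WireR

section MergeWrap_S13_RTwoVal -- from S13/RTwoVal.lean

/-!
# S13, piece (R), part 1: a Weierstrass curve over `ℚ` with a node at `(0,0)` modulo `2`
whose discriminant valuation is prime to `p` has no rational point of order `p`

Setting: `W` over `ℚ` with `a₃ = a₆ = 0`, `b₂` a `2`-adic unit, `v₂(a₄) = h > 0` with
`4 + h = p k` (`p ≥ 5` prime).  Then `W(ℚ)[p] = 0`.
-/

set_option autoImplicit false

namespace Fermat.Agent.S13R

open WeierstrassCurve S05H65 S05H65.AVal S13H65 S05H75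

/-- The `2`-adic additive valuation on `ℚ`. -/
noncomputable def twoVal : AVal ℚ ℤ where
  w := padicValRat 2
  w_mul' _ _ hx hy := padicValRat.mul hx hy
  w_add' _ _ _ _ hxy := padicValRat.min_le_padicValRat_add hxy

lemma twoVal_w (x : ℚ) : twoVal.w x = padicValRat 2 x := rfl

/-- Integers have nonnegative valuation. -/
lemma twoVal_ge_intCast (n : ℤ) : twoVal.Ge (n : ℚ) 0 := by
  by_cases hn : (n : ℚ) = 0
  · exact Or.inl hn
  · refine Or.inr ?_
    rw [twoVal_w, padicValRat.of_int]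
    exact Int.natCast_nonneg _

lemma twoVal_ex_two : twoVal.Ex (2 : ℚ) 1 := by
  refine ⟨two_ne_zero, ?_⟩
  rw [twoVal_w]
  have : (2 : ℚ) = ((2 : ℕ) : ℚ) := by norm_num
  rw [this, padicValRat.self (by norm_num)]

/-- Odd integers are units. -/
lemma twoVal_ex_of_odd {n : ℤ} (hn : ¬ (2 : ℤ) ∣ n) : twoVal.Ex (n : ℚ) 0 := by
  have hn0 : n ≠ 0 := by rintro rfl; exact hn (dvd_zero _)
  refine ⟨by exact_mod_cast hn0, ?_⟩
  rw [twoVal_w, padicValRat.of_int]
  have : padicValInt 2 n = 0 := padicValInt.eq_zero_of_not_dvd (by exact_mod_cast hn)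
  rw [this]; rfl

/-- Even integers have positive valuation. -/
lemma twoVal_gt_of_even {n : ℤ} (hn : (2 : ℤ) ∣ n) : twoVal.Gt (n : ℚ) 0 := by
  obtain ⟨m, rfl⟩ := hn
  have h1 := twoVal_ex_two.gt' (show (0 : ℤ) < 1 by norm_num)
  have := h1.mul_ge (twoVal_ge_intCast m)
  rw [add_zero] at this
  push_cast
  exact this

/-- A rational `2`-adic unit is congruent to `1` modulo `2`. -/
lemma twoVal_gt_sub_one {x : ℚ} (hx : twoVal.Ex x 0) : twoVal.Gt (x - 1) 0 := by
  have hden : (x.den : ℚ) ≠ 0 := by exact_mod_cast x.den_ne_zero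
  have hnum : (x.num : ℚ) ≠ 0 := by
    intro h
    have : x = 0 := by
      rw [← Rat.num_div_den x, h, zero_div]
    exact hx.1 this
  have hxe : x = (x.num : ℚ) / (x.den : ℚ) := (Rat.num_div_den x).symm
  -- valuations of numerator and denominator agree
  have hw : twoVal.w (x.num : ℚ) = twoVal.w ((x.den : ℤ) : ℚ) := by
    have h1 := twoVal.w_div hnum (show ((x.den : ℤ) : ℚ) ≠ 0 by exact_mod_cast x.den_ne_zero)
    have h2 : (x.num : ℚ) / ((x.den : ℤ) : ℚ) = x := by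
      rw [Int.cast_natCast]; exact Rat.num_div_den x
    rw [h2, hx.2] at h1
    linarith
  -- both are odd
  have hodd_num : ¬ (2 : ℤ) ∣ x.num := by
    intro h2n
    have h2d : (2 : ℤ) ∣ (x.den : ℤ) := by
      by_contra h2d
      have e1 := (twoVal_ex_of_odd h2d).2
      have e2 := (twoVal_gt_of_even h2n).lt_of_ne hnum
      rw [hw, e1] at e2
      exact lt_irrefl _ e2
    have hcop : IsCoprime x.num (x.den : ℤ) := by
      rw [Int.isCoprime_iff_gcd_eq_one]
      exact x.reduced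
    have := hcop.isUnit_of_dvd' h2n h2d
    rw [Int.isUnit_iff] at this
    omega
  have hodd_den : ¬ (2 : ℤ) ∣ (x.den : ℤ) := by
    intro h2d
    have e1 := (twoVal_ex_of_odd hodd_num).2
    have e2 := (twoVal_gt_of_even h2d).lt_of_ne
      (show ((x.den : ℤ) : ℚ) ≠ 0 by exact_mod_cast x.den_ne_zero)
    rw [← hw, e1] at e2
    exact lt_irrefl _ e2
  have heven : (2 : ℤ) ∣ x.num - (x.den : ℤ) := by omega
  have h3 : x - 1 = ((x.num - (x.den : ℤ) : ℤ) : ℚ) / (((x.den : ℤ) : ℤ) : ℚ) := by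
    rw [Int.cast_sub, sub_div, Int.cast_natCast, div_self hden, Rat.num_div_den]
  rw [h3]
  have := (twoVal_gt_of_even heven).div (twoVal_ex_of_odd hodd_den)
  rwa [sub_zero] at this

/-- Two rational `2`-adic units are congruent modulo `2`. -/
lemma twoVal_gt_sub {x y : ℚ} (hx : twoVal.Ex x 0) (hy : twoVal.Ex y 0) :
    twoVal.Gt (x - y) 0 := by
  have := (twoVal_gt_sub_one hx).sub (twoVal_gt_sub_one hy)
  rwa [show x - 1 - (y - 1) = x - y by ring] at this

/-! ### Link with the multiplicative `2`-adic valuation -/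


lemma padicValuation_of_ne {x : ℚ} (hx : x ≠ 0) :
    Rat.padicValuation 2 x = WithZero.exp (-padicValRat 2 x) := by
  simp [Rat.padicValuation, hx]

lemma one_lt_padicValuation_iff {x : ℚ} :
    1 < Rat.padicValuation 2 x ↔ x ≠ 0 ∧ twoVal.w x < 0 := by
  by_cases hx : x = 0
  · simp [hx]
  · rw [padicValuation_of_ne hx, twoVal_w, ← WithZero.exp_zero, WithZero.exp_lt_exp]
    simp [hx]

lemma padicValuation_le_one_iff {x : ℚ} :
    Rat.padicValuation 2 x ≤ 1 ↔ twoVal.Ge x 0 := by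
  unfold AVal.Ge
  by_cases hx : x = 0
  · simp [hx]
  · rw [padicValuation_of_ne hx, twoVal_w, ← WithZero.exp_zero, WithZero.exp_le_exp]
    simp [hx]

lemma padicValuation_eq_one_iff {x : ℚ} :
    Rat.padicValuation 2 x = 1 ↔ twoVal.Ex x 0 := by
  unfold AVal.Ex
  by_cases hx : x = 0
  · simp [hx]
  · rw [padicValuation_of_ne hx, twoVal_w, ← WithZero.exp_zero, WithZero.exp_inj]
    simp [hx]

end Fermat.Agent.S13R
end MergeWrap_S13_RTwoVal

section MergeWrap_S13_RCore -- from S13/RCore.lean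

/-!
# S13, piece (R), part 2: no rational point of order `p` (abstract form over `ℚ`)
-/

set_option autoImplicit false

namespace Fermat.Agent.S13R

open WeierstrassCurve S05H65 S05H65.AVal S13H65 S05H75

/-- The arithmetic at the heart of (R): `gcd (p, 2 (p k - 4)) = 1`. -/
lemma rho_eq_zero_of_arith {p : ℕ} (hp : p.Prime) (hp5 : 5 ≤ p) {h k ρ m : ℤ}
    (hk : 4 + h = p * k) (hh : 0 < h) (h0 : 0 ≤ ρ) (hle : ρ ≤ h)
    (hm : p • ρ = m • (h + h)) : ρ = 0 := by
  rw [nsmul_eq_mul, smul_eq_mul] at hm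
  have hdvd : (p : ℤ) ∣ 8 * m := by
    refine ⟨2 * k * m - ρ, ?_⟩
    have e : h = p * k - 4 := by linarith
    rw [e] at hm
    linear_combination hm
  have hp' : Prime (p : ℤ) := Nat.prime_iff_prime_int.mp hp
  have hpm : (p : ℤ) ∣ m := by
    rcases hp'.dvd_or_dvd hdvd with h8 | hm'
    · exfalso
      have h8' : p ∣ 8 := by exact_mod_cast h8
      have hle8 : p ≤ 8 := Nat.le_of_dvd (by norm_num) h8'
      interval_cases p <;> first | omega | (norm_num at hp)
    · exact hm'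
  obtain ⟨m', rfl⟩ := hpm
  have hp0 : (p : ℤ) ≠ 0 := by exact_mod_cast hp.ne_zero
  have hρ : ρ = m' * (h + h) := by
    apply mul_left_cancel₀ hp0
    rw [hm]; ring
  rcases lt_trichotomy m' 0 with hneg | hzero | hpos
  · exfalso
    have : m' * (h + h) < 0 := mul_neg_of_neg_of_pos hneg (by linarith)
    linarith
  · rw [hρ, hzero, zero_mul]
  · exfalso
    have h1 : 1 ≤ m' := hpos
    have : 1 * (h + h) ≤ m' * (h + h) := mul_le_mul_of_nonneg_right h1 (by linarith)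
    linarith

variable {W : WeierstrassCurve.Affine ℚ}

/-- No rational point of order `p` on a Weierstrass curve over `ℚ` with `a₃ = a₆ = 0`,
`b₂` a `2`-adic unit and `v₂(a₄) = p k - 4 > 0`. -/
theorem no_torsion_of_core2 (N : Centred W) {h : ℤ} (C : Core2 twoVal W.a₄ W.b₂ h)
    {p : ℕ} (hp : p.Prime) (hp5 : 5 ≤ p) {k : ℤ} (hk : 4 + h = p * k)
    (X : W.Point) (hX : p • X = 0) : X = 0 := by
  classical
  by_contra hX0
  have hh := C.hh
  -- the component function vanishes on `p`-torsion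
  have hρ : ∀ Y : W.Point, p • Y = 0 → rho2 twoVal h Y = 0 := fun Y hY => by
    obtain ⟨m, hm⟩ := rho2_torsion N C Y p hY
    exact rho_eq_zero_of_arith hp hp5 hk hh (rho2_nonneg hh Y) (rho2_le hh Y) hm
  -- integrality of the `b`-invariants
  have ha₄ : twoVal.Ge W.a₄ 0 := C.ha₄.ge' hh.le
  have h2 : twoVal.Ge (2 : ℚ) 0 := C.h2
  have hb₂ : Rat.padicValuation 2 W.b₂ ≤ 1 := padicValuation_le_one_iff.mpr C.hb₂.ge
  have hb₄ : Rat.padicValuation 2 W.b₄ ≤ 1 := by
    rw [N.b₄]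
    refine padicValuation_le_one_iff.mpr ?_
    have := h2.mul ha₄
    rwa [add_zero] at this
  have hb₆ : Rat.padicValuation 2 W.b₆ ≤ 1 := by
    rw [N.b₆, map_zero]; exact zero_le_one
  have hb₈ : Rat.padicValuation 2 W.b₈ ≤ 1 := by
    rw [N.b₈]
    refine padicValuation_le_one_iff.mpr ?_
    have := (ha₄.sq).neg
    rwa [add_zero] at this
  have hpodd : ¬ (2 : ℤ) ∣ (p : ℤ) := by
    intro h2p
    have h2p' : 2 ∣ p := by exact_mod_cast h2p
    have := (Nat.prime_dvd_prime_iff_eq Nat.prime_two hp).mp h2p'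
    omega
  have hvp : Rat.padicValuation 2 (p : ℚ) = 1 := by
    have := twoVal_ex_of_odd hpodd
    rw [Int.cast_natCast] at this
    exact padicValuation_eq_one_iff.mpr this
  -- the kernel of reduction has no `p`-torsion
  have hG1 : ∀ Y : W.Point, p • Y = 0 → InG1 (Rat.padicValuation 2) Y → Y = 0 :=
    fun Y hY hG => inG1_torsion_free (Rat.padicValuation 2) hb₂ hb₄ hb₆ hb₈ hvp hG hY
  -- small multiples of `X` are nonzero
  have hmul : ∀ j : ℕ, 0 < j → j < p → j • X ≠ 0 := by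
    intro j hj0 hjp hjX
    have hndvd : ¬ p ∣ j := fun hd => absurd (Nat.le_of_dvd hj0 hd) (not_le.mpr hjp)
    have hcop : Nat.gcd j p = 1 := by
      rw [Nat.gcd_comm]
      exact (Nat.Prime.coprime_iff_not_dvd hp).mpr hndvd
    have h1 : addOrderOf X ∣ j := addOrderOf_dvd_of_nsmul_eq_zero hjX
    have h2 : addOrderOf X ∣ p := addOrderOf_dvd_of_nsmul_eq_zero hX
    have h3 : addOrderOf X ∣ Nat.gcd j p := Nat.dvd_gcd h1 h2
    rw [hcop, Nat.dvd_one] at h3
    exact hX0 (AddMonoid.addOrderOf_eq_one_iff.mp h3)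
  -- every nonzero `p`-torsion point has a unit `x`-coordinate
  have hunit : ∀ Y : W.Point, p • Y = 0 → Y ≠ 0 → twoVal.Ex (px Y) 0 := by
    intro Y hY hY0
    rcases rho2_eq_zero_imp hh (hρ Y hY) with h0 | ⟨hx0, hle⟩
    · exact absurd h0 hY0
    · refine ⟨hx0, le_antisymm hle ?_⟩
      by_contra hlt
      rw [not_le] at hlt
      exact hY0 (hG1 Y hY (Or.inr (one_lt_padicValuation_iff.mpr ⟨hx0, hlt⟩)))
  have hp2 : 2 < p := by omega
  have hp3 : 3 < p := by omega
  have h2X : (2 : ℕ) • X ≠ 0 := hmul 2 (by norm_num) hp2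
  have h3X : (3 : ℕ) • X ≠ 0 := hmul 3 (by norm_num) hp3
  have hp2X : p • ((2 : ℕ) • X) = 0 := by rw [smul_comm, hX, nsmul_zero]
  have hp3X : p • ((3 : ℕ) • X) = 0 := by rw [smul_comm, hX, nsmul_zero]
  have e1 := hunit X hX hX0
  have e2 := hunit _ hp2X h2X
  have e3 := hunit _ hp3X h3X
  have hadd : (2 : ℕ) • X + X = (3 : ℕ) • X := (succ_nsmul X 2).symm
  have hsub : (2 : ℕ) • X - X = X := by rw [two_nsmul]; abel
  by_cases hx : px ((2 : ℕ) • X) = px X
  · rcases eq_or_eq_neg_of_px_eq h2X hX0 hx with h | h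
    · rw [two_nsmul] at h
      exact hX0 (by simpa using h)
    · apply h3X
      rw [← hadd, h, neg_add_cancel]
  · have hprod := N.px_prod h2X hX0 hx
    rw [hadd, hsub] at hprod
    have hd0 : px ((2 : ℕ) • X) - px X ≠ 0 := sub_ne_zero.mpr hx
    have hd : 0 < twoVal.w (px ((2 : ℕ) • X) - px X) := (twoVal_gt_sub e2 e1).lt_of_ne hd0
    have hD := (ex_of_ne (V := twoVal) hd0).sq
    have hR : twoVal.Ex ((px ((2 : ℕ) • X) * px X - W.a₄) ^ 2) (0 + 0 + (0 + 0)) :=
      ((e2.mul e1).sub_gt (C.ha₄.gt' (by linarith))).sq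
    have hL := (e3.mul e1).mul hD
    rw [hprod] at hL
    have := hL.unique hR
    linarith

end Fermat.Agent.S13R
end MergeWrap_S13_RCore

section MergeWrap_S13_R -- from S13/R.lean

/-!
# S13, piece (R): the Frey curve has no nonzero Galois-fixed point of order `p`

A Galois-fixed point of `E[p](ℚ̄)` has rational coordinates, hence comes from `E(ℚ)`; and
`E(ℚ)[p] = 0` by the `2`-adic analysis of `RCore.lean` (`v₂(a₄) = p v₂(b) - 4` is prime to `p`).
-/

set_option autoImplicit false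

namespace Fermat.Agent.S13R

open WeierstrassCurve WeierstrassCurve.Affine WeierstrassCurve.Affine.Point
open S05H65 S05H65.AVal S13H65 Fermat.Agent.FreyLib

/-- The rational Frey curve is the image of the integral one. -/
theorem freyQ_eq (P : FreyPackage) :
    (P.freyCurve⁄ℚ) = P.freyCurveInt.map (Int.castRingHom ℚ) :=
  S05H75.frey_baseChange_eq (K := ℚ) P

theorem freyQ_centred (P : FreyPackage) : Centred (P.freyCurve⁄ℚ) := by
  rw [freyQ_eq]
  exact ⟨by rw [map_a₃, freyCurveInt_a₃, _root_.map_zero],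
    by rw [map_a₆, freyCurveInt_a₆, _root_.map_zero]⟩

theorem freyQ_two_dvd_a₄ (P : FreyPackage) : (2 : ℤ) ∣ P.freyCurveInt.a₄ := by
  have h16 := sixteen_mul_a₄ P
  obtain ⟨k, hk⟩ := thirtytwo_dvd_b_pow P
  refine ⟨-(P.a ^ P.p) * k, ?_⟩
  have : 16 * P.freyCurveInt.a₄ = 16 * (2 * (-(P.a ^ P.p) * k)) := by
    rw [h16, hk]; ring
  exact mul_left_cancel₀ (by norm_num) this

theorem freyQ_a₄_ne_zero (P : FreyPackage) : P.freyCurveInt.a₄ ≠ 0 := by
  intro h0
  have h16 := sixteen_mul_a₄ P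
  rw [h0, mul_zero] at h16
  have h1 : P.a ^ P.p * P.b ^ P.p = 0 := by linarith
  rcases mul_eq_zero.mp h1 with h | h
  · exact P.ha0 (pow_eq_zero_iff P.hp0 |>.mp h)
  · exact P.hb0 (pow_eq_zero_iff P.hp0 |>.mp h)

theorem freyQ_b₂_odd (P : FreyPackage) : ¬ (2 : ℤ) ∣ P.freyCurveInt.b₂ := by
  rw [freyCurveInt_b₂]
  have h1 := a_pow_emod_four P
  have h2 := thirtytwo_dvd_b_pow P
  omega

/-- The `2`-adic shape of the Frey curve: `v₂(a₄) = p v₂(b) - 4 > 0`, `b₂` a unit. -/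
theorem freyQ_core2 (P : FreyPackage) :
    ∃ h k : ℤ, 4 + h = P.p * k ∧
      Core2 twoVal (P.freyCurve⁄ℚ).a₄ (P.freyCurve⁄ℚ).b₂ h := by
  have ha₄ : (P.freyCurve⁄ℚ).a₄ = ((P.freyCurveInt.a₄ : ℤ) : ℚ) := by
    rw [freyQ_eq, map_a₄, eq_intCast]
  have hb₂ : (P.freyCurve⁄ℚ).b₂ = ((P.freyCurveInt.b₂ : ℤ) : ℚ) := by
    rw [freyQ_eq, map_b₂, eq_intCast]
  have ha₄0 : ((P.freyCurveInt.a₄ : ℤ) : ℚ) ≠ 0 := by exact_mod_cast freyQ_a₄_ne_zero P
  have hb0 : (P.b : ℚ) ≠ 0 := by exact_mod_cast P.hb0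
  refine ⟨twoVal.w ((P.freyCurveInt.a₄ : ℤ) : ℚ), twoVal.w (P.b : ℚ), ?_, ?_⟩
  · have h16 : (16 : ℚ) * ((P.freyCurveInt.a₄ : ℤ) : ℚ)
        = -((P.a : ℚ) ^ P.p * (P.b : ℚ) ^ P.p) := by
      have := congrArg (Int.cast : ℤ → ℚ) (sixteen_mul_a₄ P)
      push_cast at this
      linarith
    have w16 : twoVal.Ex (16 : ℚ) 4 := by
      have := twoVal_ex_two.pow 4
      norm_num at this
      exact this
    have wa : twoVal.Ex (P.a : ℚ) 0 := twoVal_ex_of_odd (a_odd P)
    have wb : twoVal.Ex (P.b : ℚ) (twoVal.w (P.b : ℚ)) := ex_of_ne hb0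
    have e1 := w16.mul (ex_of_ne ha₄0)
    have e2 := ((wa.pow P.p).mul (wb.pow P.p)).neg
    rw [h16] at e1
    have := e1.unique e2
    rw [this, smul_zero, zero_add, nsmul_eq_mul]
  · refine ⟨twoVal_ex_two.ge' (by norm_num), ?_, ?_, ?_⟩
    · rw [hb₂]; exact twoVal_ex_of_odd (freyQ_b₂_odd P)
    · rw [ha₄]; exact ex_of_ne ha₄0
    · exact (twoVal_gt_of_even (freyQ_two_dvd_a₄ P)).lt_of_ne ha₄0

/-- The Frey curve has no rational point of order `p`. -/
theorem freyQ_no_torsion (P : FreyPackage) (X : (P.freyCurve⁄ℚ).Point) (hX : P.p • X = 0) :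
    X = 0 := by
  obtain ⟨h, k, hk, C⟩ := freyQ_core2 P
  exact no_torsion_of_core2 (freyQ_centred P) C P.pp P.hp5 hk X hX

/-- An element of `ℚ̄` fixed by the whole Galois group is rational. -/
theorem exists_rat_of_fixed (x : AlgebraicClosure ℚ)
    (hx : ∀ σ : AlgebraicClosure ℚ ≃ₐ[ℚ] AlgebraicClosure ℚ, σ x = x) :
    ∃ r : ℚ, algebraMap ℚ (AlgebraicClosure ℚ) r = x := by
  have h1 : Algebra.IsAlgebraic ℚ (AlgebraicClosure ℚ) := AlgebraicClosure.isAlgebraic ℚ
  have h2 : IsAlgClosure ℚ (AlgebraicClosure ℚ) := ⟨inferInstance, h1⟩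
  have h3 : IsGalois ℚ (AlgebraicClosure ℚ) := IsAlgClosure.isGalois ℚ (AlgebraicClosure ℚ)
  exact (InfiniteGalois.mem_range_algebraMap_iff_fixed (k := ℚ) (K := AlgebraicClosure ℚ) x).mpr hx

/-- (R): a Galois-fixed point of `E[p]` on the Frey curve is zero. -/
theorem frey_no_rational_torsion (P : FreyPackage)
    (x : Submodule.torsionBy ℤ (P.freyCurve⁄(AlgebraicClosure ℚ)).Point P.p)
    (hx : ∀ σ : AlgebraicClosure ℚ ≃ₐ[ℚ] AlgebraicClosure ℚ, σ • x = x) : x = 0 := by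
  have hpX : (P.p : ℤ) • (x : (P.freyCurve⁄(AlgebraicClosure ℚ)).Point) = 0 :=
    (Submodule.mem_torsionBy_iff _ _).mp x.2
  have hfix : ∀ σ : AlgebraicClosure ℚ ≃ₐ[ℚ] AlgebraicClosure ℚ,
      Point.map (W' := P.freyCurve) σ.toAlgHom (x : (P.freyCurve⁄(AlgebraicClosure ℚ)).Point)
        = (x : (P.freyCurve⁄(AlgebraicClosure ℚ)).Point) :=
    fun σ => congrArg Subtype.val (hx σ)
  rcases hX : (x : (P.freyCurve⁄(AlgebraicClosure ℚ)).Point) with _ | ⟨x₀, y₀, hns⟩
  · exact Subtype.ext hX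
  · exfalso
    rw [hX] at hfix hpX
    have hx₀ : ∀ σ : AlgebraicClosure ℚ ≃ₐ[ℚ] AlgebraicClosure ℚ, σ x₀ = x₀ := fun σ => by
      have := hfix σ
      rw [Point.map_some] at this
      exact (Point.some.inj this).1
    have hy₀ : ∀ σ : AlgebraicClosure ℚ ≃ₐ[ℚ] AlgebraicClosure ℚ, σ y₀ = y₀ := fun σ => by
      have := hfix σ
      rw [Point.map_some] at this
      exact (Point.some.inj this).2
    obtain ⟨r, hr⟩ := exists_rat_of_fixed x₀ hx₀
    obtain ⟨s, hs⟩ := exists_rat_of_fixed y₀ hy₀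
    have hns' : (P.freyCurve⁄ℚ).Nonsingular r s := by
      refine (WeierstrassCurve.Affine.baseChange_nonsingular P.freyCurve
        (f := Algebra.ofId ℚ (AlgebraicClosure ℚ)) (Algebra.ofId ℚ (AlgebraicClosure ℚ)).injective
        r s).mp ?_
      have e1 : (Algebra.ofId ℚ (AlgebraicClosure ℚ)) r = x₀ := hr
      have e2 : (Algebra.ofId ℚ (AlgebraicClosure ℚ)) s = y₀ := hs
      rw [e1, e2]
      exact hns
    have hmap : Point.map (W' := P.freyCurve) (Algebra.ofId ℚ (AlgebraicClosure ℚ))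
        (Point.some r s hns') = Point.some x₀ y₀ hns := by
      rw [Point.map_some]
      have e1 : (Algebra.ofId ℚ (AlgebraicClosure ℚ)) r = x₀ := hr
      have e2 : (Algebra.ofId ℚ (AlgebraicClosure ℚ)) s = y₀ := hs
      simp only [e1, e2]
    have hpQ : P.p • (Point.some r s hns' : (P.freyCurve⁄ℚ).Point) = 0 := by
      apply Point.map_injective (W' := P.freyCurve) (Algebra.ofId ℚ (AlgebraicClosure ℚ))
      rw [map_nsmul, hmap, _root_.map_zero, ← natCast_zsmul]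
      exact hpX
    exact Point.some_ne_zero _ (freyQ_no_torsion P _ hpQ)

end Fermat.Agent.S13R
end MergeWrap_S13_R

section MergeWrap_S13 -- from S13.lean

set_option autoImplicit false
open WeierstrassCurve WeierstrassCurve.Affine WeierstrassCurve.Affine.Point
open CuspForm ModularFormClass UpperHalfPlane
open FreyPackage

namespace Fermat.Agent.S13

theorem result (P : FreyPackage) (hred : ¬ GaloisRepIsIrreducible (K := AlgebraicClosure ℚ) ℚ P.freyCurve P.p) : HasGaloisStableCofixedLine (K := AlgebraicClosure ℚ) ℚ P.freyCurve P.p :=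
  Fermat.Agent.S13Final.s13_of_R P
    (fun x hx => Fermat.Agent.S13R.frey_no_rational_torsion P x hx) hred

end Fermat.Agent.S13
end MergeWrap_S13

section MergeWrap_S09_Top -- from S09/Top.lean

/-!
# S09 (Mazur for the Frey curve) from S12

`S10` (`p ∈ {5, 7, 13}`), `S11` (`p = 11`) and `S13` (reducible implies cofixed line) are proved.
So `S09` follows from `S12` (`p ≥ 17`) alone; this file records that implication with `S12` as an
explicit hypothesis, so that the final `S09.lean` is a one-liner once `S12` exists.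
-/

set_option autoImplicit false
open WeierstrassCurve WeierstrassCurve.Affine WeierstrassCurve.Affine.Point

namespace Fermat.Agent.S09Top

/-- `S09` from `S12` (the three other inputs `S10`, `S11`, `S13` being proved). -/
theorem s09_of_s12
    (h12 : ∀ P : FreyPackage, 17 ≤ P.p →
      ¬ HasGaloisStableCofixedLine (K := AlgebraicClosure ℚ) ℚ P.freyCurve P.p)
    (P : FreyPackage) :
    GaloisRepIsIrreducible (K := AlgebraicClosure ℚ) ℚ P.freyCurve P.p :=
  Fermat.Agent.S09Core.irreducible_of_parts P (Fermat.Agent.S13.result P)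
    (Fermat.Agent.S10.result P) (Fermat.Agent.S11.result P) (h12 P)

end Fermat.Agent.S09Top
end MergeWrap_S09_Top
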